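/-
DS-T, cell [GE] (node-E twin, generic in the pair of `q`-expansion fields), file 1: THE GLUE.

Generic port of the instantiation sections of `JT3/PlaceMap/Global.lean` and
`JT3/PlaceMap/NodeE.lean`: the pair
`(laurentBaseChange L (modularFunctionFieldFull N), modularFunctionFieldFullC k N)` is replaced by
an ARBITRARY pair `F : IntermediateField L (LaurentSeries L)`,
`Ft : IntermediateField k (LaurentSeries k)`, and the prelude's `ReductionInputsAlong` by
`dsr_ReductionInputs` (`DS/Hecke/RedDefs.lean`).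

* `ge_intSubring A π F Ft` : the functions of `F` with an `A`-integral `q`-expansion whose reduction
  lies in `Ft`; `ge_intLift`, `ge_intRed : ge_intSubring A π F Ft →+* Ft`, `ge_intRed_spec`.
* `ge_principalGenerated` : Gauss quotients give `dsr_PrincipalGeneratedByIntegral`.
* `ge_reductionInputs_of_glue` : two glued charts (`rpg_Glue`) give `dsr_ReductionInputs`;
  `ge_reductionInputs_of_charts` : the same from `HasLevels` + `RedRegular`.
Prefix `ge_`.
-/
import Mathlib
import Fermat.Agent.DS.Hecke.RedDefs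
import Fermat.Agent.JT3.PlaceMap.NodeE

set_option autoImplicit false
set_option linter.unusedSectionVars false
set_option linter.style.haveILetI false

namespace Fermat.Agent.DS

open AlgebraicCurve ModularCurve Fermat.Agent.JT3 Fermat.Agent.S24

section Inst

variable {L : Type*} [Field L] (A : ValuationSubring L)
variable {k : Type*} [Field k] (π : A →+* k)
variable (F : IntermediateField L (LaurentSeries L)) (Ft : IntermediateField k (LaurentSeries k))

theorem ge_coeffMap_subtype_ne_zero {y : LaurentSeries A} (hy : coeffMap π y ≠ 0) :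
    coeffMap A.subtype y ≠ 0 := by
  intro h
  apply hy
  have : y = 0 := dsr_coeffMap_subtype_injective (by rw [h, map_zero])
  rw [this, map_zero]

/-- the integral functions whose reduction lies in the reduced function field. -/
def ge_intSubring : Subring ↥F where
  carrier := {f | ∃ y : LaurentSeries A, coeffMap A.subtype y = (f : LaurentSeries L) ∧
      coeffMap π y ∈ Ft}
  mul_mem' := by
    rintro f g ⟨y, hy, hyk⟩ ⟨z, hz, hzk⟩
    exact ⟨y * z, by rw [map_mul, hy, hz]; rfl, by rw [map_mul]; exact mul_mem hyk hzk⟩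
  one_mem' := ⟨1, by rw [map_one]; rfl, by rw [map_one]; exact one_mem _⟩
  add_mem' := by
    rintro f g ⟨y, hy, hyk⟩ ⟨z, hz, hzk⟩
    exact ⟨y + z, by rw [map_add, hy, hz]; rfl, by rw [map_add]; exact add_mem hyk hzk⟩
  zero_mem' := ⟨0, by rw [map_zero]; rfl, by rw [map_zero]; exact zero_mem _⟩
  neg_mem' := by
    rintro f ⟨y, hy, hyk⟩
    exact ⟨-y, by rw [map_neg, hy]; rfl, by rw [map_neg]; exact neg_mem hyk⟩

theorem ge_mem_intSubring {f : ↥F} :
    f ∈ ge_intSubring A π F Ft ↔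
      ∃ y : LaurentSeries A, coeffMap A.subtype y = (f : LaurentSeries L) ∧ coeffMap π y ∈ Ft :=
  Iff.rfl

/-- the integral lift of an integral function -/
noncomputable def ge_intLift (f : ge_intSubring A π F Ft) : LaurentSeries A :=
  (f.2 : ∃ y : LaurentSeries A, coeffMap A.subtype y = ((f : ↥F) : LaurentSeries L) ∧
      coeffMap π y ∈ Ft).choose

theorem ge_intLift_spec (f : ge_intSubring A π F Ft) :
    coeffMap A.subtype (ge_intLift A π F Ft f) = ((f : ↥F) : LaurentSeries L) ∧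
      coeffMap π (ge_intLift A π F Ft f) ∈ Ft :=
  (f.2 : ∃ y : LaurentSeries A, coeffMap A.subtype y = ((f : ↥F) : LaurentSeries L) ∧
      coeffMap π y ∈ Ft).choose_spec

theorem ge_intLift_eq (f : ge_intSubring A π F Ft) (y : LaurentSeries A)
    (hy : coeffMap A.subtype y = ((f : ↥F) : LaurentSeries L)) :
    ge_intLift A π F Ft f = y :=
  dsr_coeffMap_subtype_injective (by rw [(ge_intLift_spec A π F Ft f).1, hy])

/-- the reduction map on the integral functions -/
noncomputable def ge_intRed : ge_intSubring A π F Ft →+* ↥Ft where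
  toFun f := ⟨coeffMap π (ge_intLift A π F Ft f), (ge_intLift_spec A π F Ft f).2⟩
  map_one' := by
    apply Subtype.ext
    change coeffMap π (ge_intLift A π F Ft 1) = 1
    rw [ge_intLift_eq A π F Ft 1 1 (by rw [map_one]; rfl), map_one]
  map_mul' f g := by
    apply Subtype.ext
    change coeffMap π (ge_intLift A π F Ft (f * g)) =
      coeffMap π (ge_intLift A π F Ft f) * coeffMap π (ge_intLift A π F Ft g)
    rw [ge_intLift_eq A π F Ft (f * g) (ge_intLift A π F Ft f * ge_intLift A π F Ft g)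
      (by rw [map_mul, (ge_intLift_spec A π F Ft f).1, (ge_intLift_spec A π F Ft g).1]; rfl),
      map_mul]
  map_zero' := by
    apply Subtype.ext
    change coeffMap π (ge_intLift A π F Ft 0) = 0
    rw [ge_intLift_eq A π F Ft 0 0 (by rw [map_zero]; rfl), map_zero]
  map_add' f g := by
    apply Subtype.ext
    change coeffMap π (ge_intLift A π F Ft (f + g)) =
      coeffMap π (ge_intLift A π F Ft f) + coeffMap π (ge_intLift A π F Ft g)
    rw [ge_intLift_eq A π F Ft (f + g) (ge_intLift A π F Ft f + ge_intLift A π F Ft g)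
      (by rw [map_add, (ge_intLift_spec A π F Ft f).1, (ge_intLift_spec A π F Ft g).1]; rfl),
      map_add]

theorem ge_intRed_coe (f : ge_intSubring A π F Ft) (y : LaurentSeries A)
    (hy : coeffMap A.subtype y = ((f : ↥F) : LaurentSeries L)) :
    ((ge_intRed A π F Ft f : ↥Ft) : LaurentSeries k) = coeffMap π y := by
  change coeffMap π (ge_intLift A π F Ft f) = _
  rw [ge_intLift_eq A π F Ft f y hy]

/-- the canonical pair `(ge_intSubring, ge_intRed)` satisfies the compatibility hypothesis of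
`ge_reductionInputs_of_glue`. -/
theorem ge_intRed_spec (y : LaurentSeries A) (hy : coeffMap A.subtype y ∈ F)
    (hyk : coeffMap π y ∈ Ft) :
    ∃ h : (⟨coeffMap A.subtype y, hy⟩ : ↥F) ∈ ge_intSubring A π F Ft,
      ge_intRed A π F Ft ⟨_, h⟩ = ⟨coeffMap π y, hyk⟩ := by
  refine ⟨⟨y, rfl, hyk⟩, ?_⟩
  apply Subtype.ext
  change coeffMap π (ge_intLift A π F Ft _) = coeffMap π y
  rw [ge_intLift_eq A π F Ft _ y rfl]

variable {A π F Ft}

/-- **(E-gen)**: Gauss quotients give `dsr_PrincipalGeneratedByIntegral`. -/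
theorem ge_principalGenerated (hF : rp_FunField L ↥F)
    (hgen : ∀ f : ↥F, f ≠ 0 →
      ∃ (c : L) (y z : LaurentSeries A) (hy : coeffMap A.subtype y ∈ F)
        (hz : coeffMap A.subtype z ∈ F),
        c ≠ 0 ∧ coeffMap π y ∈ Ft ∧ coeffMap π y ≠ 0 ∧ coeffMap π z ∈ Ft ∧ coeffMap π z ≠ 0 ∧
          f * (⟨coeffMap A.subtype z, hz⟩ : ↥F) = algebraMap L ↥F c * ⟨coeffMap A.subtype y, hy⟩) :
    dsr_PrincipalGeneratedByIntegral A π F Ft := by
  intro D hD
  obtain ⟨f, hf, hDf⟩ := hD
  obtain ⟨c, y, z, hy, hz, hc, hyk, hyne, hzk, hzne, hfz⟩ := hgen f hf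
  set a : ↥F := ⟨coeffMap A.subtype y, hy⟩ with ha
  set b : ↥F := ⟨coeffMap A.subtype z, hz⟩ with hb
  have ha0 : a ≠ 0 := fun h => ge_coeffMap_subtype_ne_zero A π hyne (congrArg Subtype.val h)
  have hb0 : b ≠ 0 := fun h => ge_coeffMap_subtype_ne_zero A π hzne (congrArg Subtype.val h)
  obtain ⟨Da, hDa⟩ := rpg_exists_divisor hF a ha0
  obtain ⟨Db, hDb⟩ := rpg_exists_divisor hF b hb0
  have hDa' : Da ∈ dsr_integralPrincipalDivisors A π F Ft := ⟨y, hy, hyk, hyne, hDa⟩
  have hDb' : Db ∈ dsr_integralPrincipalDivisors A π F Ft := ⟨z, hz, hzk, hzne, hDb⟩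
  have hc0 : algebraMap L ↥F c ≠ 0 := by
    simpa using hc
  have e : D = Da - Db := by
    ext P
    rw [Finsupp.sub_apply, hDf, hDa, hDb]
    have h1 := congrArg P.ord hfz
    rw [P.ord_mul hf hb0, P.ord_mul hc0 ha0, hw_ord_algebraMap, zero_add] at h1
    omega
  rw [e]
  exact AddSubgroup.sub_mem _ (AddSubgroup.subset_closure hDa') (AddSubgroup.subset_closure hDb')

/-- **(E-glob), generic pair**: two glued charts give `dsr_ReductionInputs`. -/
theorem ge_reductionInputs_of_glue {C1 C2 : rp_Chart A ↥F k ↥Ft} (G : rpg_Glue C1 C2)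
    (hF : rp_FunField L ↥F) (ok1 : rpg_ChartOK C1) (ok2 : rpg_ChartOK C2)
    (hdegQ : ∀ Q : Place k ↥Ft, Q.deg = 1)
    (hInt : ∀ (y : LaurentSeries A) (hy : coeffMap A.subtype y ∈ F) (hyk : coeffMap π y ∈ Ft),
      ∃ h : (⟨coeffMap A.subtype y, hy⟩ : ↥F) ∈ G.Int, G.red ⟨_, h⟩ = ⟨coeffMap π y, hyk⟩)
    (hgen : ∀ f : ↥F, f ≠ 0 →
      ∃ (c : L) (y z : LaurentSeries A) (hy : coeffMap A.subtype y ∈ F)
        (hz : coeffMap A.subtype z ∈ F),
        c ≠ 0 ∧ coeffMap π y ∈ Ft ∧ coeffMap π y ≠ 0 ∧ coeffMap π z ∈ Ft ∧ coeffMap π z ≠ 0 ∧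
          f * (⟨coeffMap A.subtype z, hz⟩ : ↥F) = algebraMap L ↥F c * ⟨coeffMap A.subtype y, hy⟩) :
    dsr_ReductionInputs A π F Ft := by
  obtain ⟨r, hdeg, hr⟩ := rpg_exists_placeMap G hF ok1 ok2 (rpg_deg_eq_one_of_funField hF) hdegQ
  refine ⟨r, ⟨hdeg, ?_⟩, ge_principalGenerated hF hgen⟩
  intro y hy hyk hne D hD Q
  obtain ⟨h, hred⟩ := hInt y hy hyk
  have h1 := hr ⟨_, h⟩ (by rw [hred]; exact fun h0 => hne (congrArg Subtype.val h0)) D hD Q
  rw [h1, hred]

/-- **Node E, generic form**: two charts with enough levels and regular reductions, glued by one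
reduction map on a ring of integral functions containing all integral `q`-expansions, give
`dsr_ReductionInputs`. -/
theorem ge_reductionInputs_of_charts {C1 C2 : rp_Chart A ↥F k ↥Ft}
    (hF : rp_FunField L ↥F)
    (hL1 : C1.HasLevels) (hR1 : C1.RedRegular) (hL2 : C2.HasLevels) (hR2 : C2.RedRegular)
    (G : rpg_Glue C1 C2)
    (hdegQ : ∀ Q : Place k ↥Ft, Q.deg = 1)
    (hInt : ∀ (y : LaurentSeries A) (hy : coeffMap A.subtype y ∈ F) (hyk : coeffMap π y ∈ Ft),
      ∃ h : (⟨coeffMap A.subtype y, hy⟩ : ↥F) ∈ G.Int, G.red ⟨_, h⟩ = ⟨coeffMap π y, hyk⟩)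
    (hgen : ∀ f : ↥F, f ≠ 0 →
      ∃ (c : L) (y z : LaurentSeries A) (hy : coeffMap A.subtype y ∈ F)
        (hz : coeffMap A.subtype z ∈ F),
        c ≠ 0 ∧ coeffMap π y ∈ Ft ∧ coeffMap π y ≠ 0 ∧ coeffMap π z ∈ Ft ∧ coeffMap π z ≠ 0 ∧
          f * (⟨coeffMap A.subtype z, hz⟩ : ↥F) = algebraMap L ↥F c * ⟨coeffMap A.subtype y, hy⟩) :
    dsr_ReductionInputs A π F Ft :=
  ge_reductionInputs_of_glue G hF (rpe_chartOK hF hL1 hR1) (rpe_chartOK hF hL2 hR2) hdegQ hInt hgen

end Inst

end Fermat.Agent.DS
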