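/-
DS-T, cell [GE] (node-E twin, generic in the pair of `q`-expansion fields), file 2: CHART DATA.

Generic port of the instantiation section of `JT3/PlaceMap/Modular.lean`: `A` a valuation ring of a
field `L`, `k_A` its residue field, `F ⊆ L((q))` and `Ft ⊆ k_A((q))` ARBITRARY subfields containing
`j` (`gr_HasJ`).

* `ge_jF F : F` (the modular invariant), `ge_j_mem_int`, `ge_jinv_mem_int`, `ge_const_mem_int`.
* `ge_ChartData A F Ft x` : a chart ring `B ⊆ F` with coordinate `x`: `q`-integral functions with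
  reduction in `Ft`, integral over `A[x] = rpm_ringOf A x`, containing the constants of `A` and `x`,
  with `Frac B = F`.  `D.chart : rp_Chart ..` has the reduction of `q`-expansions (`ge_intRed`) as
  reduction map; `D.covP`, `D.covQ` are the covering properties of `rpg_Glue`.
* `ge_frac_of_subfield` : if `F = L(S)`, a subring containing the constants of `A` whose fraction
  field contains `S` has fraction field `F`.
* `ge_GoodGens A F Ft S x gens`, `ge_dataGen` (`B = rp_genRing A.toSubring gens = A[gens]`).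
* `ge_glue`, `ge_hgen` ((E-gen) from the levels of a chart), `ge_mem_int_of_hgen`.
* **`ge_reductionInputs_of`** : `dsr_ReductionInputs A (residue A) F Ft` from two chart data
  (coordinates `j`, `j⁻¹`) whose charts have `HasLevels` and `RedRegular`;
  **`ge_reductionInputs_base`** (`_base_gens`) : the same from base levels `rp_Base`.
Prefix `ge_`.
-/
import Mathlib
import Fermat.Agent.DS.GE.Glue
import Fermat.Agent.DS.GR.Field
import Fermat.Agent.JT3.PlaceMap.ModularGauss

set_option autoImplicit false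
set_option linter.unusedSectionVars false
set_option linter.style.haveILetI false

namespace Fermat.Agent.DS

open AlgebraicCurve Polynomial ModularCurve Fermat.Agent.JT3 Fermat.Agent.S24

section Chart

variable {L : Type*} [Field L] (A : ValuationSubring L)
variable (F : IntermediateField L (LaurentSeries L))
variable (Ft : IntermediateField (IsLocalRing.ResidueField A)
  (LaurentSeries (IsLocalRing.ResidueField A)))

/-! ### q-expansions -/

theorem ge_coe_algebraMap (c : L) :
    ((algebraMap L ↥F c : ↥F) : LaurentSeries L) = HahnSeries.single 0 c := by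
  rw [← algebraMap_laurentSeries_eq_single]
  rfl

/-- the modular invariant, as an element of `F`. -/
noncomputable def ge_jF [gr_HasJ F] : ↥F := ⟨jqModC L, gr_j_mem F⟩

theorem ge_coe_jF [gr_HasJ F] : ((ge_jF F : ↥F) : LaurentSeries L) = jqModC L := rfl

theorem ge_jF_ne_zero [gr_HasJ F] : ge_jF F ≠ 0 := by
  intro h
  have := congrArg (fun f : ↥F => (f : LaurentSeries L)) h
  simp only [ge_coe_jF] at this
  exact jqModC_ne_zero_of_nontrivial L this

/-! ### membership in the ring of integral functions -/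

theorem ge_const_mem_int (a : A) :
    algebraMap L ↥F (a : L) ∈ ge_intSubring A (IsLocalRing.residue A) F Ft := by
  refine ⟨HahnSeries.single 0 a, ?_, ?_⟩
  · rw [coeffMap_single, ge_coe_algebraMap]
    rfl
  · rw [coeffMap_single, ← algebraMap_laurentSeries_eq_single]
    exact IntermediateField.algebraMap_mem _ _

theorem ge_j_mem_int [gr_HasJ F] [gr_HasJ Ft] :
    ge_jF F ∈ ge_intSubring A (IsLocalRing.residue A) F Ft := by
  refine ⟨jqModC A, ?_, ?_⟩
  · rw [coeffMap_jqModC, ge_coe_jF]
  · rw [coeffMap_jqModC]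
    exact gr_j_mem Ft

theorem ge_jinv_mem_int [gr_HasJ F] [gr_HasJ Ft] :
    (ge_jF F)⁻¹ ∈ ge_intSubring A (IsLocalRing.residue A) F Ft := by
  refine ⟨rpm_jinv A, ?_, ?_⟩
  · rw [rpm_coeffMap_jinv]
    rfl
  · rw [rpm_coeffMap_jinv]
    exact inv_mem (gr_j_mem Ft)

theorem ge_intRed_jF [gr_HasJ F] [gr_HasJ Ft] :
    ((ge_intRed A (IsLocalRing.residue A) F Ft ⟨ge_jF F, ge_j_mem_int A F Ft⟩ : ↥Ft) :
      LaurentSeries (IsLocalRing.ResidueField A)) = jqModC (IsLocalRing.ResidueField A) := by
  rw [ge_intRed_coe A _ F Ft ⟨ge_jF F, ge_j_mem_int A F Ft⟩ (jqModC A) (by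
    rw [coeffMap_jqModC, ge_coe_jF]), coeffMap_jqModC]

/-! ### instance shortcuts (the generic searches are very slow on these types) -/

set_option synthInstance.maxHeartbeats 400000

/-- the algebra structure of a subfield of `k((q))` over `k` (generic search) -/
@[reducible] noncomputable def ge_algFt {k : Type*} [Field k]
    (Ft : IntermediateField k (LaurentSeries k)) : Algebra k ↥Ft :=
  inferInstance

noncomputable local instance (priority := 10000) ge_instAlgSubring (S : Subring ↥F) :
    Algebra S ↥F := rpm_algSub S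

noncomputable local instance (priority := 10000) ge_instAlgFt :
    Algebra (IsLocalRing.ResidueField A) ↥Ft :=
  ge_algFt Ft

noncomputable local instance (priority := 10000) ge_instAlgF : Algebra L ↥F :=
  ge_algFt F

/-! ### the rings `A[x]` and the chart data -/

theorem ge_const_mem_ring (x : ↥F) (a : A) : algebraMap L ↥F (a : L) ∈ rpm_ringOf A x :=
  Subring.subset_closure (Or.inl ⟨a, rfl⟩)

theorem ge_self_mem_ring (x : ↥F) : x ∈ rpm_ringOf A x :=
  Subring.subset_closure (Or.inr rfl)

theorem ge_ring_le_int {x : ↥F} (hx : x ∈ ge_intSubring A (IsLocalRing.residue A) F Ft) :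
    rpm_ringOf A x ≤ ge_intSubring A (IsLocalRing.residue A) F Ft := by
  rw [rpm_ringOf, Subring.closure_le]
  rintro _ (⟨a, rfl⟩ | h)
  · exact ge_const_mem_int A F Ft a
  · rw [Set.mem_singleton_iff] at h
    rw [h]
    exact hx

theorem ge_isIntegral_of_mem_ring {x f : ↥F} (hf : f ∈ rpm_ringOf A x) :
    IsIntegral (rpm_ringOf A x) f :=
  isIntegral_algebraMap (R := rpm_ringOf A x) (x := ⟨f, hf⟩)

theorem ge_intRed_const (a : A) :
    ge_intRed A (IsLocalRing.residue A) F Ft ⟨algebraMap L ↥F (a : L), ge_const_mem_int A F Ft a⟩ =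
      algebraMap (IsLocalRing.ResidueField A) ↥Ft (IsLocalRing.residue A a) := by
  apply Subtype.ext
  rw [ge_intRed_coe A _ F Ft ⟨_, ge_const_mem_int A F Ft a⟩ (HahnSeries.single 0 a) (by
    rw [coeffMap_single]
    exact (ge_coe_algebraMap F _).symm), coeffMap_single, ← algebraMap_laurentSeries_eq_single]
  rfl

/-- **The data of a chart of the model with coordinate `x`**: a ring `B` of q-integral functions
(with reduction in the reduced function field), integral over `A[x]`, containing the constants of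
`A` and `x`, with fraction field `F`. -/
structure ge_ChartData (x : ↥F) where
  /-- the chart ring -/
  B : Subring ↥F
  const_mem : ∀ a : A, algebraMap L ↥F (a : L) ∈ B
  le_int : B ≤ ge_intSubring A (IsLocalRing.residue A) F Ft
  integral : ∀ b ∈ B, IsIntegral (rpm_ringOf A x) b
  x_mem : x ∈ B
  frac : ∀ f : ↥F, ∃ b c : ↥F, b ∈ B ∧ c ∈ B ∧ c ≠ 0 ∧ f = b / c

variable {A F Ft}

/-- **the chart** of a chart datum: reduction map = reduction of q-expansions. -/
noncomputable def ge_ChartData.chart {x : ↥F} (D : ge_ChartData A F Ft x) :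
    rp_Chart A ↥F (IsLocalRing.ResidueField A) ↥Ft where
  res := IsLocalRing.residue A
  res_surj := IsLocalRing.residue_surjective
  B := D.B
  const_mem := D.const_mem
  frac := D.frac
  red := (ge_intRed A (IsLocalRing.residue A) F Ft).comp (Subring.inclusion D.le_int)
  red_const a := ge_intRed_const A F Ft a

theorem ge_ChartData.chart_B {x : ↥F} (D : ge_ChartData A F Ft x) : D.chart.B = D.B := rfl

theorem ge_ChartData.chart_red {x : ↥F} (D : ge_ChartData A F Ft x) (b : D.chart.B) :
    D.chart.red b = ge_intRed A (IsLocalRing.residue A) F Ft ⟨b, D.le_int b.2⟩ := rfl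

theorem ge_ChartData.x_mem_int {x : ↥F} (D : ge_ChartData A F Ft x) :
    x ∈ ge_intSubring A (IsLocalRing.residue A) F Ft := D.le_int D.x_mem

/-! ### the covering properties -/

/-- a place where `x` has a value in `A` lies in the chart of `x`. -/
theorem ge_ChartData.covP {x : ↥F} (D : ge_ChartData A F Ft x)
    (hF : rp_FunField L ↥F) (P : Place L ↥F)
    (h : ∃ c : A, x - algebraMap L ↥F (c : L) ∈ P.toValuationSubring.nonunits) :
    D.chart.InChart P :=
  rpm_inChart_of_isIntegral D.chart x (fun b hb => D.integral b hb) hF P h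

/-- a place of the reduction where `x̃` is finite is finite on the reduced chart of `x`. -/
theorem ge_ChartData.covQ {x : ↥F} (D : ge_ChartData A F Ft x)
    (Q : Place (IsLocalRing.ResidueField A) ↥Ft)
    (h : ge_intRed A (IsLocalRing.residue A) F Ft ⟨x, D.x_mem_int⟩ ∈ Q.toValuationSubring) :
    D.chart.FinRed Q :=
  rpm_finRed_of_isIntegral D.chart D.x_mem (fun b hb => D.integral b hb) Q h


variable (A F Ft)

/-! ### fractions -/

/-- the elements of `F` whose `q`-expansion lies in a set `S` of series -/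
def ge_gens (S : Set (LaurentSeries L)) : Set ↥F := {g | (g : LaurentSeries L) ∈ S}

/-- `A[S] ⊆ F` -/
noncomputable def ge_R1 (S : Set (LaurentSeries L)) : Subring ↥F :=
  Subring.closure (rpm_constSet A ↥F ∪ ge_gens F S)

theorem ge_transfer (S : Set (LaurentSeries L)) (hS : ∀ s ∈ S, s ∈ F) {x : LaurentSeries L}
    (hx : x ∈ Subring.closure (rpm_constSet A (LaurentSeries L) ∪ S)) :
    ∃ h : x ∈ F, (⟨x, h⟩ : ↥F) ∈ ge_R1 A F S := by
  induction hx using Subring.closure_induction with
  | mem x hx =>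
    rcases hx with ⟨a, rfl⟩ | hx
    · exact ⟨IntermediateField.algebraMap_mem _ _, Subring.subset_closure (Or.inl ⟨a, rfl⟩)⟩
    · exact ⟨hS x hx, Subring.subset_closure (Or.inr hx)⟩
  | zero => exact ⟨zero_mem _, zero_mem _⟩
  | one => exact ⟨one_mem _, one_mem _⟩
  | add x y _ _ hx hy =>
    obtain ⟨h1, h1'⟩ := hx
    obtain ⟨h2, h2'⟩ := hy
    exact ⟨add_mem h1 h2, add_mem h1' h2'⟩
  | neg x _ hx =>
    obtain ⟨h1, h1'⟩ := hx
    exact ⟨neg_mem h1, neg_mem h1'⟩
  | mul x y _ _ hx hy =>
    obtain ⟨h1, h1'⟩ := hx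
    obtain ⟨h2, h2'⟩ := hy
    refine ⟨mul_mem h1 h2, ?_⟩
    have e : (⟨x * y, mul_mem h1 h2⟩ : ↥F) = ⟨x, h1⟩ * ⟨y, h2⟩ := Subtype.ext (by simp)
    rw [e]
    exact mul_mem h1' h2'

/-- if `F = L(S)`, every function of `F` is a quotient of two elements of `A[S]`. -/
theorem ge_exists_div_R1 (S : Set (LaurentSeries L)) (hF : F = IntermediateField.adjoin L S)
    (f : ↥F) :
    ∃ b c : ↥F, b ∈ ge_R1 A F S ∧ c ∈ ge_R1 A F S ∧ c ≠ 0 ∧ f = b / c := by
  have hS : ∀ s ∈ S, s ∈ F := by
    intro s hs
    rw [hF]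
    exact IntermediateField.subset_adjoin L S hs
  obtain ⟨r, hr, s, hs, hs0, hf⟩ : ∃ r ∈ Algebra.adjoin L S, ∃ s ∈ Algebra.adjoin L S,
      s ≠ 0 ∧ (f : LaurentSeries L) = r / s := by
    have hx : (f : LaurentSeries L) ∈ IntermediateField.adjoin L S := by
      rw [← hF]; exact f.2
    rw [IntermediateField.mem_adjoin_iff_div] at hx
    obtain ⟨r, hr, s, hs, h⟩ := hx
    by_cases h0 : s = 0
    · subst h0
      exact ⟨0, zero_mem _, 1, one_mem _, one_ne_zero, by rw [h]; simp⟩
    · exact ⟨r, hr, s, hs, h0, h⟩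
  obtain ⟨a₁, ha₁, hr'⟩ := rpm_exists_clear A S hr
  obtain ⟨a₂, ha₂, hs'⟩ := rpm_exists_clear A S hs
  obtain ⟨h1, h1'⟩ := ge_transfer A F S hS hr'
  obtain ⟨h2, h2'⟩ := ge_transfer A F S hS hs'
  have hc : ∀ a : A, algebraMap L ↥F (a : L) ∈ ge_R1 A F S :=
    fun a => Subring.subset_closure (Or.inl ⟨a, rfl⟩)
  refine ⟨algebraMap L ↥F (a₂ : L) * ⟨_, h1⟩, algebraMap L ↥F (a₁ : L) * ⟨_, h2⟩,
    mul_mem (hc a₂) h1', mul_mem (hc a₁) h2', ?_, ?_⟩
  · refine mul_ne_zero (by simpa using ha₁) ?_
    intro h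
    have h3 := congrArg (fun z : ↥F => (z : LaurentSeries L)) h
    simp only [ZeroMemClass.coe_zero, mul_eq_zero] at h3
    rcases h3 with h3 | h3
    · exact ha₂ (by simpa using h3)
    · exact hs0 h3
  · apply Subtype.ext
    have hn1 : algebraMap L (LaurentSeries L) (a₁ : L) ≠ 0 := by simpa using ha₁
    have hn2 : algebraMap L (LaurentSeries L) (a₂ : L) ≠ 0 := by simpa using ha₂
    rw [hf]
    push_cast
    field_simp

/-- **fractions**: if `F = L(S)`, a subring containing the constants of `A` whose fraction field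
contains `S` has fraction field `F`. -/
theorem ge_frac_of_subfield (S : Set (LaurentSeries L)) (hF : F = IntermediateField.adjoin L S)
    (B : Subring ↥F) (hconst : ∀ a : A, algebraMap L ↥F (a : L) ∈ B)
    (hg : ∀ g ∈ ge_gens F S, g ∈ Subfield.closure (B : Set ↥F)) (f : ↥F) :
    ∃ b c : ↥F, b ∈ B ∧ c ∈ B ∧ c ≠ 0 ∧ f = b / c := by
  have hle : ge_R1 A F S ≤ (Subfield.closure (B : Set ↥F)).toSubring := by
    rw [ge_R1, Subring.closure_le]
    rintro _ (⟨a, rfl⟩ | h)
    · exact Subfield.subset_closure (hconst a)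
    · exact hg _ h
  obtain ⟨b, c, hb, hc, hc0, hf⟩ := ge_exists_div_R1 A F S hF f
  have hfm : f ∈ Subfield.closure (B : Set ↥F) := by
    rw [hf]
    exact div_mem (hle hb) (hle hc)
  rw [Subfield.mem_closure_iff, Subring.closure_eq] at hfm
  obtain ⟨y, hy, z, hz, hyz⟩ := hfm
  by_cases hz0 : z = 0
  · refine ⟨0, 1, zero_mem _, one_mem _, one_ne_zero, ?_⟩
    rw [← hyz, hz0, div_zero, zero_div]
  · exact ⟨y, z, hy, hz, hz0, hyz.symm⟩

/-! ### chart data from a set of generators: `B = A[gens]` -/

/-- **good generators** of a chart with coordinate `x` (`F = L(S)`): q-integral functions (with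
reduction in `Ft`), integral over `A[x]`, such that `x ∈ A[gens]` and the fraction field of
`A[gens]` contains `S`. -/
structure ge_GoodGens (S : Set (LaurentSeries L)) (x : ↥F) (gens : Set ↥F) : Prop where
  mem_int : ∀ g ∈ gens, g ∈ ge_intSubring A (IsLocalRing.residue A) F Ft
  integral : ∀ g ∈ gens, IsIntegral (rpm_ringOf A x) g
  x_mem : x ∈ rp_genRing A.toSubring gens
  frac : ∀ g ∈ ge_gens F S, g ∈ Subfield.closure (rp_genRing A.toSubring gens : Set ↥F)

theorem ge_const_mem_genRing (gens : Set ↥F) (a : A) :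
    algebraMap L ↥F (a : L) ∈ rp_genRing A.toSubring gens :=
  Subring.subset_closure (Or.inr ⟨(a : L), a.2, rfl⟩)

/-- the chart datum with chart ring `A[gens]`. -/
noncomputable def ge_dataGen (S : Set (LaurentSeries L)) (hF : F = IntermediateField.adjoin L S)
    (x : ↥F) (gens : Set ↥F) (h : ge_GoodGens A F Ft S x gens) : ge_ChartData A F Ft x where
  B := rp_genRing A.toSubring gens
  const_mem := ge_const_mem_genRing A F gens
  le_int := by
    rw [rp_genRing, Subring.closure_le]
    rintro _ (hg | ⟨a, ha, rfl⟩)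
    · exact h.mem_int _ hg
    · exact ge_const_mem_int A F Ft ⟨a, ha⟩
  integral := by
    have hle : rp_genRing A.toSubring gens ≤
        (integralClosure (rpm_ringOf A x) ↥F).toSubring := by
      rw [rp_genRing, Subring.closure_le]
      rintro _ (hg | ⟨a, ha, rfl⟩)
      · exact h.integral _ hg
      · exact ge_isIntegral_of_mem_ring A F (ge_const_mem_ring A F x ⟨a, ha⟩)
    exact fun b hb => hle hb
  x_mem := h.x_mem
  frac := ge_frac_of_subfield A F S hF _ (ge_const_mem_genRing A F gens) h.frac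

theorem ge_dataGen_chart_B (S : Set (LaurentSeries L)) (hF : F = IntermediateField.adjoin L S)
    (x : ↥F) (gens : Set ↥F) (h : ge_GoodGens A F Ft S x gens) :
    (ge_dataGen A F Ft S hF x gens h).chart.B = rp_genRing A.toSubring gens := rfl

/-! ### the glue and the final theorem -/

variable [gr_HasJ F] [gr_HasJ Ft]

/-- **the glue of two charts** (coordinates `j` and `j⁻¹`) along the reduction of q-expansions. -/
noncomputable def ge_glue (hFF : rp_FunField L ↥F) (D1 : ge_ChartData A F Ft (ge_jF F))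
    (D2 : ge_ChartData A F Ft (ge_jF F)⁻¹)
    (hL1 : D1.chart.HasLevels) (hL2 : D2.chart.HasLevels) : rpg_Glue D1.chart D2.chart :=
  rpe_glue hL1 hL2 (ge_intSubring A (IsLocalRing.residue A) F Ft)
    (ge_intRed A (IsLocalRing.residue A) F Ft) (ge_jF F) D1.le_int D2.le_int
    (fun _ => rfl) (fun _ => rfl) D1.x_mem D2.x_mem (ge_jF_ne_zero F)
    (fun P h => D1.covP hFF P h) (fun P h => D2.covP hFF P h)
    (fun Q h => D1.covQ Q h) (fun Q h => D2.covQ Q h)

omit [gr_HasJ F] [gr_HasJ Ft] in
/-- **(E-gen)** from the levels of a chart. -/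
theorem ge_hgen {x : ↥F} (D : ge_ChartData A F Ft x) (hL : D.chart.HasLevels) (f : ↥F)
    (hf : f ≠ 0) :
    ∃ (c : L) (y z : LaurentSeries A) (hy : coeffMap A.subtype y ∈ F)
      (hz : coeffMap A.subtype z ∈ F),
      c ≠ 0 ∧ coeffMap (IsLocalRing.residue A) y ∈ Ft ∧
        coeffMap (IsLocalRing.residue A) y ≠ 0 ∧
        coeffMap (IsLocalRing.residue A) z ∈ Ft ∧
        coeffMap (IsLocalRing.residue A) z ≠ 0 ∧
        f * (⟨coeffMap A.subtype z, hz⟩ : ↥F) =
          algebraMap L ↥F c * ⟨coeffMap A.subtype y, hy⟩ := by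
  obtain ⟨c, a, b, hc, ha, hb, hab⟩ := rpm_exists_gauss_factor D.chart hL f hf
  set aI : ge_intSubring A (IsLocalRing.residue A) F Ft := ⟨a, D.le_int a.2⟩ with haI
  set bI : ge_intSubring A (IsLocalRing.residue A) F Ft := ⟨b, D.le_int b.2⟩ with hbI
  have hay := ge_intLift_spec A (IsLocalRing.residue A) F Ft aI
  have hby := ge_intLift_spec A (IsLocalRing.residue A) F Ft bI
  have hya : coeffMap A.subtype (ge_intLift A (IsLocalRing.residue A) F Ft aI) ∈ F := by
    rw [hay.1]; exact (a : ↥F).2
  have hyb : coeffMap A.subtype (ge_intLift A (IsLocalRing.residue A) F Ft bI) ∈ F := by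
    rw [hby.1]; exact (b : ↥F).2
  refine ⟨c, ge_intLift A (IsLocalRing.residue A) F Ft aI,
    ge_intLift A (IsLocalRing.residue A) F Ft bI, hya, hyb, hc, hay.2, ?_, hby.2, ?_, ?_⟩
  · intro h0
    apply ha
    rw [D.chart_red]
    exact Subtype.ext h0
  · intro h0
    apply hb
    rw [D.chart_red]
    exact Subtype.ext h0
  · have e1 : (⟨coeffMap A.subtype (ge_intLift A (IsLocalRing.residue A) F Ft bI), hyb⟩ : ↥F)
        = (b : ↥F) := Subtype.ext hby.1
    have e2 : (⟨coeffMap A.subtype (ge_intLift A (IsLocalRing.residue A) F Ft aI), hya⟩ : ↥F)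
        = (a : ↥F) := Subtype.ext hay.1
    rw [e1, e2]
    exact hab

/-- **Node E, instantiation end (generic pair).** `dsr_ReductionInputs A (residue A) F Ft` from two
chart data (coordinates `j` and `j⁻¹`) whose charts have enough levels and regular reduction. -/
theorem ge_reductionInputs_of (hFF : rp_FunField L ↥F)
    (hFt : rp_FunField (IsLocalRing.ResidueField A) ↥Ft)
    (D1 : ge_ChartData A F Ft (ge_jF F)) (D2 : ge_ChartData A F Ft (ge_jF F)⁻¹)
    (hL1 : D1.chart.HasLevels) (hR1 : D1.chart.RedRegular)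
    (hL2 : D2.chart.HasLevels) (hR2 : D2.chart.RedRegular) :
    dsr_ReductionInputs A (IsLocalRing.residue A) F Ft :=
  ge_reductionInputs_of_charts hFF hL1 hR1 hL2 hR2 (ge_glue A F Ft hFF D1 D2 hL1 hL2)
    (rpg_deg_eq_one_of_funField hFt)
    (fun y hy hyk => ge_intRed_spec A (IsLocalRing.residue A) F Ft y hy hyk)
    (ge_hgen A F Ft D1 hL1)

omit [gr_HasJ F] [gr_HasJ Ft] in
/-- Given (E-gen) (`hgen`), every function of `F` with `A`-integral q-expansion has its reduction
in `Ft`, i.e. lies in `ge_intSubring`. -/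
theorem ge_mem_int_of_hgen
    (hgen : ∀ f : ↥F, f ≠ 0 →
      ∃ (c : L) (y z : LaurentSeries A) (hy : coeffMap A.subtype y ∈ F)
        (hz : coeffMap A.subtype z ∈ F),
        c ≠ 0 ∧ coeffMap (IsLocalRing.residue A) y ∈ Ft ∧
          coeffMap (IsLocalRing.residue A) y ≠ 0 ∧
          coeffMap (IsLocalRing.residue A) z ∈ Ft ∧
          coeffMap (IsLocalRing.residue A) z ≠ 0 ∧
          f * (⟨coeffMap A.subtype z, hz⟩ : ↥F) =
            algebraMap L ↥F c * ⟨coeffMap A.subtype y, hy⟩)
    (f : ↥F) (w : LaurentSeries A)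
    (hw : coeffMap A.subtype w = (f : LaurentSeries L)) :
    f ∈ ge_intSubring A (IsLocalRing.residue A) F Ft := by
  by_cases hf : f = 0
  · rw [hf]; exact zero_mem _
  obtain ⟨c, y, z, hy, hz, hc, hyk, hy0, hzk, hz0, hfz⟩ := hgen f hf
  refine ⟨w, hw, ?_⟩
  -- the relation in `L((q))`
  have h1 : coeffMap A.subtype (w * z) = HahnSeries.single 0 c * coeffMap A.subtype y := by
    have := congrArg (fun g : ↥F => (g : LaurentSeries L)) hfz
    simp only [MulMemClass.coe_mul, ge_coe_algebraMap] at this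
    rw [map_mul, hw]
    exact this
  -- a unit coefficient of `y`
  obtain ⟨n, hn⟩ : ∃ n : ℤ, IsLocalRing.residue A (y.coeff n) ≠ 0 := by
    by_contra hcon
    push Not at hcon
    apply hy0
    ext n
    rw [coeffMap_coeff, hcon n]
    rfl
  have hun : IsUnit (y.coeff n) := by
    by_contra hnu
    exact hn ((IsLocalRing.residue_eq_zero_iff _).mpr ((IsLocalRing.mem_maximalIdeal _).mpr hnu))
  obtain ⟨v, hv⟩ := hun.exists_right_inv
  -- `c ∈ A`
  have hcA : c = (((w * z).coeff n * v : A) : L) := by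
    have h2 := congrArg (fun s : LaurentSeries L => s.coeff n) h1
    simp only [coeffMap_coeff, HahnSeries.coeff_single_mul, sub_zero] at h2
    have h3 : ((y.coeff n : A) : L) * (v : L) = 1 := by
      have := congrArg (fun t : A => (t : L)) hv
      simpa using this
    have h4 : (A.subtype ((w * z).coeff n)) = c * A.subtype (y.coeff n) := h2
    push_cast
    change c = A.subtype ((w * z).coeff n) * (v : L)
    rw [h4, mul_assoc]
    change c = c * (((y.coeff n : A) : L) * (v : L))
    rw [h3, mul_one]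
  set c' : A := (w * z).coeff n * v with hc'
  have h5 : w * z = HahnSeries.single 0 c' * y := by
    apply dsr_coeffMap_subtype_injective (A := A)
    rw [h1, map_mul, coeffMap_single, hcA]
    rfl
  have h6 := congrArg (coeffMap (IsLocalRing.residue A)) h5
  rw [map_mul, map_mul, coeffMap_single] at h6
  have h7 : coeffMap (IsLocalRing.residue A) w =
      HahnSeries.single 0 (IsLocalRing.residue A c') * coeffMap (IsLocalRing.residue A) y *
        (coeffMap (IsLocalRing.residue A) z)⁻¹ := by
    rw [← h6, mul_assoc, mul_inv_cancel₀ hz0, mul_one]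
  rw [h7, ← algebraMap_laurentSeries_eq_single]
  exact mul_mem (mul_mem (IntermediateField.algebraMap_mem _ _) hyk) (inv_mem hzk)

omit [gr_HasJ F] [gr_HasJ Ft] in
/-- good generators from q-integral lifts, given that reductions of `A`-integral `q`-expansions of
`F` lie in `Ft`. -/
theorem ge_goodGens_of_lifts
    (hred : ∀ y : LaurentSeries A, coeffMap A.subtype y ∈ F →
      coeffMap (IsLocalRing.residue A) y ∈ Ft)
    (S : Set (LaurentSeries L)) (x : ↥F) (gens : Set ↥F)
    (hlift : ∀ g ∈ gens, ∃ w : LaurentSeries A, coeffMap A.subtype w = (g : LaurentSeries L))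
    (hint : ∀ g ∈ gens, IsIntegral (rpm_ringOf A x) g)
    (hx : x ∈ rp_genRing A.toSubring gens)
    (hfrac : ∀ g ∈ ge_gens F S, g ∈ Subfield.closure (rp_genRing A.toSubring gens : Set ↥F)) :
    ge_GoodGens A F Ft S x gens where
  mem_int := fun g hg => by
    obtain ⟨w, hw⟩ := hlift g hg
    exact ⟨w, hw, hred w (by rw [hw]; exact g.2)⟩
  integral := hint
  x_mem := hx
  frac := hfrac

/-- **Node E from base levels.** `dsr_ReductionInputs A (residue A) F Ft` from two chart data
(coordinates `j`, `j⁻¹`) whose charts have a base level (`rp_Base`) and regular reduction. -/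
theorem ge_reductionInputs_base [CharZero L] (hFF : rp_FunField L ↥F)
    (hFt : rp_FunField (IsLocalRing.ResidueField A) ↥Ft)
    (D1 : ge_ChartData A F Ft (ge_jF F)) (D2 : ge_ChartData A F Ft (ge_jF F)⁻¹)
    (Bs1 : rp_Base D1.chart) (hR1 : D1.chart.RedRegular)
    (Bs2 : rp_Base D2.chart) (hR2 : D2.chart.RedRegular) :
    dsr_ReductionInputs A (IsLocalRing.residue A) F Ft :=
  ge_reductionInputs_of A F Ft hFF hFt D1 D2 (rpu_hasLevels hFF Bs1) hR1
    (rpu_hasLevels hFF Bs2) hR2

/-- the same for the charts `A[gens₁]`, `A[gens₂]` (the shape of `rp_Base.chart_eq`). -/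
theorem ge_reductionInputs_base_gens [CharZero L] (hFF : rp_FunField L ↥F)
    (hFt : rp_FunField (IsLocalRing.ResidueField A) ↥Ft)
    (S : Set (LaurentSeries L)) (hF : F = IntermediateField.adjoin L S)
    (gens₁ gens₂ : Set ↥F) (h₁ : ge_GoodGens A F Ft S (ge_jF F) gens₁)
    (h₂ : ge_GoodGens A F Ft S (ge_jF F)⁻¹ gens₂)
    (Bs1 : rp_Base (ge_dataGen A F Ft S hF _ gens₁ h₁).chart)
    (hR1 : (ge_dataGen A F Ft S hF _ gens₁ h₁).chart.RedRegular)
    (Bs2 : rp_Base (ge_dataGen A F Ft S hF _ gens₂ h₂).chart)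
    (hR2 : (ge_dataGen A F Ft S hF _ gens₂ h₂).chart.RedRegular) :
    dsr_ReductionInputs A (IsLocalRing.residue A) F Ft :=
  ge_reductionInputs_base A F Ft hFF hFt _ _ Bs1 hR1 Bs2 hR2

end Chart

end Fermat.Agent.DS
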