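/-
DS-T, cell [GE] (node-E twin), file 3: the base change of a DVR level `(L, O₀ = A ∩ L)` to the
valuation ring `A` of `Q̄`, for an ARBITRARY pair `F0 ⊆ L((q))`, `Fb ⊆ Q̄((q))` such that `Fb` is
the extension of constants of `F0` (`ge_BaseChange F0 Fb`).

Generic port of `JT3/PlaceMap/FinalBase.lean`.
* `ge_BaseChange F0 Fb` : `coeffMap (L → Q̄)` maps `F0` into `Fb`, and `Fb` is generated over `Q̄` by
  the image.
* `ge_beta hBC : F0 →+* Fb`; `ge_beta_jF`, `ge_beta_algebraMap`.
* `ge_genRing_image` : `O'[β G₀] = β (O₀[G₀])` (`O' = rpz_O' A L`).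
* `ge_Level0 O F0 π x` : the hypotheses on one chart at a DVR level.
Prefix `ge_`.
-/
import Mathlib
import Fermat.Agent.DS.GE.Chart
import Fermat.Agent.JT3.PlaceMap.FinalChart

set_option autoImplicit false
set_option linter.unusedSectionVars false
set_option linter.style.haveILetI false

namespace Fermat.Agent.DS

open AlgebraicCurve Polynomial ModularCurve Fermat.Agent.JT3 Fermat.Agent.S24 IntermediateField

section Beta

variable {L : Type*} [Field L] [Algebra ℚ L] [Algebra L Kbar] [IsScalarTower ℚ L Kbar]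
  (F0 : IntermediateField L (LaurentSeries L)) (Fb : IntermediateField Kbar (LaurentSeries Kbar))

/-- `Fb` is the extension of constants of `F0` along `L → Q̄`. -/
structure ge_BaseChange : Prop where
  mem : ∀ x ∈ F0, dsc_cm L Kbar x ∈ Fb
  gen : Fb = IntermediateField.adjoin Kbar ((dsc_cm L Kbar) '' (F0 : Set (LaurentSeries L)))

variable {F0 Fb} (hBC : ge_BaseChange F0 Fb)

/-- base change of constants `F0 → Fb` (coefficientwise along `L → Q̄`). -/
noncomputable def ge_beta : ↥F0 →+* ↥Fb :=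
  ((dsc_cm L Kbar).comp F0.val.toRingHom).codRestrict Fb.toSubfield.toSubring
    (fun x => hBC.mem x x.2)

theorem ge_beta_coe (y : ↥F0) :
    ((ge_beta hBC y : ↥Fb) : LaurentSeries Kbar) =
      coeffMap (algebraMap L Kbar) (y : LaurentSeries L) := rfl

theorem ge_beta_injective : Function.Injective (ge_beta hBC) := (ge_beta hBC).injective

theorem ge_beta_algebraMap (c : L) :
    ge_beta hBC (algebraMap L ↥F0 c) = algebraMap Kbar ↥Fb (algebraMap L Kbar c) := by
  apply Subtype.ext
  rw [ge_beta_coe]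
  exact dsc_cm_algebraMap L Kbar c

theorem ge_beta_jF [gr_HasJ F0] [gr_HasJ Fb] : ge_beta hBC (ge_jF F0) = ge_jF Fb := by
  apply Subtype.ext
  rw [ge_beta_coe]
  change coeffMap _ (jqModC L) = jqModC Kbar
  rw [coeffMap_jqModC]

end Beta

section Image

variable (A : ValuationSubring Kbar) {L : Type*} [Field L] [Algebra ℚ L]
  [Algebra L Kbar] [IsScalarTower ℚ L Kbar]
  {F0 : IntermediateField L (LaurentSeries L)} {Fb : IntermediateField Kbar (LaurentSeries Kbar)}
  (hBC : ge_BaseChange F0 Fb)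

theorem ge_const_image :
    (algebraMap Kbar ↥Fb) '' (rpz_O' A L : Set Kbar) =
      (ge_beta hBC) '' Set.range (algebraMap ↥(A.comap (algebraMap L Kbar)) ↥F0) := by
  ext z
  constructor
  · rintro ⟨o, ho, rfl⟩
    obtain ⟨c, hc, rfl⟩ := (rpz_mem_O' A L).1 ho
    exact ⟨_, ⟨⟨c, hc⟩, rfl⟩, ge_beta_algebraMap hBC c⟩
  · rintro ⟨_, ⟨c, rfl⟩, rfl⟩
    exact ⟨algebraMap L Kbar (c : L), (rpz_mem_O' A L).2 ⟨c, c.2, rfl⟩,
      (ge_beta_algebraMap hBC (c : L)).symm⟩

/-- `O'[β G₀] = β (O₀[G₀])`. -/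
theorem ge_genRing_image (G₀ : Set ↥F0) :
    rp_genRing (rpz_O' A L) ((ge_beta hBC) '' G₀) =
      (Algebra.adjoin ↥(A.comap (algebraMap L Kbar)) G₀).toSubring.map (ge_beta hBC) := by
  rw [rp_genRing, ge_const_image A hBC, ← Set.image_union, Algebra.adjoin_eq_ring_closure,
    RingHom.map_closure, Set.union_comm]

end Image

/-! ### the interface: one chart at a DVR level -/

section Level0

variable {L : Type*} [Field L] (O : ValuationSubring L)
  (F0 : IntermediateField L (LaurentSeries L))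

/-- the hypotheses on one chart `fc_chart O {x}` of the model of `F0` at a DVR level `(L, O)`
(the fields of the interface structure `rpn_Level0` of `PlaceMap/Level0.lean`, with `fin` in the
form "finitely generated `O`-algebra"). -/
structure ge_Level0 (π : O) (x : ↥F0) : Prop where
  qint : ∀ b ∈ fc_chart O ({x} : Set ↥F0), ∃ w : LaurentSeries O,
    coeffMap O.subtype w = ((b : ↥F0) : LaurentSeries L)
  fg : (fc_chart O ({x} : Set ↥F0)).FG
  ker : ∀ b ∈ fc_chart O ({x} : Set ↥F0), ∀ w : LaurentSeries O,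
    coeffMap O.subtype w = ((b : ↥F0) : LaurentSeries L) →
    coeffMap (IsLocalRing.residue O) w = 0 →
    ∃ b' ∈ fc_chart O ({x} : Set ↥F0), b = algebraMap O ↥F0 π * b'
  ded : IsDedekindDomain (↥(fc_chart O ({x} : Set ↥F0)) ⧸
    Ideal.span {algebraMap O ↥(fc_chart O ({x} : Set ↥F0)) π})

end Level0

end Fermat.Agent.DS
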