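/-
DS-T, cell [GE] (node-E twin), file 4: the chart `A[β(gens)]` over the valuation ring `A` of `Q̄`
obtained from a chart `fc_chart O₀ {x}` at a DVR level `(L, O₀ = A ∩ L)`, for an arbitrary triple
`(F0, Fb, Ft)` with `ge_BaseChange F0 Fb`.

Generic port of the sections `Chart`, `GoodGens`, `BaseDef` of `JT3/PlaceMap/FinalChart.lean`
(the generic sections of that file, `rpz_D`, `rpz_rho`, `rpz_red_surj`, `rpz_not_isField`,
`rpz_O0`, `rpz_alg`, `rpz_O_str`, are reused).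
* `ge_gens`₀ = `ge_bgens hBC G₀`, `ge_genRing_eq` (`O'[gens] = β(chart)`), `ge_lift`,
  `ge_isIntegral_beta`, `ge_goodGens` (the images of generators of the base chart are
  `ge_GoodGens`), `ge_ker_of_red`, `ge_base : rp_Base (chart)`.
Prefix `ge_`.
-/
import Mathlib
import Fermat.Agent.DS.GE.FinalBase

set_option autoImplicit false
set_option linter.unusedSectionVars false
set_option linter.style.haveILetI false

namespace Fermat.Agent.DS

open AlgebraicCurve Polynomial ModularCurve Fermat.Agent.JT3 Fermat.Agent.S24 IntermediateField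

attribute [local instance] Fermat.Agent.DS.ge_instAlgSubring Fermat.Agent.DS.ge_instAlgFt
  Fermat.Agent.DS.ge_instAlgF
set_option synthInstance.maxHeartbeats 400000

/-! ### the chart `A[β(gens)]` -/

section Chart

variable (A : ValuationSubring Kbar)
  {L : Type*} [Field L] [Algebra ℚ L] [Algebra L Kbar] [IsScalarTower ℚ L Kbar]
  {F0 : IntermediateField L (LaurentSeries L)} {Fb : IntermediateField Kbar (LaurentSeries Kbar)}
  (hBC : ge_BaseChange F0 Fb)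

/-- the image of a finite set of functions under the base change. -/
noncomputable def ge_bgens (G₀ : Finset ↥F0) : Finset ↥Fb := by
  classical exact G₀.image (ge_beta hBC)

theorem ge_coe_bgens (G₀ : Finset ↥F0) :
    (ge_bgens hBC G₀ : Set ↥Fb) = (ge_beta hBC) '' (G₀ : Set ↥F0) := by
  classical
  rw [ge_bgens, Finset.coe_image]

/-- `O'[gens] = β (chart)`. -/
theorem ge_genRing_eq {x : ↥F0} {G₀ : Finset ↥F0}
    (hG₀ : Algebra.adjoin ↥(rpz_O0 A L) (G₀ : Set ↥F0) =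
      fc_chart ↥(rpz_O0 A L) ({x} : Set ↥F0)) :
    rp_genRing (rpz_O' A L) (ge_bgens hBC G₀ : Set ↥Fb) =
      (fc_chart ↥(rpz_O0 A L) ({x} : Set ↥F0)).toSubring.map (ge_beta hBC) := by
  rw [ge_coe_bgens, ge_genRing_image A hBC, hG₀]

theorem ge_beta_mem_genRing {x : ↥F0} {G₀ : Finset ↥F0}
    (hG₀ : Algebra.adjoin ↥(rpz_O0 A L) (G₀ : Set ↥F0) =
      fc_chart ↥(rpz_O0 A L) ({x} : Set ↥F0))
    {b₀ : ↥F0} (hb₀ : b₀ ∈ fc_chart ↥(rpz_O0 A L) ({x} : Set ↥F0)) :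
    ge_beta hBC b₀ ∈ rp_genRing (rpz_O' A L) (ge_bgens hBC G₀ : Set ↥Fb) := by
  rw [ge_genRing_eq A hBC hG₀]
  exact ⟨b₀, hb₀, rfl⟩

theorem ge_exists_of_mem_genRing {x : ↥F0} {G₀ : Finset ↥F0}
    (hG₀ : Algebra.adjoin ↥(rpz_O0 A L) (G₀ : Set ↥F0) =
      fc_chart ↥(rpz_O0 A L) ({x} : Set ↥F0))
    {b : ↥Fb} (hb : b ∈ rp_genRing (rpz_O' A L) (ge_bgens hBC G₀ : Set ↥Fb)) :
    ∃ b₀ ∈ fc_chart ↥(rpz_O0 A L) ({x} : Set ↥F0), ge_beta hBC b₀ = b := by
  rw [ge_genRing_eq A hBC hG₀] at hb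
  exact hb

theorem ge_genRing_le (gens : Set ↥Fb) :
    rp_genRing (rpz_O' A L) gens ≤ rp_genRing A.toSubring gens := by
  rw [rp_genRing, rp_genRing]
  refine Subring.closure_mono (Set.union_subset_union_right _ (Set.image_mono ?_))
  exact fun o ho => rpz_O'_le A L ho

/-- q-integral lifts over `A` of the images of chart functions. -/
theorem ge_lift {π : ↥(rpz_O0 A L)} {x : ↥F0} (H : ge_Level0 (rpz_O0 A L) F0 π x)
    {b₀ : ↥F0} (hb₀ : b₀ ∈ fc_chart ↥(rpz_O0 A L) ({x} : Set ↥F0)) :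
    ∃ w₀ : LaurentSeries ↥(rpz_O0 A L),
      coeffMap (rpz_O0 A L).subtype w₀ = (b₀ : LaurentSeries L) ∧
      coeffMap A.subtype (coeffMap (dsc_incl Kbar A L) w₀) =
        ((ge_beta hBC b₀ : ↥Fb) : LaurentSeries Kbar) := by
  obtain ⟨w₀, hw₀⟩ := H.qint b₀ hb₀
  refine ⟨w₀, hw₀, ?_⟩
  rw [coeffMap_coeffMap, dsc_subtype_comp_incl, ← coeffMap_coeffMap, hw₀, ge_beta_coe]

/-- `β` maps `O₀[x]` into `A[β x]`. -/
theorem ge_beta_mem_ring {x : ↥F0} {r : ↥F0}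
    (hr : r ∈ Algebra.adjoin ↥(rpz_O0 A L) ({x} : Set ↥F0)) :
    ge_beta hBC r ∈ rpm_ringOf A (ge_beta hBC x) := by
  induction hr using Algebra.adjoin_induction with
  | mem y hy =>
    rw [Set.mem_singleton_iff] at hy
    rw [hy]
    exact ge_self_mem_ring A Fb _
  | algebraMap c =>
    have h : algebraMap ↥(rpz_O0 A L) ↥F0 c = algebraMap L ↥F0 (c : L) := rfl
    rw [h, ge_beta_algebraMap]
    exact ge_const_mem_ring A Fb _ ⟨algebraMap L Kbar (c : L), c.2⟩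
  | add y z _ _ hy hz => rw [map_add]; exact add_mem hy hz
  | mul y z _ _ hy hz => rw [map_mul]; exact mul_mem hy hz

/-- the images of chart functions are integral over `A[β x]`. -/
theorem ge_isIntegral_beta {x : ↥F0} {b₀ : ↥F0}
    (hb₀ : b₀ ∈ fc_chart ↥(rpz_O0 A L) ({x} : Set ↥F0)) :
    IsIntegral (rpm_ringOf A (ge_beta hBC x)) (ge_beta hBC b₀) := by
  rw [fc_mem_chart] at hb₀
  let φ : ↥(Algebra.adjoin ↥(rpz_O0 A L) ({x} : Set ↥F0)) →+*
      ↥(rpm_ringOf A (ge_beta hBC x)) :=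
    ((ge_beta hBC).comp
      (Algebra.adjoin ↥(rpz_O0 A L) ({x} : Set ↥F0)).toSubring.subtype).codRestrict
      (rpm_ringOf A (ge_beta hBC x)) (fun r => ge_beta_mem_ring A hBC r.2)
  exact IsIntegral.map_of_comp_eq φ (ge_beta hBC) (by ext r; rfl) hb₀

end Chart

section GoodGens

variable (A : ValuationSubring Kbar)
  {L : Type*} [Field L] [Algebra ℚ L] [Algebra L Kbar] [IsScalarTower ℚ L Kbar]
  {F0 : IntermediateField L (LaurentSeries L)} {Fb : IntermediateField Kbar (LaurentSeries Kbar)}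
  (Ft : IntermediateField (IsLocalRing.ResidueField A)
    (LaurentSeries (IsLocalRing.ResidueField A)))
  (hBC : ge_BaseChange F0 Fb)

omit [Algebra ℚ L] [IsScalarTower ℚ L Kbar] in
theorem ge_subset_chart {x : ↥F0} {G₀ : Finset ↥F0}
    (hG₀ : Algebra.adjoin ↥(rpz_O0 A L) (G₀ : Set ↥F0) =
      fc_chart ↥(rpz_O0 A L) ({x} : Set ↥F0)) {g₀ : ↥F0} (hg₀ : g₀ ∈ G₀) :
    g₀ ∈ fc_chart ↥(rpz_O0 A L) ({x} : Set ↥F0) := by
  rw [← hG₀]
  exact Algebra.subset_adjoin hg₀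

omit [Algebra ℚ L] [IsScalarTower ℚ L Kbar] in
theorem ge_x_mem_chart (x : ↥F0) :
    x ∈ fc_chart ↥(rpz_O0 A L) ({x} : Set ↥F0) :=
  fc_adjoin_le_chart _ (Algebra.subset_adjoin rfl)

omit [Algebra ℚ L] [IsScalarTower ℚ L Kbar] in
/-- every function of `F0` is a quotient of chart functions. -/
theorem ge_exists_div {x : ↥F0}
    (halg : Algebra.IsAlgebraic ↥(Algebra.adjoin ↥(rpz_O0 A L) ({x} : Set ↥F0)) ↥F0) (f : ↥F0) :
    ∃ b c : ↥F0, b ∈ fc_chart ↥(rpz_O0 A L) ({x} : Set ↥F0) ∧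
      c ∈ fc_chart ↥(rpz_O0 A L) ({x} : Set ↥F0) ∧ c ≠ 0 ∧ f = b / c := by
  haveI := halg
  obtain ⟨b, c, hc, hf⟩ := IsFractionRing.div_surjective
    (A := ↥(fc_chart ↥(rpz_O0 A L) ({x} : Set ↥F0))) f
  refine ⟨b, c, b.2, c.2, ?_, hf.symm⟩
  intro h0
  exact nonZeroDivisors.ne_zero hc (Subtype.ext h0)

/-- the set of generators of `Fb` over `Q̄` given by the base change. -/
def ge_S (F0 : IntermediateField L (LaurentSeries L)) : Set (LaurentSeries Kbar) :=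
  (dsc_cm L Kbar) '' (F0 : Set (LaurentSeries L))

/-- **the generators of the base level are good generators of a chart over `A`.** -/
theorem ge_goodGens
    (hred : ∀ y : LaurentSeries A, coeffMap A.subtype y ∈ Fb →
      coeffMap (IsLocalRing.residue A) y ∈ Ft)
    {π : ↥(rpz_O0 A L)} {x : ↥F0} (H : ge_Level0 (rpz_O0 A L) F0 π x)
    {G₀ : Finset ↥F0}
    (hG₀ : Algebra.adjoin ↥(rpz_O0 A L) (G₀ : Set ↥F0) =
      fc_chart ↥(rpz_O0 A L) ({x} : Set ↥F0))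
    (halg : Algebra.IsAlgebraic ↥(Algebra.adjoin ↥(rpz_O0 A L) ({x} : Set ↥F0)) ↥F0) :
    ge_GoodGens A Fb Ft (ge_S F0) (ge_beta hBC x) (ge_bgens hBC G₀ : Set ↥Fb) := by
  refine ge_goodGens_of_lifts A Fb Ft hred _ _ _ ?_ ?_ ?_ ?_
  · intro g hg
    rw [ge_coe_bgens] at hg
    obtain ⟨g₀, hg₀, rfl⟩ := hg
    obtain ⟨w₀, -, hw⟩ := ge_lift A hBC H (ge_subset_chart A hG₀ hg₀)
    exact ⟨_, hw⟩
  · intro g hg
    rw [ge_coe_bgens] at hg
    obtain ⟨g₀, hg₀, rfl⟩ := hg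
    exact ge_isIntegral_beta A hBC (ge_subset_chart A hG₀ hg₀)
  · exact ge_genRing_le A _ (ge_beta_mem_genRing A hBC hG₀ (ge_x_mem_chart A x))
  · intro g hg
    obtain ⟨y, hy, hgy⟩ := hg
    have hg' : g = ge_beta hBC ⟨y, hy⟩ := Subtype.ext hgy.symm
    obtain ⟨b, c, hb, hc, hc0, hf⟩ := ge_exists_div A halg ⟨y, hy⟩
    rw [hg', hf, map_div₀]
    exact div_mem
      (Subfield.subset_closure (ge_genRing_le A _ (ge_beta_mem_genRing A hBC hG₀ hb)))
      (Subfield.subset_closure (ge_genRing_le A _ (ge_beta_mem_genRing A hBC hG₀ hc)))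

end GoodGens

section BaseDef

variable (A : ValuationSubring Kbar)
  {L : Type*} [Field L] [Algebra ℚ L] [Algebra L Kbar] [IsScalarTower ℚ L Kbar]
  {F0 : IntermediateField L (LaurentSeries L)} {Fb : IntermediateField Kbar (LaurentSeries Kbar)}
  (Ft : IntermediateField (IsLocalRing.ResidueField A)
    (LaurentSeries (IsLocalRing.ResidueField A)))
  (hBC : ge_BaseChange F0 Fb)

/-- the reduction of the image of a chart function is the coefficientwise reduction of its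
q-expansion over `O₀`. -/
theorem ge_red_coe
    {b₀ : ↥F0} (w₀ : LaurentSeries ↥(rpz_O0 A L))
    (hw₀ : coeffMap (rpz_O0 A L).subtype w₀ = (b₀ : LaurentSeries L))
    (hmem : ge_beta hBC b₀ ∈ ge_intSubring A (IsLocalRing.residue A) Fb Ft) :
    ((ge_intRed A (IsLocalRing.residue A) Fb Ft ⟨ge_beta hBC b₀, hmem⟩ : ↥Ft) :
        LaurentSeries (IsLocalRing.ResidueField A)) =
      coeffMap (IsLocalRing.residue A) (coeffMap (dsc_incl Kbar A L) w₀) := by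
  refine ge_intRed_coe A _ Fb Ft ⟨ge_beta hBC b₀, hmem⟩ (coeffMap (dsc_incl Kbar A L) w₀) ?_
  rw [coeffMap_coeffMap, dsc_subtype_comp_incl, ← coeffMap_coeffMap, hw₀, ge_beta_coe]

/-- **kernel of the reduction on the base chart**: a chart function whose image reduces to zero is
divisible by the uniformiser. -/
theorem ge_ker_of_red {π : ↥(rpz_O0 A L)} {x : ↥F0} (H : ge_Level0 (rpz_O0 A L) F0 π x)
    {b₀ : ↥F0} (hb₀ : b₀ ∈ fc_chart ↥(rpz_O0 A L) ({x} : Set ↥F0))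
    (hmem : ge_beta hBC b₀ ∈ ge_intSubring A (IsLocalRing.residue A) Fb Ft)
    (hred : ge_intRed A (IsLocalRing.residue A) Fb Ft ⟨ge_beta hBC b₀, hmem⟩ = 0) :
    ∃ b' ∈ fc_chart ↥(rpz_O0 A L) ({x} : Set ↥F0),
      b₀ = algebraMap ↥(rpz_O0 A L) ↥F0 π * b' := by
  obtain ⟨w₀, hw₀, hw⟩ := ge_lift A hBC H hb₀
  have h1 := ge_red_coe A Ft hBC w₀ hw₀ hmem
  rw [hred] at h1
  have h3 : coeffMap (IsLocalRing.residue ↥(rpz_O0 A L)) w₀ = 0 :=
    (dsc_red_incl_eq_zero_iff Kbar A L w₀).1 h1.symm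
  exact H.ker b₀ hb₀ w₀ hw₀ h3

/-- **the base level of the chart `A[β(gens)]`.** -/
noncomputable def ge_base [IsDiscreteValuationRing ↥(rpz_O0 A L)] {π : ↥(rpz_O0 A L)}
    (hπ : Irreducible π)
    (hres : ∀ a : A, ∃ c : L, algebraMap L Kbar c ∈ A ∧
      (a : Kbar) - algebraMap L Kbar c ∈ A.nonunits)
    {x : ↥F0} (H : ge_Level0 (rpz_O0 A L) F0 π x)
    {G₀ : Finset ↥F0}
    (hG₀ : Algebra.adjoin ↥(rpz_O0 A L) (G₀ : Set ↥F0) =
      fc_chart ↥(rpz_O0 A L) ({x} : Set ↥F0))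
    (hGG : ge_GoodGens A Fb Ft (ge_S F0) (ge_beta hBC x) (ge_bgens hBC G₀ : Set ↥Fb)) :
    rp_Base (ge_dataGen A Fb Ft (ge_S F0) hBC.gen (ge_beta hBC x)
      (ge_bgens hBC G₀ : Set ↥Fb) hGG).chart where
  O := rpz_O' A L
  O_le := fun _ ho => rpz_O'_le A L ho
  ϖ := algebraMap L Kbar (π : L)
  ϖ_mem := (rpz_mem_O' A L).2 ⟨(π : L), π.2, rfl⟩
  ϖ_ne := by
    intro h
    rw [map_eq_zero] at h
    exact hπ.ne_zero (Subtype.ext h)
  ϖ_nonunit := by
    rw [← dsc_mem_comap_nonunits_iff]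
    have h : π ∈ nonunits ↥(rpz_O0 A L) := hπ.not_isUnit
    rw [← IsLocalRing.mem_maximalIdeal] at h
    rw [ValuationSubring.mem_nonunits_iff_exists_mem_maximalIdeal]
    exact ⟨π.2, h⟩
  O_str := fun o ho ho0 => rpz_O_str A hπ o ho ho0
  alg := rpz_alg A
  res_eq := fun a => by
    obtain ⟨c, hc, hac⟩ := hres a
    exact ⟨_, (rpz_mem_O' A L).2 ⟨c, hc, rfl⟩, hac⟩
  gens := ge_bgens hBC G₀
  chart_eq := rfl
  red_ker := by
    intro b hb hbO hred
    obtain ⟨b₀, hb₀, rfl⟩ := ge_exists_of_mem_genRing A hBC hG₀ hbO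
    have hmem : ge_beta hBC b₀ ∈ ge_intSubring A (IsLocalRing.residue A) Fb Ft :=
      (ge_dataGen A Fb Ft (ge_S F0) hBC.gen (ge_beta hBC x)
        (ge_bgens hBC G₀ : Set ↥Fb) hGG).le_int hb
    obtain ⟨b', hb', hbb'⟩ := ge_ker_of_red A Ft hBC H hb₀ hmem hred
    refine ⟨ge_beta hBC b', ge_beta_mem_genRing A hBC hG₀ hb', ?_⟩
    rw [hbb', map_mul]
    congr 1
    exact ge_beta_algebraMap hBC (π : L)

end BaseDef

end Fermat.Agent.DS
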