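/-
DS-T, cell [GE] (node-E twin), file 5: regular reduction and node E, for an arbitrary triple
`(F0, Fb, Ft)`.

Generic port of `JT3/PlaceMap/Final.lean`.  For a chart `fc_chart O₀ {x}` at a DVR level
`(L, O₀ = A ∩ L)` satisfying `ge_Level0`:
* `ge_quotHom` : `chart → red(A[β gens])` is surjective with kernel `(π)`, so the reduced chart
  ring `rpz_D` is `chart ⧸ (π)`, a Dedekind domain (`ge_isDedekindDomain`);
* `ge_isFractionRing` : its fraction field is `Ft` (Gauss factorisation from the levels of the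
  chart, and the lifting hypothesis `hlift`: every element of `Ft` is a quotient of reductions of
  `A`-integral `q`-expansions of `Fb`);
* `ge_chart` : good generators + base level (`rp_Base`) + `RedRegular` for the chart over `A`;
* **`ge_nodeE_of_level0`** : `dsr_ReductionInputs A (residue A) Fb Ft` from the two charts
  `x = j`, `x = j⁻¹` at a DVR level `(L, A ∩ L)` with full residue field.
Prefix `ge_`.
-/
import Mathlib
import Fermat.Agent.DS.GE.FinalChart

set_option autoImplicit false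
set_option linter.unusedSectionVars false
set_option linter.style.haveILetI false

namespace Fermat.Agent.DS

open AlgebraicCurve Polynomial ModularCurve Fermat.Agent.JT3 Fermat.Agent.S24 IntermediateField

attribute [local instance] Fermat.Agent.DS.ge_instAlgSubring Fermat.Agent.DS.ge_instAlgFt
  Fermat.Agent.DS.ge_instAlgF
set_option synthInstance.maxHeartbeats 400000

/-! ### the reduced chart ring is `chart ⧸ (π)` -/

section Quot

variable (A : ValuationSubring Kbar)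
  {L : Type*} [Field L] [Algebra ℚ L] [Algebra L Kbar] [IsScalarTower ℚ L Kbar]
  {F0 : IntermediateField L (LaurentSeries L)} {Fb : IntermediateField Kbar (LaurentSeries Kbar)}
  (Ft : IntermediateField (IsLocalRing.ResidueField A)
    (LaurentSeries (IsLocalRing.ResidueField A)))
  (hBC : ge_BaseChange F0 Fb)

/-- the base change as a map from the base chart to the chart over `A`. -/
noncomputable def ge_chartHom {x : ↥F0} {G₀ : Finset ↥F0}
    (hG₀ : Algebra.adjoin ↥(rpz_O0 A L) (G₀ : Set ↥F0) =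
      fc_chart ↥(rpz_O0 A L) ({x} : Set ↥F0))
    (hGG : ge_GoodGens A Fb Ft (ge_S F0) (ge_beta hBC x) (ge_bgens hBC G₀ : Set ↥Fb)) :
    ↥(fc_chart ↥(rpz_O0 A L) ({x} : Set ↥F0)) →+*
      ↥(ge_dataGen A Fb Ft (ge_S F0) hBC.gen (ge_beta hBC x)
        (ge_bgens hBC G₀ : Set ↥Fb) hGG).chart.B :=
  ((ge_beta hBC).comp
    (fc_chart ↥(rpz_O0 A L) ({x} : Set ↥F0)).toSubring.subtype).codRestrict _
    (fun b₀ => ge_genRing_le A _ (ge_beta_mem_genRing A hBC hG₀ b₀.2))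

theorem ge_chartHom_coe {x : ↥F0} {G₀ : Finset ↥F0}
    (hG₀ : Algebra.adjoin ↥(rpz_O0 A L) (G₀ : Set ↥F0) =
      fc_chart ↥(rpz_O0 A L) ({x} : Set ↥F0))
    (hGG : ge_GoodGens A Fb Ft (ge_S F0) (ge_beta hBC x) (ge_bgens hBC G₀ : Set ↥Fb))
    (b₀ : ↥(fc_chart ↥(rpz_O0 A L) ({x} : Set ↥F0))) :
    ((ge_chartHom A Ft hBC hG₀ hGG b₀ : ↥(ge_dataGen A Fb Ft (ge_S F0) hBC.gen (ge_beta hBC x)
      (ge_bgens hBC G₀ : Set ↥Fb) hGG).chart.B) : ↥Fb) = ge_beta hBC (b₀ : ↥F0) :=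
  rfl

/-- the reduction map of the base chart. -/
noncomputable def ge_quotHom {x : ↥F0} {G₀ : Finset ↥F0}
    (hG₀ : Algebra.adjoin ↥(rpz_O0 A L) (G₀ : Set ↥F0) =
      fc_chart ↥(rpz_O0 A L) ({x} : Set ↥F0))
    (hGG : ge_GoodGens A Fb Ft (ge_S F0) (ge_beta hBC x) (ge_bgens hBC G₀ : Set ↥Fb)) :
    ↥(fc_chart ↥(rpz_O0 A L) ({x} : Set ↥F0)) →+*
      ↥(rpz_D (ge_dataGen A Fb Ft (ge_S F0) hBC.gen (ge_beta hBC x)
        (ge_bgens hBC G₀ : Set ↥Fb) hGG).chart) :=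
  (rpz_rho _).comp (ge_chartHom A Ft hBC hG₀ hGG)

theorem ge_quotHom_surjective
    (hres : ∀ a : A, ∃ c : L, algebraMap L Kbar c ∈ A ∧
      (a : Kbar) - algebraMap L Kbar c ∈ A.nonunits)
    {x : ↥F0} {G₀ : Finset ↥F0}
    (hG₀ : Algebra.adjoin ↥(rpz_O0 A L) (G₀ : Set ↥F0) =
      fc_chart ↥(rpz_O0 A L) ({x} : Set ↥F0))
    (hGG : ge_GoodGens A Fb Ft (ge_S F0) (ge_beta hBC x) (ge_bgens hBC G₀ : Set ↥Fb)) :
    Function.Surjective (ge_quotHom A Ft hBC hG₀ hGG) := by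
  intro d
  obtain ⟨b, rfl⟩ := rpz_rho_surjective _ d
  obtain ⟨b', hb', hbb'⟩ := rpz_red_surj
    (ge_dataGen A Fb Ft (ge_S F0) hBC.gen (ge_beta hBC x) (ge_bgens hBC G₀ : Set ↥Fb) hGG).chart
    (rpz_O' A L) (fun _ ho => rpz_O'_le A L ho)
    (fun a => by
      obtain ⟨c, hc, hac⟩ := hres a
      exact ⟨_, (rpz_mem_O' A L).2 ⟨c, hc, rfl⟩, hac⟩)
    (ge_bgens hBC G₀ : Set ↥Fb) rfl b
  obtain ⟨b₀, hb₀, hb₀b'⟩ := ge_exists_of_mem_genRing A hBC hG₀ hb'
  refine ⟨⟨b₀, hb₀⟩, ?_⟩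
  apply Subtype.ext
  change (ge_dataGen A Fb Ft (ge_S F0) hBC.gen (ge_beta hBC x)
      (ge_bgens hBC G₀ : Set ↥Fb) hGG).chart.red
    (ge_chartHom A Ft hBC hG₀ hGG ⟨b₀, hb₀⟩) =
    (ge_dataGen A Fb Ft (ge_S F0) hBC.gen (ge_beta hBC x)
      (ge_bgens hBC G₀ : Set ↥Fb) hGG).chart.red b
  rw [← hbb']
  congr 1
  exact Subtype.ext hb₀b'

end Quot

section Ded

variable (A : ValuationSubring Kbar)
  {L : Type*} [Field L] [Algebra ℚ L] [Algebra L Kbar] [IsScalarTower ℚ L Kbar]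
  {F0 : IntermediateField L (LaurentSeries L)} {Fb : IntermediateField Kbar (LaurentSeries Kbar)}
  (Ft : IntermediateField (IsLocalRing.ResidueField A)
    (LaurentSeries (IsLocalRing.ResidueField A)))
  (hBC : ge_BaseChange F0 Fb)

theorem ge_quotHom_ker {π : ↥(rpz_O0 A L)} (hπ : π ∈ IsLocalRing.maximalIdeal ↥(rpz_O0 A L))
    {x : ↥F0} (H : ge_Level0 (rpz_O0 A L) F0 π x) {G₀ : Finset ↥F0}
    (hG₀ : Algebra.adjoin ↥(rpz_O0 A L) (G₀ : Set ↥F0) =
      fc_chart ↥(rpz_O0 A L) ({x} : Set ↥F0))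
    (hGG : ge_GoodGens A Fb Ft (ge_S F0) (ge_beta hBC x) (ge_bgens hBC G₀ : Set ↥Fb)) :
    RingHom.ker (ge_quotHom A Ft hBC hG₀ hGG) =
      Ideal.span {algebraMap ↥(rpz_O0 A L) ↥(fc_chart ↥(rpz_O0 A L) ({x} : Set ↥F0)) π} := by
  set C := (ge_dataGen A Fb Ft (ge_S F0) hBC.gen (ge_beta hBC x)
    (ge_bgens hBC G₀ : Set ↥Fb) hGG).chart with hC
  apply le_antisymm
  · intro b₀ hb₀
    rw [RingHom.mem_ker] at hb₀
    have h1 : C.red (ge_chartHom A Ft hBC hG₀ hGG b₀) = 0 := congrArg Subtype.val hb₀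
    have hmem : ge_beta hBC (b₀ : ↥F0) ∈ ge_intSubring A (IsLocalRing.residue A) Fb Ft :=
      (ge_dataGen A Fb Ft (ge_S F0) hBC.gen (ge_beta hBC x)
        (ge_bgens hBC G₀ : Set ↥Fb) hGG).le_int (ge_chartHom A Ft hBC hG₀ hGG b₀).2
    obtain ⟨b', hb', hbb'⟩ := ge_ker_of_red A Ft hBC H b₀.2 hmem h1
    rw [Ideal.mem_span_singleton']
    refine ⟨⟨b', hb'⟩, Subtype.ext ?_⟩
    rw [mul_comm]
    exact hbb'.symm
  · rw [Ideal.span_singleton_le_iff_mem, RingHom.mem_ker]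
    apply Subtype.ext
    have hπA : algebraMap L Kbar (π : L) ∈ A := π.2
    have hπm : (⟨algebraMap L Kbar (π : L), hπA⟩ : A) ∈ IsLocalRing.maximalIdeal A := by
      have h1 : (π : L) ∈ (rpz_O0 A L).nonunits := by
        rw [ValuationSubring.mem_nonunits_iff_exists_mem_maximalIdeal]
        exact ⟨π.2, hπ⟩
      rw [dsc_mem_comap_nonunits_iff, ValuationSubring.mem_nonunits_iff_exists_mem_maximalIdeal]
        at h1
      exact h1.2
    have h2 : ge_chartHom A Ft hBC hG₀ hGG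
        (algebraMap ↥(rpz_O0 A L) ↥(fc_chart ↥(rpz_O0 A L) ({x} : Set ↥F0)) π) =
        ⟨algebraMap Kbar ↥Fb ((⟨algebraMap L Kbar (π : L), hπA⟩ : A) : Kbar),
          C.const_mem _⟩ := by
      apply Subtype.ext
      rw [ge_chartHom_coe]
      exact ge_beta_algebraMap hBC (π : L)
    change C.red (ge_chartHom A Ft hBC hG₀ hGG _) = 0
    rw [h2, C.red_const]
    have h3 : C.res ⟨algebraMap L Kbar (π : L), hπA⟩ = 0 :=
      (IsLocalRing.residue_eq_zero_iff _).2 hπm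
    rw [h3, map_zero]

/-- **the reduced chart ring is a Dedekind domain.** -/
theorem ge_isDedekindDomain {π : ↥(rpz_O0 A L)}
    (hπ : π ∈ IsLocalRing.maximalIdeal ↥(rpz_O0 A L))
    (hres : ∀ a : A, ∃ c : L, algebraMap L Kbar c ∈ A ∧
      (a : Kbar) - algebraMap L Kbar c ∈ A.nonunits)
    {x : ↥F0} (H : ge_Level0 (rpz_O0 A L) F0 π x) {G₀ : Finset ↥F0}
    (hG₀ : Algebra.adjoin ↥(rpz_O0 A L) (G₀ : Set ↥F0) =
      fc_chart ↥(rpz_O0 A L) ({x} : Set ↥F0))
    (hGG : ge_GoodGens A Fb Ft (ge_S F0) (ge_beta hBC x) (ge_bgens hBC G₀ : Set ↥Fb)) :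
    IsDedekindDomain
      ↥(rpz_D (ge_dataGen A Fb Ft (ge_S F0) hBC.gen (ge_beta hBC x)
        (ge_bgens hBC G₀ : Set ↥Fb) hGG).chart) := by
  haveI := H.ded
  have e1 := RingHom.quotientKerEquivOfSurjective (ge_quotHom_surjective A Ft hBC hres hG₀ hGG)
  have e2 := Ideal.quotEquivOfEq (ge_quotHom_ker A Ft hBC hπ H hG₀ hGG)
  exact nq_isDedekindDomain_of_ringEquiv
    (S := ↥(fc_chart ↥(rpz_O0 A L) ({x} : Set ↥F0)) ⧸
      Ideal.span {algebraMap ↥(rpz_O0 A L) ↥(fc_chart ↥(rpz_O0 A L) ({x} : Set ↥F0)) π})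
    (e2.symm.trans e1).symm

end Ded

/-! ### the fraction field of the reduced chart ring -/

section Frac

variable {L : Type*} [Field L] (A : ValuationSubring L)
  (F : IntermediateField L (LaurentSeries L))
  (Ft : IntermediateField (IsLocalRing.ResidueField A)
    (LaurentSeries (IsLocalRing.ResidueField A)))

/-- the reduction of an integral function lies in the fraction field of the reduced chart ring. -/
theorem ge_red_mem_closure {x : ↥F} (D : ge_ChartData A F Ft x) (hL : D.chart.HasLevels)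
    (f : ↥F) (hfint : f ∈ ge_intSubring A (IsLocalRing.residue A) F Ft) :
    ge_intRed A (IsLocalRing.residue A) F Ft ⟨f, hfint⟩ ∈
      Subfield.closure (rpz_D D.chart : Set ↥Ft) := by
  set C := D.chart with hC
  by_cases hf0 : f = 0
  · have : (⟨f, hfint⟩ : ge_intSubring A (IsLocalRing.residue A) F Ft) = 0 := Subtype.ext hf0
    rw [this, map_zero]
    exact zero_mem _
  obtain ⟨c, a, b, hc0, hra, hrb, hrel⟩ := rpm_exists_gauss_factor C hL f hf0
  have hD : ∀ y : C.B, C.red y ∈ Subfield.closure (rpz_D C : Set ↥Ft) :=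
    fun y => Subfield.subset_closure ⟨y, rfl⟩
  have haint : (a : ↥F) ∈ ge_intSubring A (IsLocalRing.residue A) F Ft := D.le_int a.2
  have hbint : (b : ↥F) ∈ ge_intSubring A (IsLocalRing.residue A) F Ft := D.le_int b.2
  have hra' : C.red a = ge_intRed A (IsLocalRing.residue A) F Ft ⟨a, haint⟩ := rfl
  have hrb' : C.red b = ge_intRed A (IsLocalRing.residue A) F Ft ⟨b, hbint⟩ := rfl
  by_cases hcA : c ∈ A
  · -- `c ∈ A`
    have hcint := ge_const_mem_int A F Ft ⟨c, hcA⟩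
    have h1 : (⟨f, hfint⟩ : ge_intSubring A (IsLocalRing.residue A) F Ft) * ⟨b, hbint⟩ =
        ⟨algebraMap L ↥F c, hcint⟩ * ⟨a, haint⟩ := Subtype.ext hrel
    have h2 := congrArg (ge_intRed A (IsLocalRing.residue A) F Ft) h1
    rw [map_mul, map_mul, ← hra', ← hrb'] at h2
    have h3 : ge_intRed A (IsLocalRing.residue A) F Ft ⟨algebraMap L ↥F c, hcint⟩ =
        C.red ⟨algebraMap L ↥F ((⟨c, hcA⟩ : A) : L), C.const_mem _⟩ := rfl
    rw [h3] at h2
    have h4 : ge_intRed A (IsLocalRing.residue A) F Ft ⟨f, hfint⟩ =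
        C.red ⟨algebraMap L ↥F ((⟨c, hcA⟩ : A) : L), C.const_mem _⟩ * C.red a /
          C.red b := by
      rw [eq_div_iff hrb]
      exact h2
    rw [h4]
    exact div_mem (mul_mem (hD _) (hD _)) (hD _)
  · -- `c ∉ A`: then `c⁻¹ ∈ 𝔪_A` and `red a = 0`, a contradiction
    exfalso
    have hciA : c⁻¹ ∈ A := (A.mem_or_inv_mem c).resolve_left hcA
    have hcim : (⟨c⁻¹, hciA⟩ : A) ∈ IsLocalRing.maximalIdeal A := by
      rw [IsLocalRing.mem_maximalIdeal, mem_nonunits_iff]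
      intro hu
      apply hcA
      obtain ⟨u, hu⟩ := hu.exists_right_inv
      have h1 : c⁻¹ * (u : L) = 1 := congrArg Subtype.val hu
      have h2 : (u : L) = c := by
        rw [← inv_inv c]
        exact (eq_inv_of_mul_eq_one_right h1)
      rw [← h2]
      exact u.2
    have hcint := ge_const_mem_int A F Ft ⟨c⁻¹, hciA⟩
    have hrel' : algebraMap L ↥F c⁻¹ * (f * (b : ↥F)) = (a : ↥F) := by
      rw [hrel, ← mul_assoc, ← map_mul, inv_mul_cancel₀ hc0, map_one, one_mul]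
    have h1 : (⟨algebraMap L ↥F c⁻¹, hcint⟩ :
        ge_intSubring A (IsLocalRing.residue A) F Ft) * (⟨f, hfint⟩ * ⟨b, hbint⟩) = ⟨a, haint⟩ :=
      Subtype.ext hrel'
    have h2 := congrArg (ge_intRed A (IsLocalRing.residue A) F Ft) h1
    rw [map_mul, ← hra'] at h2
    have h3 : ge_intRed A (IsLocalRing.residue A) F Ft ⟨algebraMap L ↥F c⁻¹, hcint⟩ = 0 := by
      rw [ge_intRed_const A F Ft ⟨c⁻¹, hciA⟩, (IsLocalRing.residue_eq_zero_iff _).2 hcim, map_zero]
    rw [h3, zero_mul] at h2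
    exact hra h2.symm

/-- the lifting hypothesis: every element of `Ft` is a quotient of reductions of `A`-integral
`q`-expansions of `F` (whose reductions lie in `Ft`). -/
def ge_Lifts : Prop :=
  ∀ g : ↥Ft, ∃ (y z : LaurentSeries A), coeffMap A.subtype y ∈ F ∧ coeffMap A.subtype z ∈ F ∧
    coeffMap (IsLocalRing.residue A) y ∈ Ft ∧ coeffMap (IsLocalRing.residue A) z ∈ Ft ∧
    coeffMap (IsLocalRing.residue A) z ≠ 0 ∧
    (g : LaurentSeries (IsLocalRing.ResidueField A)) * coeffMap (IsLocalRing.residue A) z =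
      coeffMap (IsLocalRing.residue A) y

/-- every element of `Ft` lies in the fraction field of the reduced chart ring. -/
theorem ge_mem_closure (hlift : ge_Lifts A F Ft) {x : ↥F} (D : ge_ChartData A F Ft x)
    (hL : D.chart.HasLevels) (g : ↥Ft) :
    g ∈ Subfield.closure (rpz_D D.chart : Set ↥Ft) := by
  obtain ⟨y, z, hy, hz, hyk, hzk, hz0, hg⟩ := hlift g
  have hyint : (⟨coeffMap A.subtype y, hy⟩ : ↥F) ∈ ge_intSubring A (IsLocalRing.residue A) F Ft :=
    ⟨y, rfl, hyk⟩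
  have hzint : (⟨coeffMap A.subtype z, hz⟩ : ↥F) ∈ ge_intSubring A (IsLocalRing.residue A) F Ft :=
    ⟨z, rfl, hzk⟩
  have h1 := ge_red_mem_closure A F Ft D hL _ hyint
  have h2 := ge_red_mem_closure A F Ft D hL _ hzint
  have e1 : ((ge_intRed A (IsLocalRing.residue A) F Ft ⟨_, hyint⟩ : ↥Ft) :
      LaurentSeries (IsLocalRing.ResidueField A)) = coeffMap (IsLocalRing.residue A) y :=
    ge_intRed_coe A _ F Ft ⟨_, hyint⟩ y rfl
  have e2 : ((ge_intRed A (IsLocalRing.residue A) F Ft ⟨_, hzint⟩ : ↥Ft) :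
      LaurentSeries (IsLocalRing.ResidueField A)) = coeffMap (IsLocalRing.residue A) z :=
    ge_intRed_coe A _ F Ft ⟨_, hzint⟩ z rfl
  have hz0' : ge_intRed A (IsLocalRing.residue A) F Ft ⟨_, hzint⟩ ≠ 0 := by
    intro h0
    apply hz0
    rw [← e2, h0]
    rfl
  have e3 : g = ge_intRed A (IsLocalRing.residue A) F Ft ⟨_, hyint⟩ /
      ge_intRed A (IsLocalRing.residue A) F Ft ⟨_, hzint⟩ := by
    rw [eq_div_iff hz0']
    apply Subtype.ext
    rw [MulMemClass.coe_mul, e1, e2]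
    exact hg
  rw [e3]
  exact div_mem h1 h2

/-- **`Ft` is the fraction field of the reduced chart ring.** -/
theorem ge_isFractionRing (hlift : ge_Lifts A F Ft) {x : ↥F} (D : ge_ChartData A F Ft x)
    (hL : D.chart.HasLevels) : IsFractionRing ↥(rpz_D D.chart) ↥Ft := by
  refine IsFractionRing.of_field _ _ (fun z => ?_)
  have hz := ge_mem_closure A F Ft hlift D hL z
  have hcl : Subring.closure ((rpz_D D.chart : Subalgebra _ _) : Set ↥Ft) =
      (rpz_D D.chart).toSubring := Subring.closure_eq (rpz_D D.chart).toSubring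
  rw [Subfield.mem_closure_iff, hcl] at hz
  obtain ⟨y, hy, w, hw, hyw⟩ := hz
  exact ⟨⟨y, hy⟩, ⟨w, hw⟩, hyw.symm⟩

end Frac

/-! ### one chart -/

section OneChart

variable (A : ValuationSubring Kbar)
  {L : Type*} [Field L] [Algebra ℚ L] [Algebra L Kbar] [IsScalarTower ℚ L Kbar]
  {F0 : IntermediateField L (LaurentSeries L)} {Fb : IntermediateField Kbar (LaurentSeries Kbar)}
  (Ft : IntermediateField (IsLocalRing.ResidueField A)
    (LaurentSeries (IsLocalRing.ResidueField A)))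
  (hBC : ge_BaseChange F0 Fb)

/-- **one chart of the model over `A`** from a chart at the DVR level `(L, A ∩ L)`: good
generators, a base level and regular reduction. -/
theorem ge_chart (hFb : rp_FunField Kbar ↥Fb)
    (hred : ∀ y : LaurentSeries A, coeffMap A.subtype y ∈ Fb →
      coeffMap (IsLocalRing.residue A) y ∈ Ft)
    (hlift : ge_Lifts A Fb Ft)
    [IsDiscreteValuationRing ↥(rpz_O0 A L)] {π : ↥(rpz_O0 A L)} (hπ : Irreducible π)
    (hres : ∀ a : A, ∃ c : L, algebraMap L Kbar c ∈ A ∧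
      (a : Kbar) - algebraMap L Kbar c ∈ A.nonunits)
    {x : ↥F0} (H : ge_Level0 (rpz_O0 A L) F0 π x)
    (halg : Algebra.IsAlgebraic ↥(Algebra.adjoin ↥(rpz_O0 A L) ({x} : Set ↥F0)) ↥F0)
    {X : ↥Fb} (hX : ge_beta hBC x = X)
    (hXint : X ∈ ge_intSubring A (IsLocalRing.residue A) Fb Ft)
    (htr : Transcendental (IsLocalRing.ResidueField A)
      (ge_intRed A (IsLocalRing.residue A) Fb Ft ⟨X, hXint⟩)) :
    ∃ (gens : Set ↥Fb) (hGG : ge_GoodGens A Fb Ft (ge_S F0) X gens),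
      Nonempty (rp_Base (ge_dataGen A Fb Ft (ge_S F0) hBC.gen X gens hGG).chart) ∧
        (ge_dataGen A Fb Ft (ge_S F0) hBC.gen X gens hGG).chart.RedRegular := by
  subst hX
  obtain ⟨G₀, hG₀⟩ := H.fg
  have hGG := ge_goodGens A Ft hBC hred H hG₀ halg
  refine ⟨(ge_bgens hBC G₀ : Set ↥Fb), hGG, ⟨ge_base A Ft hBC hπ hres H hG₀ hGG⟩, ?_⟩
  set D := ge_dataGen A Fb Ft (ge_S F0) hBC.gen (ge_beta hBC x) (ge_bgens hBC G₀ : Set ↥Fb) hGG
    with hD
  have hL : D.chart.HasLevels := rpu_hasLevels hFb (ge_base A Ft hBC hπ hres H hG₀ hGG)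
  have hπm : π ∈ IsLocalRing.maximalIdeal ↥(rpz_O0 A L) := by
    rw [IsLocalRing.mem_maximalIdeal]
    exact hπ.not_isUnit
  haveI : IsDedekindDomain ↥(rpz_D D.chart) := ge_isDedekindDomain A Ft hBC hπm hres H hG₀ hGG
  haveI : IsFractionRing ↥(rpz_D D.chart) ↥Ft := ge_isFractionRing A Fb Ft hlift D hL
  have hnf : ¬ IsField ↥(rpz_D D.chart) :=
    rpz_not_isField D.chart D.x_mem D.integral htr
  exact rpd_redRegular D.chart ↥(rpz_D D.chart) hnf (rpz_rho D.chart)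
    (rpz_rho_surjective D.chart) (rpz_rho_spec D.chart)

end OneChart

/-! ### node E -/

section NodeE

variable {L' : Type*} [Field L'] (A' : ValuationSubring L')
  (F' : IntermediateField L' (LaurentSeries L'))
  (Ft' : IntermediateField (IsLocalRing.ResidueField A')
    (LaurentSeries (IsLocalRing.ResidueField A'))) [gr_HasJ F'] [gr_HasJ Ft']

theorem ge_red_j_transcendental :
    Transcendental (IsLocalRing.ResidueField A')
      (ge_intRed A' (IsLocalRing.residue A') F' Ft' ⟨ge_jF F', ge_j_mem_int A' F' Ft'⟩) := by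
  intro h
  apply vx_transcendental_jq (k := IsLocalRing.ResidueField A')
  have h1 := h.algebraMap (A := LaurentSeries (IsLocalRing.ResidueField A'))
  have h2 : algebraMap ↥Ft' (LaurentSeries (IsLocalRing.ResidueField A'))
      (ge_intRed A' (IsLocalRing.residue A') F' Ft' ⟨ge_jF F', ge_j_mem_int A' F' Ft'⟩) =
      jqModC (IsLocalRing.ResidueField A') := ge_intRed_jF A' F' Ft'
  rwa [h2] at h1

theorem ge_red_jinv_transcendental :
    Transcendental (IsLocalRing.ResidueField A')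
      (ge_intRed A' (IsLocalRing.residue A') F' Ft'
        ⟨(ge_jF F')⁻¹, ge_jinv_mem_int A' F' Ft'⟩) := by
  have h1 : ge_intRed A' (IsLocalRing.residue A') F' Ft' ⟨ge_jF F', ge_j_mem_int A' F' Ft'⟩ *
      ge_intRed A' (IsLocalRing.residue A') F' Ft'
        ⟨(ge_jF F')⁻¹, ge_jinv_mem_int A' F' Ft'⟩ = 1 := by
    rw [← map_mul]
    have : (⟨ge_jF F', ge_j_mem_int A' F' Ft'⟩ :
        ge_intSubring A' (IsLocalRing.residue A') F' Ft') *
        ⟨(ge_jF F')⁻¹, ge_jinv_mem_int A' F' Ft'⟩ = 1 :=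
      Subtype.ext (mul_inv_cancel₀ (ge_jF_ne_zero F'))
    rw [this, map_one]
  rw [eq_inv_of_mul_eq_one_right h1]
  intro h
  exact ge_red_j_transcendental A' F' Ft' (IsAlgebraic.inv_iff.1 h)

variable (A : ValuationSubring Kbar)
  {L : Type*} [Field L] [Algebra ℚ L] [Algebra L Kbar] [IsScalarTower ℚ L Kbar]
  {F0 : IntermediateField L (LaurentSeries L)} {Fb : IntermediateField Kbar (LaurentSeries Kbar)}
  (Ft : IntermediateField (IsLocalRing.ResidueField A)
    (LaurentSeries (IsLocalRing.ResidueField A)))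
  [gr_HasJ F0] [gr_HasJ Fb] [gr_HasJ Ft]

/-- **Node E from two charts at a DVR level `(L, A ∩ L)`**, `L` any subfield of `Q̄` such that
`A ∩ L` is a discrete valuation ring with the same residue field as `A`, for an arbitrary triple
`(F0, Fb, Ft)` of `q`-expansion fields containing `j`. -/
theorem ge_nodeE_of_level0 (hBC : ge_BaseChange F0 Fb) (hFb : rp_FunField Kbar ↥Fb)
    (hFt : rp_FunField (IsLocalRing.ResidueField A) ↥Ft)
    (hred : ∀ y : LaurentSeries A, coeffMap A.subtype y ∈ Fb →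
      coeffMap (IsLocalRing.residue A) y ∈ Ft)
    (hlift : ge_Lifts A Fb Ft)
    [FiniteDimensional L⟮(ge_jF F0 : ↥F0)⟯ ↥F0]
    [IsDiscreteValuationRing ↥(rpz_O0 A L)] {π : ↥(rpz_O0 A L)} (hπ : Irreducible π)
    (hres : ∀ a : A, ∃ c : L, algebraMap L Kbar c ∈ A ∧
      (a : Kbar) - algebraMap L Kbar c ∈ A.nonunits)
    (H1 : ge_Level0 (rpz_O0 A L) F0 π (ge_jF F0))
    (H2 : ge_Level0 (rpz_O0 A L) F0 π (ge_jF F0)⁻¹) :
    dsr_ReductionInputs A (IsLocalRing.residue A) Fb Ft := by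
  haveI : CharZero L := algebraRat.charZero L
  haveI : IsFractionRing ↥(rpz_O0 A L) L := inferInstance
  haveI : IsScalarTower ↥(rpz_O0 A L) L ↥F0 := IsScalarTower.of_algebraMap_eq fun _ => rfl
  have halg1 : Algebra.IsAlgebraic
      ↥(Algebra.adjoin ↥(rpz_O0 A L) ({ge_jF F0} : Set ↥F0)) ↥F0 :=
    fc_ff_isAlgebraic (L := L) (ge_jF F0)
  have halg2 : Algebra.IsAlgebraic
      ↥(Algebra.adjoin ↥(rpz_O0 A L) ({(ge_jF F0)⁻¹} : Set ↥F0)) ↥F0 := by
    haveI : FiniteDimensional L⟮(ge_jF F0 : ↥F0)⁻¹⟯ ↥F0 := by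
      rw [rt_adjoin_inv]; infer_instance
    exact fc_ff_isAlgebraic (L := L) (ge_jF F0)⁻¹
  obtain ⟨gens₁, h₁, ⟨Bs1⟩, hR1⟩ := ge_chart A Ft hBC hFb hred hlift hπ hres H1 halg1
    (ge_beta_jF hBC) (ge_j_mem_int A Fb Ft) (ge_red_j_transcendental A Fb Ft)
  obtain ⟨gens₂, h₂, ⟨Bs2⟩, hR2⟩ := ge_chart A Ft hBC hFb hred hlift hπ hres H2 halg2
    (by rw [map_inv₀, ge_beta_jF]) (ge_jinv_mem_int A Fb Ft) (ge_red_jinv_transcendental A Fb Ft)
  exact ge_reductionInputs_base_gens A Fb Ft hFb hFt (ge_S F0) hBC.gen gens₁ gens₂ h₁ h₂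
    Bs1 hR1 Bs2 hR2

end NodeE

end Fermat.Agent.DS
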