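/-
DS-T, cell [GE] (node-E twin), file 6: THE FINAL STATEMENTS.

* `ge_level0_of_rpn` : the interface structure `rpn_Level0 F0 π x` of `JT3/PlaceMap/Level0.lean`
  (already generic in the field; produced by `rpn_level0_of_dedekind` from "the chart modulo `π` is
  a Dedekind domain") gives `ge_Level0 O F0 π x`.
* `ge_lifts_of_gr` : helper2's lifting seam `gr_Lifts` gives `ge_Lifts`.
* **`ge_nodeE`** : `dsr_ReductionInputs A (residue A) Fb Ft` for an arbitrary triple `(F0, Fb, Ft)`
  of `q`-expansion fields containing `j`, `Fb` the extension of constants of `F0`, from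
  `rpn_Level0` for the two charts `x = j`, `x = j⁻¹` at a DVR level `(L, A ∩ L)` with full residue
  field, the function-field facts, the lifting seam, and
  `hred` : the reduction of every `A`-integral `q`-expansion of `Fb` lies in `Ft`.
* **`ge_nodeE_hgen`** : the same with (E-gen) `hgen` instead of `hred`.
* the family `gr_F G` : `ge_hasJ_family`, `ge_baseChange_family`, **`ge_nodeE_family`**.
Prefix `ge_`.
-/
import Mathlib
import Fermat.Agent.DS.GE.Final
import Fermat.Agent.DS.GR.FamilyLift
import Fermat.Agent.JT3.PlaceMap.Level0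

set_option autoImplicit false
set_option linter.unusedSectionVars false
set_option linter.style.haveILetI false

namespace Fermat.Agent.DS

open AlgebraicCurve Polynomial ModularCurve Fermat.Agent.JT3 Fermat.Agent.S24 IntermediateField

attribute [local instance] Fermat.Agent.DS.ge_instAlgSubring Fermat.Agent.DS.ge_instAlgFt
  Fermat.Agent.DS.ge_instAlgF
set_option synthInstance.maxHeartbeats 400000

section Wrap

variable {L : Type*} [Field L] (O : ValuationSubring L) [IsDiscreteValuationRing O]
  (F0 : IntermediateField L (LaurentSeries L))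

/-- the elementwise finiteness of a chart gives a finite set of algebra generators. -/
theorem ge_fg_of_span {x : ↥F0}
    (hfin : ∃ G : Finset ↥F0, (∀ g ∈ G, g ∈ fc_chart O ({x} : Set ↥F0)) ∧
      ∀ b ∈ fc_chart O ({x} : Set ↥F0),
        b ∈ Submodule.span ↥(Algebra.adjoin O ({x} : Set ↥F0)) (G : Set ↥F0)) :
    (fc_chart O ({x} : Set ↥F0)).FG := by
  classical
  obtain ⟨G, hG, hspan⟩ := hfin
  refine ⟨{x} ∪ G, le_antisymm ?_ ?_⟩
  · refine Algebra.adjoin_le ?_
    intro y hy
    rw [Finset.coe_union, Finset.coe_singleton] at hy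
    rcases hy with hy | hy
    · rw [Set.mem_singleton_iff] at hy
      rw [hy]
      exact fc_adjoin_le_chart _ (Algebra.subset_adjoin rfl)
    · exact hG y hy
  · intro b hb
    have hle : Algebra.adjoin O ({x} : Set ↥F0) ≤
        Algebra.adjoin O ((({x} ∪ G : Finset ↥F0)) : Set ↥F0) :=
      Algebra.adjoin_mono (by
        intro y hy
        rw [Set.mem_singleton_iff] at hy
        rw [hy]
        simp)
    have key : ∀ z : ↥F0,
        z ∈ Submodule.span ↥(Algebra.adjoin O ({x} : Set ↥F0)) (G : Set ↥F0) →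
        z ∈ Algebra.adjoin O ((({x} ∪ G : Finset ↥F0)) : Set ↥F0) := by
      intro z hz
      induction hz using Submodule.span_induction with
      | mem g hg => exact Algebra.subset_adjoin (by simp [Finset.mem_coe.1 hg])
      | zero => exact zero_mem _
      | add y z _ _ hy hz => exact add_mem hy hz
      | smul r y _ hy =>
        have : r • y = (r : ↥F0) * y := rfl
        rw [this]
        exact mul_mem (hle r.2) hy
    exact key b (hspan b hb)

/-- the interface structure of `PlaceMap/Level0.lean` gives the hypotheses of `ge_nodeE_of_level0`. -/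
theorem ge_level0_of_rpn {π : O} {x : ↥F0} (H : rpn_Level0 F0 π x) : ge_Level0 O F0 π x where
  qint := H.qint
  fg := ge_fg_of_span O F0 H.fin
  ker := H.ker
  ded := H.ded

end Wrap

section Lifts

variable {L : Type*} [Field L] (A : ValuationSubring L)
  (F : IntermediateField L (LaurentSeries L))
  (Ft : IntermediateField (IsLocalRing.ResidueField A)
    (LaurentSeries (IsLocalRing.ResidueField A)))

/-- helper2's lifting seam gives the lifting hypothesis of this cell. -/
theorem ge_lifts_of_gr (h : gr_Lifts A (IsLocalRing.residue A) F Ft) : ge_Lifts A F Ft := by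
  intro g
  by_cases hg : g = 0
  · refine ⟨0, 1, ?_, ?_, ?_, ?_, ?_, ?_⟩
    · rw [map_zero]; exact zero_mem _
    · rw [map_one]; exact one_mem _
    · rw [map_zero]; exact zero_mem _
    · rw [map_one]; exact one_mem _
    · rw [map_one]; exact one_ne_zero
    · rw [hg, map_zero, map_one]
      simp
  · obtain ⟨ya, yb, hab⟩ := h g hg
    refine ⟨ya.1, yb.1, ya.2.1, yb.2.1, ya.2.2.1, yb.2.2.1, yb.2.2.2, ?_⟩
    have := congrArg (fun t : ↥Ft => (t : LaurentSeries (IsLocalRing.ResidueField A))) hab
    simp only [dsr_coe_red, MulMemClass.coe_mul] at this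
    exact this.symm

end Lifts

section NodeE

variable (A : ValuationSubring Kbar)
  {L : Type*} [Field L] [Algebra ℚ L] [Algebra L Kbar] [IsScalarTower ℚ L Kbar]
  (F0 : IntermediateField L (LaurentSeries L)) (Fb : IntermediateField Kbar (LaurentSeries Kbar))
  (Ft : IntermediateField (IsLocalRing.ResidueField A)
    (LaurentSeries (IsLocalRing.ResidueField A)))
  [gr_HasJ F0] [gr_HasJ Fb] [gr_HasJ Ft]

/-- **[GE] NODE E, generic in the triple of `q`-expansion fields.**  `A` a valuation ring of `Q̄`,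
`(L, A ∩ L)` a DVR level with the same residue field, `F0 ⊆ L((q))`, `Fb ⊆ Q̄((q))` its extension of
constants, `Ft ⊆ k_A((q))`, all containing `j`.  From the two `j`-charts at the DVR level
(`rpn_Level0`) and the seams `hred`, `hlift`: the reduction inputs of the pair `(Fb, Ft)`. -/
theorem ge_nodeE (hBC : ge_BaseChange F0 Fb) (hFb : rp_FunField Kbar ↥Fb)
    (hFt : rp_FunField (IsLocalRing.ResidueField A) ↥Ft)
    (hred : ∀ y : LaurentSeries A, coeffMap A.subtype y ∈ Fb →
      coeffMap (IsLocalRing.residue A) y ∈ Ft)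
    (hlift : gr_Lifts A (IsLocalRing.residue A) Fb Ft)
    [FiniteDimensional L⟮(ge_jF F0 : ↥F0)⟯ ↥F0]
    [IsDiscreteValuationRing ↥(A.comap (algebraMap L Kbar))]
    {π : ↥(A.comap (algebraMap L Kbar))} (hπ : Irreducible π)
    (hres : ∀ a : A, ∃ c : L, algebraMap L Kbar c ∈ A ∧
      (a : Kbar) - algebraMap L Kbar c ∈ A.nonunits)
    (H1 : rpn_Level0 F0 π (ge_jF F0)) (H2 : rpn_Level0 F0 π (ge_jF F0)⁻¹) :
    dsr_ReductionInputs A (IsLocalRing.residue A) Fb Ft :=
  ge_nodeE_of_level0 A Ft hBC hFb hFt hred (ge_lifts_of_gr A Fb Ft hlift) hπ hres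
    (ge_level0_of_rpn (A.comap (algebraMap L Kbar)) F0 H1)
    (ge_level0_of_rpn (A.comap (algebraMap L Kbar)) F0 H2)

/-- the same with (E-gen) instead of `hred`. -/
theorem ge_nodeE_hgen (hBC : ge_BaseChange F0 Fb) (hFb : rp_FunField Kbar ↥Fb)
    (hFt : rp_FunField (IsLocalRing.ResidueField A) ↥Ft)
    (hgen : ∀ f : ↥Fb, f ≠ 0 →
      ∃ (c : Kbar) (y z : LaurentSeries A) (hy : coeffMap A.subtype y ∈ Fb)
        (hz : coeffMap A.subtype z ∈ Fb),
        c ≠ 0 ∧ coeffMap (IsLocalRing.residue A) y ∈ Ft ∧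
          coeffMap (IsLocalRing.residue A) y ≠ 0 ∧
          coeffMap (IsLocalRing.residue A) z ∈ Ft ∧
          coeffMap (IsLocalRing.residue A) z ≠ 0 ∧
          f * (⟨coeffMap A.subtype z, hz⟩ : ↥Fb) =
            algebraMap Kbar ↥Fb c * ⟨coeffMap A.subtype y, hy⟩)
    (hlift : gr_Lifts A (IsLocalRing.residue A) Fb Ft)
    [FiniteDimensional L⟮(ge_jF F0 : ↥F0)⟯ ↥F0]
    [IsDiscreteValuationRing ↥(A.comap (algebraMap L Kbar))]
    {π : ↥(A.comap (algebraMap L Kbar))} (hπ : Irreducible π)
    (hres : ∀ a : A, ∃ c : L, algebraMap L Kbar c ∈ A ∧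
      (a : Kbar) - algebraMap L Kbar c ∈ A.nonunits)
    (H1 : rpn_Level0 F0 π (ge_jF F0)) (H2 : rpn_Level0 F0 π (ge_jF F0)⁻¹) :
    dsr_ReductionInputs A (IsLocalRing.residue A) Fb Ft := by
  refine ge_nodeE A F0 Fb Ft hBC hFb hFt ?_ hlift hπ hres H1 H2
  intro y hy
  obtain ⟨w, hw, hwk⟩ := ge_mem_int_of_hgen A Fb Ft hgen ⟨coeffMap A.subtype y, hy⟩ y rfl
  have : w = y := dsr_coeffMap_subtype_injective hw
  rw [← this]
  exact hwk

end NodeE

/-! ### the functorial family `gr_F G` -/

section Family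

variable (G : Set (LaurentSeries ℤ))

theorem ge_hasJ_family (hj : jqModC ℤ ∈ G) (L : Type*) [Field L] : gr_HasJ (gr_F G L) := by
  refine ⟨?_⟩
  have h := gr_gen_mem G L hj
  rwa [coeffMap_jqModC] at h

variable (L : Type*) [Field L] [Algebra ℚ L] [Algebra L Kbar] [IsScalarTower ℚ L Kbar]

theorem ge_baseChange_family : ge_BaseChange (gr_F G L) (gr_F G Kbar) where
  mem := fun x hx => gr_coeffMap_mem G (algebraMap L Kbar) hx
  gen := by
    apply le_antisymm
    · rw [gr_F, IntermediateField.adjoin_le_iff]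
      rintro _ ⟨g, hg, rfl⟩
      refine IntermediateField.subset_adjoin _ _ ⟨coeffMap (Int.castRingHom L) g, ?_, ?_⟩
      · exact gr_gen_mem G L hg
      · change coeffMap (algebraMap L Kbar) (coeffMap (Int.castRingHom L) g) = _
        rw [gr_coeffMap_intCast]
    · rw [IntermediateField.adjoin_le_iff]
      rintro _ ⟨x, hx, rfl⟩
      exact gr_coeffMap_mem G (algebraMap L Kbar) hx

/-- **[GE] node E for the family `gr_F G`** (the base change and lifting seams are discharged). -/
theorem ge_nodeE_family (hj : jqModC ℤ ∈ G) (A : ValuationSubring Kbar)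
    (hFb : rp_FunField Kbar ↥(gr_F G Kbar))
    (hFt : rp_FunField (IsLocalRing.ResidueField A) ↥(gr_F G (IsLocalRing.ResidueField A)))
    (hred : ∀ y : LaurentSeries A, coeffMap A.subtype y ∈ gr_F G Kbar →
      coeffMap (IsLocalRing.residue A) y ∈ gr_F G (IsLocalRing.ResidueField A))
    (hfin : haveI := ge_hasJ_family G hj L
      FiniteDimensional L⟮(ge_jF (gr_F G L) : ↥(gr_F G L))⟯ ↥(gr_F G L))
    [IsDiscreteValuationRing ↥(A.comap (algebraMap L Kbar))]
    {π : ↥(A.comap (algebraMap L Kbar))} (hπ : Irreducible π)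
    (hres : ∀ a : A, ∃ c : L, algebraMap L Kbar c ∈ A ∧
      (a : Kbar) - algebraMap L Kbar c ∈ A.nonunits)
    (H1 : haveI := ge_hasJ_family G hj L
      rpn_Level0 (gr_F G L) π (ge_jF (gr_F G L)))
    (H2 : haveI := ge_hasJ_family G hj L
      rpn_Level0 (gr_F G L) π (ge_jF (gr_F G L))⁻¹) :
    dsr_ReductionInputs A (IsLocalRing.residue A) (gr_F G Kbar)
      (gr_F G (IsLocalRing.ResidueField A)) := by
  haveI := ge_hasJ_family G hj L
  haveI := ge_hasJ_family G hj Kbar
  haveI := ge_hasJ_family G hj (IsLocalRing.ResidueField A)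
  haveI := hfin
  exact ge_nodeE A (gr_F G L) (gr_F G Kbar) (gr_F G (IsLocalRing.ResidueField A))
    (ge_baseChange_family G L) hFb hFt hred (gr_lifts G IsLocalRing.residue_surjective)
    hπ hres H1 H2

end Family

end Fermat.Agent.DS
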