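/-
DS-T, cell [GE] (node-E twin), file 7: GENERATION OF THE PRINCIPAL DIVISORS BY A CLASS `𝒞` OF
`q`-INTEGRAL FUNCTIONS (`dsh_ClassGenerates`, the hypothesis `h𝒞` of the class-relative transfer
principle `dsh_transferC`, `DS/Hecke/TransferC.lean`).

For a diamond operator `δ`, `δ y` of a `q`-integral `y` need not be `q`-integral; the agreement of
`δ` with its reduction can only be checked on the class of the `q`-integral functions which are
INTEGRAL OVER `A[j]` (poles only at the cusps).  The Gauss factorisation of node E writes every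
`f ≠ 0` as `c · a / b` with `a, b` in the chart ring of the coordinate `j` — which is integral over
`A[j]` — with nonzero reductions.  Hence:

* `gec_classGenerates_of_hgen` : the abstract form;
* `gec_classGenerates_chart` : every class containing the functions of a chart datum with enough
  levels generates;
* **`gec_classGenerates_nodeE`** : under the hypotheses of `ge_nodeE` (only the chart `x = j` is
  used), every class `𝒞 ⊇ {y | dsr_gen y integral over A[j]}` generates;
* `gec_classGenerates_family` : the same for the family `gr_F G`.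
Prefix `gec_`.
-/
import Mathlib
import Fermat.Agent.DS.GE.NodeE
import Fermat.Agent.DS.Hecke.TransferC

set_option autoImplicit false
set_option linter.unusedSectionVars false
set_option linter.style.haveILetI false

namespace Fermat.Agent.DS

open AlgebraicCurve Polynomial ModularCurve Fermat.Agent.JT3 Fermat.Agent.S24 IntermediateField

attribute [local instance] Fermat.Agent.DS.ge_instAlgSubring Fermat.Agent.DS.ge_instAlgFt
  Fermat.Agent.DS.ge_instAlgF
set_option synthInstance.maxHeartbeats 400000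

section Abstract

variable {L : Type*} [Field L] {A : ValuationSubring L} {k : Type*} [Field k] {π : A →+* k}
  {F : IntermediateField L (LaurentSeries L)} {Ft : IntermediateField k (LaurentSeries k)}

/-- **the abstract form**: if every nonzero function is a constant times a quotient of two functions
of the class, the divisors of the functions of the class generate the principal divisors. -/
theorem gec_classGenerates_of_hgen (hF : rp_FunField L ↥F) (𝒞 : Set (dsr_IntFun A π F Ft))
    (hgen : ∀ f : ↥F, f ≠ 0 → ∃ (c : L) (y z : dsr_IntFun A π F Ft), c ≠ 0 ∧ y ∈ 𝒞 ∧ z ∈ 𝒞 ∧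
      f * dsr_gen z = algebraMap L ↥F c * dsr_gen y) :
    dsh_ClassGenerates 𝒞 := by
  intro D hD
  obtain ⟨f, hf, hDf⟩ := hD
  obtain ⟨c, y, z, hc, hy𝒞, hz𝒞, hfz⟩ := hgen f hf
  have ha0 : dsr_gen y ≠ 0 := dsr_gen_ne_zero y
  have hb0 : dsr_gen z ≠ 0 := dsr_gen_ne_zero z
  obtain ⟨Da, hDa⟩ := rpg_exists_divisor hF (dsr_gen y) ha0
  obtain ⟨Db, hDb⟩ := rpg_exists_divisor hF (dsr_gen z) hb0
  have hDa' : Da ∈ dsh_classDivisors 𝒞 := ⟨y, hy𝒞, hDa⟩
  have hDb' : Db ∈ dsh_classDivisors 𝒞 := ⟨z, hz𝒞, hDb⟩
  have hc0 : algebraMap L ↥F c ≠ 0 := by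
    simpa using hc
  have e : D = Da - Db := by
    ext P
    rw [Finsupp.sub_apply, hDf, hDa, hDb]
    have h1 := congrArg P.ord hfz
    rw [P.ord_mul hf hb0, P.ord_mul hc0 ha0, hw_ord_algebraMap, zero_add] at h1
    omega
  rw [e]
  exact AddSubgroup.sub_mem _ (AddSubgroup.subset_closure hDa') (AddSubgroup.subset_closure hDb')

end Abstract

section Chart

variable {L : Type*} [Field L] (A : ValuationSubring L)
  (F : IntermediateField L (LaurentSeries L))
  (Ft : IntermediateField (IsLocalRing.ResidueField A)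
    (LaurentSeries (IsLocalRing.ResidueField A)))

/-- **(E-gen) with the chart membership recorded**: the two factors of the Gauss factorisation lie
in the chart ring. -/
theorem gec_hgen_chart {x : ↥F} (D : ge_ChartData A F Ft x) (hL : D.chart.HasLevels) (f : ↥F)
    (hf : f ≠ 0) :
    ∃ (c : L) (y z : dsr_IntFun A (IsLocalRing.residue A) F Ft), c ≠ 0 ∧
      dsr_gen y ∈ D.B ∧ dsr_gen z ∈ D.B ∧ f * dsr_gen z = algebraMap L ↥F c * dsr_gen y := by
  obtain ⟨c, a, b, hc, ha, hb, hab⟩ := rpm_exists_gauss_factor D.chart hL f hf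
  set aI : ge_intSubring A (IsLocalRing.residue A) F Ft := ⟨a, D.le_int a.2⟩ with haI
  set bI : ge_intSubring A (IsLocalRing.residue A) F Ft := ⟨b, D.le_int b.2⟩ with hbI
  have hay := ge_intLift_spec A (IsLocalRing.residue A) F Ft aI
  have hby := ge_intLift_spec A (IsLocalRing.residue A) F Ft bI
  have hya : coeffMap A.subtype (ge_intLift A (IsLocalRing.residue A) F Ft aI) ∈ F := by
    rw [hay.1]; exact (a : ↥F).2
  have hyb : coeffMap A.subtype (ge_intLift A (IsLocalRing.residue A) F Ft bI) ∈ F := by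
    rw [hby.1]; exact (b : ↥F).2
  have hane : coeffMap (IsLocalRing.residue A) (ge_intLift A (IsLocalRing.residue A) F Ft aI)
      ≠ 0 := by
    intro h0
    apply ha
    rw [D.chart_red]
    exact Subtype.ext h0
  have hbne : coeffMap (IsLocalRing.residue A) (ge_intLift A (IsLocalRing.residue A) F Ft bI)
      ≠ 0 := by
    intro h0
    apply hb
    rw [D.chart_red]
    exact Subtype.ext h0
  let y : dsr_IntFun A (IsLocalRing.residue A) F Ft :=
    ⟨ge_intLift A (IsLocalRing.residue A) F Ft aI, hya, hay.2, hane⟩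
  let z : dsr_IntFun A (IsLocalRing.residue A) F Ft :=
    ⟨ge_intLift A (IsLocalRing.residue A) F Ft bI, hyb, hby.2, hbne⟩
  have e1 : dsr_gen z = (b : ↥F) := Subtype.ext hby.1
  have e2 : dsr_gen y = (a : ↥F) := Subtype.ext hay.1
  refine ⟨c, y, z, hc, ?_, ?_, ?_⟩
  · rw [e2]; exact a.2
  · rw [e1]; exact b.2
  · rw [e1, e2]; exact hab

/-- **every class containing the functions of a chart datum with enough levels generates the
principal divisors.** -/
theorem gec_classGenerates_chart (hF : rp_FunField L ↥F) {x : ↥F} (D : ge_ChartData A F Ft x)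
    (hL : D.chart.HasLevels) (𝒞 : Set (dsr_IntFun A (IsLocalRing.residue A) F Ft))
    (h𝒞 : ∀ y : dsr_IntFun A (IsLocalRing.residue A) F Ft, dsr_gen y ∈ D.B → y ∈ 𝒞) :
    dsh_ClassGenerates 𝒞 := by
  refine gec_classGenerates_of_hgen hF 𝒞 fun f hf => ?_
  obtain ⟨c, y, z, hc, hy, hz, h⟩ := gec_hgen_chart A F Ft D hL f hf
  exact ⟨c, y, z, hc, h𝒞 y hy, h𝒞 z hz, h⟩

/-- the class of the `q`-integral functions (with nonzero reduction) which are integral over
`A[x]`. -/
def gec_intClass (x : ↥F) : Set (dsr_IntFun A (IsLocalRing.residue A) F Ft) :=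
  {y | IsIntegral (rpm_ringOf A x) (dsr_gen y)}

theorem gec_mem_intClass {x : ↥F} {y : dsr_IntFun A (IsLocalRing.residue A) F Ft} :
    y ∈ gec_intClass A F Ft x ↔ IsIntegral (rpm_ringOf A x) (dsr_gen y) := Iff.rfl

/-- the class of the functions integral over `A[x]` generates. -/
theorem gec_classGenerates_intClass (hF : rp_FunField L ↥F) {x : ↥F} (D : ge_ChartData A F Ft x)
    (hL : D.chart.HasLevels) : dsh_ClassGenerates (gec_intClass A F Ft x) :=
  gec_classGenerates_chart A F Ft hF D hL _ fun _ hy => D.integral _ hy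

end Chart

section NodeE

variable (A : ValuationSubring Kbar)
  {L : Type*} [Field L] [Algebra ℚ L] [Algebra L Kbar] [IsScalarTower ℚ L Kbar]
  (F0 : IntermediateField L (LaurentSeries L)) (Fb : IntermediateField Kbar (LaurentSeries Kbar))
  (Ft : IntermediateField (IsLocalRing.ResidueField A)
    (LaurentSeries (IsLocalRing.ResidueField A)))
  [gr_HasJ F0] [gr_HasJ Fb] [gr_HasJ Ft]

/-- **[GE], class form.**  Under the hypotheses of `ge_nodeE` (only the chart `x = j` is used):
the divisors of the `q`-integral functions of `Fb` which are INTEGRAL OVER `A[j]` generate the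
principal divisors of `Fb`. -/
theorem gec_classGenerates_nodeE (hBC : ge_BaseChange F0 Fb) (hFb : rp_FunField Kbar ↥Fb)
    (hred : ∀ y : LaurentSeries A, coeffMap A.subtype y ∈ Fb →
      coeffMap (IsLocalRing.residue A) y ∈ Ft)
    (hlift : gr_Lifts A (IsLocalRing.residue A) Fb Ft)
    [FiniteDimensional L⟮(ge_jF F0 : ↥F0)⟯ ↥F0]
    [IsDiscreteValuationRing ↥(A.comap (algebraMap L Kbar))]
    {π : ↥(A.comap (algebraMap L Kbar))} (hπ : Irreducible π)
    (hres : ∀ a : A, ∃ c : L, algebraMap L Kbar c ∈ A ∧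
      (a : Kbar) - algebraMap L Kbar c ∈ A.nonunits)
    (H1 : rpn_Level0 F0 π (ge_jF F0)) :
    dsh_ClassGenerates (gec_intClass A Fb Ft (ge_jF Fb)) := by
  haveI : CharZero L := algebraRat.charZero L
  haveI : IsFractionRing ↥(rpz_O0 A L) L := inferInstance
  haveI : IsScalarTower ↥(rpz_O0 A L) L ↥F0 := IsScalarTower.of_algebraMap_eq fun _ => rfl
  have halg1 : Algebra.IsAlgebraic
      ↥(Algebra.adjoin ↥(rpz_O0 A L) ({ge_jF F0} : Set ↥F0)) ↥F0 :=
    fc_ff_isAlgebraic (L := L) (ge_jF F0)
  obtain ⟨gens₁, h₁, ⟨Bs1⟩, -⟩ := ge_chart A Ft hBC hFb hred (ge_lifts_of_gr A Fb Ft hlift) hπ hres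
    (ge_level0_of_rpn (A.comap (algebraMap L Kbar)) F0 H1) halg1
    (ge_beta_jF hBC) (ge_j_mem_int A Fb Ft) (ge_red_j_transcendental A Fb Ft)
  exact gec_classGenerates_intClass A Fb Ft hFb _ (rpu_hasLevels hFb Bs1)

end NodeE

section Family

variable (G : Set (LaurentSeries ℤ))
  (L : Type*) [Field L] [Algebra ℚ L] [Algebra L Kbar] [IsScalarTower ℚ L Kbar]

/-- **[GE], class form, for the family `gr_F G`.** -/
theorem gec_classGenerates_family (hj : jqModC ℤ ∈ G) (A : ValuationSubring Kbar)
    (hFb : rp_FunField Kbar ↥(gr_F G Kbar))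
    (hred : ∀ y : LaurentSeries A, coeffMap A.subtype y ∈ gr_F G Kbar →
      coeffMap (IsLocalRing.residue A) y ∈ gr_F G (IsLocalRing.ResidueField A))
    (hfin : haveI := ge_hasJ_family G hj L
      FiniteDimensional L⟮(ge_jF (gr_F G L) : ↥(gr_F G L))⟯ ↥(gr_F G L))
    [IsDiscreteValuationRing ↥(A.comap (algebraMap L Kbar))]
    {π : ↥(A.comap (algebraMap L Kbar))} (hπ : Irreducible π)
    (hres : ∀ a : A, ∃ c : L, algebraMap L Kbar c ∈ A ∧
      (a : Kbar) - algebraMap L Kbar c ∈ A.nonunits)
    (H1 : haveI := ge_hasJ_family G hj L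
      rpn_Level0 (gr_F G L) π (ge_jF (gr_F G L))) :
    haveI := ge_hasJ_family G hj Kbar
    dsh_ClassGenerates (gec_intClass A (gr_F G Kbar) (gr_F G (IsLocalRing.ResidueField A))
      (ge_jF (gr_F G Kbar))) := by
  haveI := ge_hasJ_family G hj L
  haveI := ge_hasJ_family G hj Kbar
  haveI := ge_hasJ_family G hj (IsLocalRing.ResidueField A)
  haveI := hfin
  exact gec_classGenerates_nodeE A (gr_F G L) (gr_F G Kbar) (gr_F G (IsLocalRing.ResidueField A))
    (ge_baseChange_family G L) hFb hred (gr_lifts G IsLocalRing.residue_surjective)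
    hπ hres H1

end Family

end Fermat.Agent.DS
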