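/-
DS-T, cell [GE-WIRE] (node-E twin, geometric input), file 1: THE LEGENDRE GALOIS DESCENT for a
VARIABLE subfield `F ⊆ L((q))` containing `j`.

Generic twin of the instance sections of `JT3/PlaceMap/CoverGaloisLeg.lean` (helper-written
`rcq_leg_`; port rule `lg_F2 L N ↦ gr_F2 F`, `lg_E L N ↦ gr_E F`, `lg_lamE N ↦ gr_lamE F`,
`lgf_j2E L N ↦ grf_j2E F`, `(N) [NeZero N] ↦ (F) [gr_HasJ F]`; the level enters only through
(A1) `hA : gr_A1 F` (finiteness) and `hq : F ≤ gq_quotField O L` (the `q`-Gauss valuation ring)).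

The Galois group of `E = φ(F)(λ)` over `φ(F)` (the six anharmonic substitutions) acts faithfully
modulo `π` on the two `j'`-charts `T₁ = fc_chart O {j'}`, `T₂ = fc_chart O {1/j'}` of `E`, hence
(`rcq_dedekind_descent`): `T_i / π` Dedekind ⟹ `fc_chart O {j'^{±1}} / π` (computed in `φ(F)`)
Dedekind: **`gew_leg_dedekind1`**, **`gew_leg_dedekind2`**.
Prefix `gew_leg_`.
-/
import Mathlib
import Fermat.Agent.JT3.PlaceMap.CoverGaloisLeg
import Fermat.Agent.DS.GR.Key0
import Fermat.Agent.DS.GR.Reg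

set_option autoImplicit false
set_option linter.unusedSectionVars false
set_option linter.style.haveILetI false

namespace Fermat.Agent.DS

open Polynomial IntermediateField IsLocalRing ModularCurve Fermat.Agent.JT3

section Instances

variable {L : Type*} [Field L] (O : ValuationSubring L) (F : IntermediateField L (LaurentSeries L)) [gr_HasJ F]

/-- shortcut instance. -/
noncomputable instance gew_leg_algOF2 : Algebra ↥O ↥(gr_F2 F) := Algebra.ofSubsemiring O

instance gew_leg_tower_O_L_F2 : IsScalarTower ↥O L ↥(gr_F2 F) :=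
  IsScalarTower.of_algebraMap_eq (fun _ => rfl)

attribute [local instance] grh_algF2E

instance gew_leg_tower_L_F2_E : IsScalarTower L (gr_F2 F) (gr_E F) :=
  lgh_isScalarTower_base (gr_F2_le_E F)

instance gew_leg_tower_O_F2_E : IsScalarTower ↥O (gr_F2 F) (gr_E F) :=
  IsScalarTower.of_algebraMap_eq (fun _ => rfl)

/-- `j' = j(q²)` as an element of `φ(F_N)`. -/
noncomputable def gew_leg_j : gr_F2 F := ⟨lg_j2 L, gr_j2_mem_F2 F⟩

theorem gew_leg_algebraMap_j :
    algebraMap (gr_F2 F) (gr_E F) (gew_leg_j F) = grf_j2E F := rfl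

/-- `E = φ(F_N)(λ)`. -/
theorem gew_leg_hgen : IntermediateField.adjoin (gr_F2 F) {(gr_lamE F : gr_E F)} = ⊤ := by
  rw [eq_top_iff]
  rintro z -
  set M : IntermediateField (gr_F2 F) (gr_E F) :=
    IntermediateField.adjoin (gr_F2 F) {(gr_lamE F : gr_E F)} with hM
  let M' : IntermediateField L (LaurentSeries L) := (M.restrictScalars L).map (gr_E F).val
  have h1 : gr_F2 F ≤ M' := by
    intro x hx
    refine ⟨⟨x, gr_F2_le_E F hx⟩, ?_, rfl⟩
    show (⟨x, gr_F2_le_E F hx⟩ : gr_E F) ∈ M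
    exact M.algebraMap_mem ⟨x, hx⟩
  have h2 : lg_K L ≤ M' := by
    rw [lg_K, IntermediateField.adjoin_le_iff]
    rintro _ rfl
    refine ⟨gr_lamE F, ?_, rfl⟩
    show (gr_lamE F : gr_E F) ∈ M
    exact IntermediateField.mem_adjoin_simple_self _ _
  have h3 : gr_E F ≤ M' := sup_le h1 h2
  obtain ⟨w, hw, hwz⟩ := h3 z.2
  have : w = z := Subtype.ext hwz
  rw [← this]
  exact hw

variable [CharZero L]

theorem gew_leg_lam_ne_zero : (gr_lamE F : gr_E F) ≠ 0 := fun h =>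
  grf_lam_transcendental F two_ne_zero (h ▸ isAlgebraic_zero)

theorem gew_leg_lam_ne_one : (gr_lamE F : gr_E F) ≠ 1 := fun h =>
  grf_lam_transcendental F two_ne_zero (h ▸ isAlgebraic_one)

theorem gew_leg_hrel :
    256 * ((gr_lamE F : gr_E F) ^ 2 - gr_lamE F + 1) ^ 3
      = algebraMap (gr_F2 F) (gr_E F) (gew_leg_j F) * (gr_lamE F : gr_E F) ^ 2
        * ((gr_lamE F : gr_E F) - 1) ^ 2 :=
  grf_legendreE F

/-- **`E / φ(F_N)` is Galois.** -/
theorem gew_leg_isGalois : IsGalois (gr_F2 F) (gr_E F) :=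
  kd_leg_isGalois (gr_lamE F) (gew_leg_j F) (gew_leg_hgen F) (gew_leg_hrel F)
    (gew_leg_lam_ne_zero F) (gew_leg_lam_ne_one F)

/-- `j'` is transcendental over `L`. -/
theorem gew_leg_j2_transcendental : Transcendental L (lg_j2 L) := by
  refine lgf_transcendental_of_coeff (n := -2) (by norm_num) ?_
  have h := qExpand_coeff_mul (R := L) (N := 2) (jqModC L) (-1)
  have h2 : ((2 : ℕ) : ℤ) * (-1) = -2 := by norm_num
  rw [h2] at h
  rw [lg_j2, h, coeff_jqModC_neg_one]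
  exact one_ne_zero

theorem gew_leg_j_transcendental : Transcendental L (gew_leg_j F) := fun h =>
  gew_leg_j2_transcendental (IntermediateField.isAlgebraic_iff.1 h)

theorem gew_leg_j2E_transcendental : Transcendental L (grf_j2E F) := fun h =>
  gew_leg_j2_transcendental (IntermediateField.isAlgebraic_iff.1 h)

theorem gew_leg_mem_adjoin_j :
    ∀ z : gr_F2 F, (z : LaurentSeries L) ∈ IntermediateField.adjoin L {lg_j2 L} →
      z ∈ L⟮(gew_leg_j F : gr_F2 F)⟯ := by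
  intro z hz
  have h1 : (L⟮(gew_leg_j F : gr_F2 F)⟯).map (gr_F2 F).val =
      IntermediateField.adjoin L {lg_j2 L} := by
    rw [IntermediateField.adjoin_map, Set.image_singleton]
    rfl
  rw [← h1] at hz
  obtain ⟨w, hw, hwz⟩ := hz
  have : w = z := Subtype.ext hwz
  rwa [← this]

/-- `φ(F)` is finite over `L(j')`. -/
theorem gew_leg_finite_F2 (hA : gr_A1 F) : FiniteDimensional L⟮gew_leg_j F⟯ (gr_F2 F) := by
  obtain ⟨S, hS, hF, hint⟩ := hA
  refine lgf_finite_of_gens (gr_F2 F) _ (hS.image _) (grf_F2_eq_adjoin hF) (gew_leg_j F) ?_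
  rintro y ⟨s, hs, hy⟩
  have hle : IntermediateField.adjoin L {lg_j2 L} ≤ gr_F2 F := by
    rw [IntermediateField.adjoin_simple_le_iff]
    exact gr_j2_mem_F2 F
  have h1 : IsIntegral (IntermediateField.adjoin L {lg_j2 L})
      ((y : gr_F2 F) : LaurentSeries L) := by
    rw [← hy]
    exact grf_tower_isIntegral_gen (IntermediateField.adjoin L {lg_j2 L})
      (mem_adjoin_simple_self L _) (hint s hs)
  exact grf_isAlgebraic_of_val (gr_F2 F) (IntermediateField.adjoin L {lg_j2 L}) hle (gew_leg_j F)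
    (fun a ha => gew_leg_mem_adjoin_j F ⟨a, hle ha⟩ ha) y h1

theorem gew_leg_finite_F2_inv (hA : gr_A1 F) :
    FiniteDimensional L⟮(gew_leg_j F)⁻¹⟯ (gr_F2 F) :=
  haveI := gew_leg_finite_F2 F hA
  Fermat.Agent.S24.hw_finiteDimensional_adjoin (gew_leg_j F)
    (fun h => gew_leg_j_transcendental F (IsAlgebraic.inv_iff.1 h))

theorem gew_leg_finite_E (hA : gr_A1 F) : FiniteDimensional L⟮grf_j2E F⟯ (gr_E F) :=
  haveI := grf_finite hA
  Fermat.Agent.S24.hw_finiteDimensional_adjoin (gr_lamE F) (gew_leg_j2E_transcendental F)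

theorem gew_leg_finite_E_inv (hA : gr_A1 F) : FiniteDimensional L⟮(grf_j2E F)⁻¹⟯ (gr_E F) :=
  haveI := grf_finite hA
  Fermat.Agent.S24.hw_finiteDimensional_adjoin (gr_lamE F)
    (fun h => gew_leg_j2E_transcendental F (IsAlgebraic.inv_iff.1 h))

end Instances

section Gauss

variable {L : Type*} [Field L] [CharZero L] (O : ValuationSubring L) [IsDiscreteValuationRing O]
  (F : IntermediateField L (LaurentSeries L)) [gr_HasJ F] (hq : F ≤ gq_quotField O L)
  {π : O} (hπ : Irreducible π)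

/-- the `q`-Gauss valuation ring of `E = φ(F_N)(λ)`. -/
noncomputable def gew_leg_V : ValuationSubring (gr_E F) :=
  gq_valSubOf π hπ.ne_zero hπ.maximalIdeal_eq (gr_E F) (gr_E_le_quotField O F hq)

theorem gew_leg_lam_coe :
    ((gr_lamE F : gr_E F) : LaurentSeries L) = coeffMap (algebraMap O L) (hm_lam O) :=
  (hm_coeffMap_lam _).symm

theorem gew_leg_lam_isBdd :
    gq_IsBdd O L ((gr_lamE F : gr_E F) : LaurentSeries L) := by
  rw [gew_leg_lam_coe O F]
  exact gq_isBdd_iota _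

theorem gew_leg_lam_mem_V : (gr_lamE F : gr_E F) ∈ gew_leg_V O F hq hπ :=
  gew_leg_lam_isBdd O F

include hπ in
/-- a polynomial in `λ` with coefficients in `O`, one of them a unit, is a unit of the Gauss
ring. -/
theorem gew_leg_eval₂_not_nonunits (h2 : IsUnit (2 : O)) (d : Polynomial O) (i : ℕ)
    (hi : IsUnit (d.coeff i)) :
    Polynomial.eval₂ ((algebraMap L (gr_E F)).comp (algebraMap O L)) (gr_lamE F) d
      ∉ (gew_leg_V O F hq hπ).nonunits := by
  intro h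
  have h16 : (16 : IsLocalRing.ResidueField O) ≠ 0 := by
    have h2k : (2 : IsLocalRing.ResidueField O) ≠ 0 := by
      have := (IsLocalRing.residue O).isUnit_map h2
      rw [map_ofNat] at this
      exact this.ne_zero
    have : (16 : IsLocalRing.ResidueField O) = 2 ^ 4 := by norm_num
    rw [this]
    exact pow_ne_zero _ h2k
  have hxtr : ∀ q : Polynomial (IsLocalRing.ResidueField O),
      Polynomial.aeval (coeffMap (IsLocalRing.residue O) (hm_lam O)) q = 0 → q = 0 := by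
    have htr : Transcendental (IsLocalRing.ResidueField O)
        (hm_lam (IsLocalRing.ResidueField O)) :=
      lgf_transcendental_of_coeff (n := 1) one_ne_zero (by rw [hm_lam_coeff_one]; exact h16)
    rw [hm_coeffMap_lam]
    exact (transcendental_iff.1 htr)
  have hres : gq_res O L ⟨((gr_lamE F : gr_E F) : LaurentSeries L),
      gew_leg_lam_isBdd O F⟩ = coeffMap (IsLocalRing.residue O) (hm_lam O) :=
    gq_res_of_eq_iota _ (hm_lam O) (gew_leg_lam_coe O F)
  obtain ⟨d', hd'⟩ := gq_center_eval₂ π hπ.ne_zero hπ.maximalIdeal_eq (gr_E F)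
    (gr_E_le_quotField O F hq) (gr_lamE F) (gew_leg_lam_isBdd O F) (by rw [hres]; exact hxtr) d h
  rw [hd', Polynomial.coeff_C_mul] at hi
  exact hπ.not_isUnit (isUnit_of_mul_isUnit_left hi)

include hπ in
theorem gew_leg_hu1 (h2 : IsUnit (2 : O)) :
    1 - 2 * (gr_lamE F : gr_E F) ∉ (gew_leg_V O F hq hπ).nonunits := by
  have h := gew_leg_eval₂_not_nonunits O F hq hπ h2 (1 - 2 * Polynomial.X) 0
    (by simp)
  simpa [Polynomial.eval₂_sub, Polynomial.eval₂_mul, Polynomial.eval₂_ofNat] using h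

include hπ in
theorem gew_leg_hu2 (h2 : IsUnit (2 : O)) :
    1 - (gr_lamE F : gr_E F) ^ 2 ∉ (gew_leg_V O F hq hπ).nonunits := by
  have h := gew_leg_eval₂_not_nonunits O F hq hπ h2 (1 - Polynomial.X ^ 2) 0
    (by simp)
  simpa [Polynomial.eval₂_sub, Polynomial.eval₂_pow] using h

include hπ in
theorem gew_leg_hu3 (h2 : IsUnit (2 : O)) :
    (gr_lamE F : gr_E F) ^ 2 - gr_lamE F + 1 ∉ (gew_leg_V O F hq hπ).nonunits := by
  have h := gew_leg_eval₂_not_nonunits O F hq hπ h2 (Polynomial.X ^ 2 - Polynomial.X + 1) 0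
    (by simp)
  simpa [Polynomial.eval₂_sub, Polynomial.eval₂_add, Polynomial.eval₂_pow] using h

include hπ in
theorem gew_leg_hu4 (h2 : IsUnit (2 : O)) :
    2 * (gr_lamE F : gr_E F) - (gr_lamE F : gr_E F) ^ 2 ∉ (gew_leg_V O F hq hπ).nonunits := by
  have h := gew_leg_eval₂_not_nonunits O F hq hπ h2 (2 * Polynomial.X - Polynomial.X ^ 2) 2
    (by simp [Polynomial.coeff_X])
  simpa [Polynomial.eval₂_sub, Polynomial.eval₂_mul, Polynomial.eval₂_pow,
    Polynomial.eval₂_ofNat] using h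

theorem gew_leg_j2_coe :
    ((grf_j2E F : gr_E F) : LaurentSeries L)
      = coeffMap (algebraMap O L) (qExpand O 2 (jqModC O)) := by
  rw [coeffMap_qExpand, coeffMap_jqModC]
  rfl

theorem gew_leg_j2_isBdd : gq_IsBdd O L ((grf_j2E F : gr_E F) : LaurentSeries L) := by
  rw [gew_leg_j2_coe O F]
  exact gq_isBdd_iota _

theorem gew_leg_j2_inv_isBdd :
    gq_IsBdd O L (((grf_j2E F)⁻¹ : gr_E F) : LaurentSeries L) := by
  rw [IntermediateField.coe_inv]
  refine gq_isBdd_inv_of_res_ne_zero ⟨_, gew_leg_j2_isBdd O F⟩ ?_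
  rw [gq_res_of_eq_iota _ _ (gew_leg_j2_coe O F), coeffMap_qExpand, coeffMap_jqModC]
  intro h0
  have h := qExpand_coeff_mul (R := IsLocalRing.ResidueField O) (N := 2)
    (jqModC (IsLocalRing.ResidueField O)) (-1)
  rw [h0, coeff_jqModC_neg_one, HahnSeries.coeff_zero] at h
  exact zero_ne_one h

theorem gew_leg_chart1_le :
    ∀ b ∈ fc_chart O ({grf_j2E F} : Set (gr_E F)), b ∈ gew_leg_V O F hq hπ :=
  gq_fc_chart_singleton_le π hπ.ne_zero hπ.maximalIdeal_eq (gr_E F) (gr_E_le_quotField O F hq)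
    (grf_j2E F) (gew_leg_j2_isBdd O F)

theorem gew_leg_chart2_le :
    ∀ b ∈ fc_chart O ({(grf_j2E F)⁻¹} : Set (gr_E F)), b ∈ gew_leg_V O F hq hπ :=
  gq_fc_chart_singleton_le π hπ.ne_zero hπ.maximalIdeal_eq (gr_E F) (gr_E_le_quotField O F hq)
    (grf_j2E F)⁻¹ (gew_leg_j2_inv_isBdd O F)

theorem gew_leg_pi_mem_nonunits :
    algebraMap O (gr_E F) π ∈ (gew_leg_V O F hq hπ).nonunits := by
  rw [IsScalarTower.algebraMap_apply O L (gr_E F)]
  exact gq_const_mem_nonunits π hπ.ne_zero hπ.maximalIdeal_eq (gr_E F) (gr_E_le_quotField O F hq)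

theorem gew_leg_legendre_cv :
    cv_legN (gr_lamE F : gr_E F) = grf_j2E F * cv_legD (gr_lamE F : gr_E F) := by
  unfold cv_legN cv_legD
  rw [grf_legendreE, mul_assoc]

theorem gew_leg_D_ne_zero : (gr_lamE F : gr_E F) ^ 2 - gr_lamE F + 1 ≠ 0 := by
  intro h
  have h0 : Polynomial.aeval (gr_lamE F : gr_E F)
      (Polynomial.X ^ 2 - Polynomial.X + 1 : Polynomial L) = 0 := by
    rw [Polynomial.aeval_def, Polynomial.eval₂_add, Polynomial.eval₂_sub, Polynomial.eval₂_pow,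
      Polynomial.eval₂_X, Polynomial.eval₂_one]
    exact h
  have h1 := transcendental_iff.1 (grf_lam_transcendental F two_ne_zero) _ h0
  have h2 := congrArg (fun p : Polynomial L => p.coeff 0) h1
  simp at h2

theorem gew_leg_j2E_ne_zero : grf_j2E F ≠ 0 := fun h =>
  gew_leg_j2E_transcendental F (h ▸ isAlgebraic_zero)

/-- `λ ∈ T₁`. -/
theorem gew_leg_lam_mem_chart1 (h2 : IsUnit (2 : O)) :
    (gr_lamE F : gr_E F) ∈ fc_chart O ({grf_j2E F} : Set (gr_E F)) := by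
  rw [fc_mem_chart]
  exact cv_leg_isIntegral h2 (gew_leg_legendre_cv F)

theorem gew_leg_inv_rel :
    (grf_j2E F)⁻¹ * cv_legN (gr_lamE F : gr_E F) = cv_legD (gr_lamE F : gr_E F) := by
  rw [gew_leg_legendre_cv, inv_mul_cancel_left₀ (gew_leg_j2E_ne_zero F)]

/-- `a = 1/(λ² - λ + 1) ∈ T₂`. -/
theorem gew_leg_a_mem_chart2 :
    1 / ((gr_lamE F : gr_E F) ^ 2 - gr_lamE F + 1)
      ∈ fc_chart O ({(grf_j2E F)⁻¹} : Set (gr_E F)) := by
  rw [fc_mem_chart]
  exact cv_leg_isIntegral_u (one_div_mul_cancel (gew_leg_D_ne_zero F)) (gew_leg_inv_rel F)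

/-- `e = λ/(λ² - λ + 1) ∈ T₂`. -/
theorem gew_leg_e_mem_chart2 :
    (gr_lamE F : gr_E F) / ((gr_lamE F : gr_E F) ^ 2 - gr_lamE F + 1)
      ∈ fc_chart O ({(grf_j2E F)⁻¹} : Set (gr_E F)) := by
  rw [fc_mem_chart, div_eq_mul_one_div]
  exact cv_leg_isIntegral_v (one_div_mul_cancel (gew_leg_D_ne_zero F)) (gew_leg_inv_rel F)

end Gauss

section Faith

variable {L : Type*} [Field L] [CharZero L] (O : ValuationSubring L) [IsDiscreteValuationRing O]
  (F : IntermediateField L (LaurentSeries L)) [gr_HasJ F] (hq : F ≤ gq_quotField O L)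
  (hA : gr_A1 F) {π : O} (hπ : Irreducible π)

attribute [local instance] grh_algF2E

theorem gew_leg_aut_eq_one (σ : gr_E F ≃ₐ[gr_F2 F] gr_E F)
    (h : σ (gr_lamE F) = gr_lamE F) : σ = 1 := by
  have hrel := gew_leg_hrel F
  have hgen := gew_leg_hgen F
  have h0 := gew_leg_lam_ne_zero F
  have h1 := gew_leg_lam_ne_one F
  have h' : σ (gr_lamE F) = (1 : gr_E F ≃ₐ[gr_F2 F] gr_E F) (gr_lamE F) := by
    rw [AlgEquiv.one_apply]
    exact h
  exact kd_leg_aut_ext (gr_lamE F) (gew_leg_j F) hgen hrel h0 h1 h'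

/-- a non-trivial automorphism of `E / φ(F_N)` moves `λ` to one of its five other anharmonic
values. -/
theorem gew_leg_aut_cases (σ : gr_E F ≃ₐ[gr_F2 F] gr_E F) (hσ : σ ≠ 1) :
    σ (gr_lamE F) = 1 - gr_lamE F ∨ σ (gr_lamE F) = 1 / gr_lamE F ∨
      σ (gr_lamE F) = 1 / (1 - gr_lamE F) ∨ σ (gr_lamE F) = (gr_lamE F - 1) / gr_lamE F ∨
      σ (gr_lamE F) = gr_lamE F / (gr_lamE F - 1) := by
  have hrel := gew_leg_hrel F
  have hgen := gew_leg_hgen F
  have h0 := gew_leg_lam_ne_zero F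
  have h1 := gew_leg_lam_ne_one F
  have hcases := kd_leg_aut_cases (gr_lamE F) (gew_leg_j F) hgen hrel h0 h1 σ
  exact hcases.resolve_left fun h => hσ (gew_leg_aut_eq_one F σ h)

include hq hπ in
/-- **The Galois group acts faithfully on `T₁ / π`.** -/
theorem gew_leg_hfaith1 (h2 : IsUnit (2 : O)) (σ : gr_E F ≃ₐ[gr_F2 F] gr_E F)
    (hσ : σ ≠ 1) :
    ∃ b ∈ fc_chart O ({grf_j2E F} : Set (gr_E F)),
      ¬ ∃ c ∈ fc_chart O ({grf_j2E F} : Set (gr_E F)),
        σ b - b = algebraMap O (gr_E F) π * c := by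
  refine ⟨gr_lamE F, gew_leg_lam_mem_chart1 O F h2, ?_⟩
  rintro ⟨c, hc, hσc⟩
  refine rcq_leg_faith1 (gew_leg_V O F hq hπ) (gr_lamE F) (gew_leg_lam_mem_V O F hq hπ)
    (gew_leg_lam_ne_zero F) (gew_leg_lam_ne_one F) (gew_leg_hu1 O F hq hπ h2) (gew_leg_hu2 O F hq hπ h2)
    (gew_leg_hu3 O F hq hπ h2) (gew_leg_hu4 O F hq hπ h2) (σ (gr_lamE F))
    (gew_leg_aut_cases F σ hσ) ?_
  rw [hσc]
  exact gq_nonunits_mul _ (gew_leg_pi_mem_nonunits O F hq hπ) (gew_leg_chart1_le O F hq hπ c hc)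

include hq hπ in
/-- **The Galois group acts faithfully on `T₂ / π`.** -/
theorem gew_leg_hfaith2 (h2 : IsUnit (2 : O)) (σ : gr_E F ≃ₐ[gr_F2 F] gr_E F)
    (hσ : σ ≠ 1) :
    ∃ b ∈ fc_chart O ({(grf_j2E F)⁻¹} : Set (gr_E F)),
      ¬ ∃ c ∈ fc_chart O ({(grf_j2E F)⁻¹} : Set (gr_E F)),
        σ b - b = algebraMap O (gr_E F) π * c := by
  have hmul : ∀ c ∈ fc_chart O ({(grf_j2E F)⁻¹} : Set (gr_E F)),
      algebraMap O (gr_E F) π * c ∈ (gew_leg_V O F hq hπ).nonunits := fun c hc =>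
    gq_nonunits_mul _ (gew_leg_pi_mem_nonunits O F hq hπ) (gew_leg_chart2_le O F hq hπ c hc)
  rcases rcq_leg_faith2 (gew_leg_V O F hq hπ) (gr_lamE F) (gew_leg_lam_mem_V O F hq hπ)
    (gew_leg_lam_ne_zero F) (gew_leg_lam_ne_one F) (gew_leg_D_ne_zero F)
    (gew_leg_hu1 O F hq hπ h2) (gew_leg_hu2 O F hq hπ h2) (gew_leg_hu4 O F hq hπ h2)
    (σ : gr_E F →+* gr_E F) (gew_leg_aut_cases F σ hσ) with h | h
  · refine ⟨_, gew_leg_a_mem_chart2 O F, ?_⟩
    rintro ⟨c, hc, hσc⟩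
    apply h
    have : (σ : gr_E F →+* gr_E F) (1 / ((gr_lamE F : gr_E F) ^ 2 - gr_lamE F + 1))
        = σ (1 / ((gr_lamE F : gr_E F) ^ 2 - gr_lamE F + 1)) := rfl
    rw [this, hσc]
    exact hmul c hc
  · refine ⟨_, gew_leg_e_mem_chart2 O F, ?_⟩
    rintro ⟨c, hc, hσc⟩
    apply h
    have : (σ : gr_E F →+* gr_E F)
        ((gr_lamE F : gr_E F) / ((gr_lamE F : gr_E F) ^ 2 - gr_lamE F + 1))
        = σ ((gr_lamE F : gr_E F) / ((gr_lamE F : gr_E F) ^ 2 - gr_lamE F + 1)) := rfl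
    rw [this, hσc]
    exact hmul c hc

include hA hπ in
/-- transport of `rcq_dedekind_descent` along an equality `algebraMap F2 E y = yE`. -/
theorem gew_leg_descent_aux [IsAlgClosed (IsLocalRing.ResidueField O)]
    (y : gr_F2 F) (yE : gr_E F) (hyE : algebraMap (gr_F2 F) (gr_E F) y = yE)
    (hy : Transcendental L y) [FiniteDimensional L⟮y⟯ (gr_F2 F)]
    [FiniteDimensional L⟮yE⟯ (gr_E F)]
    (hD : IsDedekindDomain (fc_chart O ({yE} : Set (gr_E F)) ⧸
      Ideal.span {algebraMap O (fc_chart O ({yE} : Set (gr_E F))) π}))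
    (hfaith : ∀ σ : gr_E F ≃ₐ[gr_F2 F] gr_E F, σ ≠ 1 →
      ∃ b ∈ fc_chart O ({yE} : Set (gr_E F)),
        ¬ ∃ c ∈ fc_chart O ({yE} : Set (gr_E F)), σ b - b = algebraMap O (gr_E F) π * c) :
    IsDedekindDomain (fc_chart O ({y} : Set (gr_F2 F)) ⧸
      Ideal.span {algebraMap O (fc_chart O ({y} : Set (gr_F2 F))) π}) := by
  subst hyE
  haveI := gew_leg_isGalois F
  haveI := grf_tower_finite_F2_E hA
  exact rcq_dedekind_descent hπ y hy hD hfaith

include hq hA hπ in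
/-- **[E-GAL], Legendre, chart `j'`.**  If `T₁ / π` is a Dedekind domain (`T₁` the normalisation
of `O[j']` in `E = φ(F_N)(λ)`), then so is `A₁ / π` (`A₁` the normalisation of `O[j']` in
`φ(F_N)`). -/
theorem gew_leg_dedekind1 [IsAlgClosed (IsLocalRing.ResidueField O)] (h2 : IsUnit (2 : O))
    (hD : IsDedekindDomain (fc_chart O ({grf_j2E F} : Set (gr_E F)) ⧸
      Ideal.span {algebraMap O (fc_chart O ({grf_j2E F} : Set (gr_E F))) π})) :
    IsDedekindDomain (fc_chart O ({gew_leg_j F} : Set (gr_F2 F)) ⧸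
      Ideal.span {algebraMap O (fc_chart O ({gew_leg_j F} : Set (gr_F2 F))) π}) := by
  haveI := gew_leg_finite_F2 F hA
  haveI := gew_leg_finite_E F hA
  exact gew_leg_descent_aux O F hA hπ (gew_leg_j F) (grf_j2E F) rfl (gew_leg_j_transcendental F) hD
    (gew_leg_hfaith1 O F hq hπ h2)

include hq hA hπ in
/-- **[E-GAL], Legendre, chart `1/j'`.** -/
theorem gew_leg_dedekind2 [IsAlgClosed (IsLocalRing.ResidueField O)] (h2 : IsUnit (2 : O))
    (hD : IsDedekindDomain (fc_chart O ({(grf_j2E F)⁻¹} : Set (gr_E F)) ⧸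
      Ideal.span {algebraMap O (fc_chart O ({(grf_j2E F)⁻¹} : Set (gr_E F))) π})) :
    IsDedekindDomain (fc_chart O ({(gew_leg_j F)⁻¹} : Set (gr_F2 F)) ⧸
      Ideal.span
        {algebraMap O (fc_chart O ({(gew_leg_j F)⁻¹} : Set (gr_F2 F))) π}) := by
  haveI := gew_leg_finite_F2_inv F hA
  haveI := gew_leg_finite_E_inv F hA
  have hyE : algebraMap (gr_F2 F) (gr_E F) (gew_leg_j F)⁻¹ = (grf_j2E F)⁻¹ := by
    rw [map_inv₀]
    rfl
  exact gew_leg_descent_aux O F hA hπ (gew_leg_j F)⁻¹ (grf_j2E F)⁻¹ hyE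
    (fun h => gew_leg_j_transcendental F (IsAlgebraic.inv_iff.1 h)) hD
    (gew_leg_hfaith2 O F hq hπ h2)

end Faith
end Fermat.Agent.DS
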