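/-
DS-T, cell [GE-WIRE] (node-E twin, geometric input), file 2: THE LEGENDRE CHAIN for a VARIABLE
subfield `F ⊆ L((q))` containing `j`.

Generic twin of `rpw_leg_dedekind` (`JT3/PlaceMap/Wire.lean`): for a DVR level `(L, O)` with
algebraically closed residue field and `2 ∈ Oˣ`, the regularity along `π = 0` of the two `λ`-charts
of the Legendre cover `gr_E F = φ(F)(λ)` (a HYPOTHESIS here; it is the output `hreg` of the cell
[GR]: `gr_ram_regAt_lam(_inv)(_intr)`, `gr_regAt_of_VR`) gives: both `j`-charts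
`fc_chart O {j^{±1}}` of `F` are Dedekind domains modulo `π`.
Chain: `rcg_prime_T` ⟹ `rrd_dedekind_of_regAt` ⟹ `gew_leg_dedekind1/2` (Galois descent to `φ(F)`)
⟹ `rct_dedekind` (transport along `φ : F ≃ φ(F)`).
Prefix `gew_`.
-/
import Mathlib
import Fermat.Agent.DS.GE.WireLeg
import Fermat.Agent.DS.GR.RamInst
import Fermat.Agent.DS.GR.Finite
import Fermat.Agent.JT3.PlaceMap.CoverGluePrime
import Fermat.Agent.JT3.PlaceMap.RegDedekind
import Fermat.Agent.JT3.PlaceMap.CoverTransport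

set_option autoImplicit false
set_option linter.unusedSectionVars false
set_option linter.style.haveILetI false

noncomputable section

open Polynomial IntermediateField ModularCurve

namespace Fermat.Agent.DS

open Fermat.Agent.JT3 Fermat.Agent.S24

section Transport

variable {L : Type*} [Field L] (O : ValuationSubring L)
  (F : IntermediateField L (LaurentSeries L)) [gr_HasJ F]

/-- shortcut instance. -/
instance gew_algOF : Algebra ↥O ↥F := Algebra.ofSubsemiring O

instance gew_tower_O_L_F : IsScalarTower ↥O L ↥F :=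
  IsScalarTower.of_algebraMap_eq (fun _ => rfl)

/-- `φ = (q ↦ q²)` as an `O`-algebra isomorphism `F ≃ gr_F2 F`. -/
def gew_phiO : ↥F ≃ₐ[O] ↥(gr_F2 F) :=
  (gr_ram_phiEquiv F).restrictScalars O

theorem gew_phiO_jF : gew_phiO O F (gr_ram_jF F) = gew_leg_j F := Subtype.ext rfl

theorem gew_phiO_jF_inv : gew_phiO O F (gr_ram_jF F)⁻¹ = (gew_leg_j F)⁻¹ := by
  rw [map_inv₀, gew_phiO_jF]

/-- **Legendre transport, chart `j ≠ ∞`.** -/
theorem gew_leg_dedekind_j (π : O)
    (h : IsDedekindDomain (fc_chart O ({gew_leg_j F} : Set ↥(gr_F2 F)) ⧸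
      Ideal.span {algebraMap O (fc_chart O ({gew_leg_j F} : Set ↥(gr_F2 F))) π})) :
    IsDedekindDomain (fc_chart O ({gr_ram_jF F} : Set ↥F) ⧸
      Ideal.span {algebraMap O (fc_chart O ({gr_ram_jF F} : Set ↥F)) π}) := by
  apply rct_dedekind (gew_phiO O F) (gr_ram_jF F) π
  rw [gew_phiO_jF]
  exact h

/-- **Legendre transport, chart `j ≠ 0`.** -/
theorem gew_leg_dedekind_jinv (π : O)
    (h : IsDedekindDomain (fc_chart O ({(gew_leg_j F)⁻¹} : Set ↥(gr_F2 F)) ⧸
      Ideal.span {algebraMap O (fc_chart O ({(gew_leg_j F)⁻¹} : Set ↥(gr_F2 F))) π})) :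
    IsDedekindDomain (fc_chart O ({(gr_ram_jF F)⁻¹} : Set ↥F) ⧸
      Ideal.span {algebraMap O (fc_chart O ({(gr_ram_jF F)⁻¹} : Set ↥F)) π}) := by
  apply rct_dedekind (gew_phiO O F) (gr_ram_jF F)⁻¹ π
  rw [gew_phiO_jF_inv]
  exact h

end Transport

section Leg

variable {L : Type*} [Field L] [CharZero L] (O : ValuationSubring L) [IsDiscreteValuationRing O]
  (F : IntermediateField L (LaurentSeries L)) [gr_HasJ F]

/-- **Legendre chain, generic level field** (`2 ∈ Oˣ`): both `j`-charts of `F` over `O` are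
Dedekind modulo `π`, from the regularity of the two `λ`-charts of the Legendre cover `gr_E F`. -/
theorem gew_leg_dedekind [IsAlgClosed (IsLocalRing.ResidueField O)]
    (hq : F ≤ gq_quotField O L) (hA : gr_A1 F)
    {π : O} (hπ : Irreducible π) (h2 : IsUnit (2 : O))
    (hR1 : jt_RegAt (fc_chart O ({gr_lamE F} : Set (gr_E F)))
      (algebraMap O (fc_chart O ({gr_lamE F} : Set (gr_E F))) π))
    (hR2 : jt_RegAt (fc_chart O ({(gr_lamE F)⁻¹} : Set (gr_E F)))
      (algebraMap O (fc_chart O ({(gr_lamE F)⁻¹} : Set (gr_E F))) π)) :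
    IsDedekindDomain (fc_chart O ({gr_ram_jF F} : Set ↥F) ⧸
        Ideal.span {algebraMap O (fc_chart O ({gr_ram_jF F} : Set ↥F)) π}) ∧
      IsDedekindDomain (fc_chart O ({(gr_ram_jF F)⁻¹} : Set ↥F) ⧸
        Ideal.span {algebraMap O (fc_chart O ({(gr_ram_jF F)⁻¹} : Set ↥F)) π}) := by
  haveI := grf_finite hA
  have hconst : ∀ z : gr_E F, IsAlgebraic L z → z ∈ (algebraMap L (gr_E F)).range :=
    fun z hz => lgf_hconst (gr_E F) z hz
  obtain ⟨-, hT1, hT2⟩ := rcg_prime_T (A0 := O) (K0 := L) hπ h2 (gr_rel_lamE F)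
    (grf_lam_transcendental F two_ne_zero) hconst hR1 hR2
  have hj : Transcendental L (grf_j2E F) :=
    rcg_transcendental_j two_ne_zero (gr_rel_lamE F) (grf_lam_transcendental F two_ne_zero)
  haveI : FiniteDimensional L⟮grf_j2E F⟯ (gr_E F) :=
    rcg_finiteDimensional_j two_ne_zero (gr_rel_lamE F)
  obtain ⟨hD1, hD2⟩ := rrd_dedekind_of_regAt (A0 := O) (K0 := L) hπ hj hconst hT1 hT2
  have hF1 := gew_leg_dedekind1 O F hq hA hπ h2 hD1
  have hF2 := gew_leg_dedekind2 O F hq hA hπ h2 hD2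
  exact ⟨gew_leg_dedekind_j O F π hF1, gew_leg_dedekind_jinv O F π hF2⟩

end Leg

end Fermat.Agent.DS
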