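/-
DS-T, cell [GE-WIRE] (node-E twin, geometric input), file 3: THE HESSE CHAIN for a VARIABLE
subfield `F ⊆ L((q))` containing `j`.

Generic twin of `JT3/PlaceMap/WireHesInst.lean` (`rpw_hesi_`; port rule `hs_F3 L N ↦ grs_F3 F`,
`hs_E L h3 N ↦ grs_E h3 F`, `hs_muE h3 N ↦ grs_muE h3 F`, `(N) [NeZero N] ↦ (F) [gr_HasJ F]`; the
level enters only through (A1) `hA : gr_A1 F`).

`L` a field of characteristic zero, `O ⊆ L` a discrete valuation ring with `3 ∈ O^×`, a primitive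
cube root of unity in `O` and algebraically closed residue field.  `F3 := grs_F3 F = φ₃(F)`,
`E := grs_E h3 F = φ₃(F)(μ)`, `j₃ = j(q³)`.

* `gew_hes_dedekind1/2`: `rcq_hes_dedekind` at `(F3, E, μ, j₃)`;
* **`gew_hes_dedekind`**: regularity of the two `μ`-charts of `E` along `π = 0` (a HYPOTHESIS: the
  output of the cell [GR], `gr_ram_regAt_mu(_inv)(_intr)`, `grs_regAt_of_VR`)
  ⟹ the two `j`-charts of `F` are Dedekind modulo `π`
  (`rrd_dedekind_of_regAt` ⟹ `rch_T1/T2` ⟹ `rcq_hes_dedekind` ⟹ `rct_dedekind`).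
Prefix `gew_hes_`.
-/
import Mathlib
import Fermat.Agent.DS.GE.Wire
import Fermat.Agent.DS.GR.HesseKey0
import Fermat.Agent.DS.GR.HesseReg
import Fermat.Agent.JT3.PlaceMap.CoverGaloisHes
import Fermat.Agent.JT3.PlaceMap.CoverLocHesse

set_option autoImplicit false
set_option linter.unusedSectionVars false
set_option linter.style.haveILetI false

noncomputable section

open ModularCurve IntermediateField AlgebraicCurve IsLocalRing

namespace Fermat.Agent.DS

open Fermat.Agent.JT3 Fermat.Agent.S24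

section Instances

variable {L : Type*} [Field L] (h3 : (3 : L) ≠ 0) (O : ValuationSubring L)
  (F : IntermediateField L (LaurentSeries L)) [gr_HasJ F]

/-- shortcut instance. -/
instance gew_hes_algOF3 : Algebra ↥O ↥(grs_F3 F) := Algebra.ofSubsemiring O

instance gew_hes_tower_O_L_F3 : IsScalarTower ↥O L ↥(grs_F3 F) :=
  IsScalarTower.of_algebraMap_eq (fun _ => rfl)

attribute [local instance] grsh_algF3E

instance gew_hes_tower_L_F3_E : IsScalarTower L (grs_F3 F) (grs_E h3 F) :=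
  lgh_isScalarTower_base (grs_F3_le_E h3 F)

instance gew_hes_tower_O_F3_E : IsScalarTower ↥O (grs_F3 F) (grs_E h3 F) :=
  IsScalarTower.of_algebraMap_eq (fun _ => rfl)

/-- `j₃ = j(q³)` as an element of `E`. -/
def gew_hes_j3E : grs_E h3 F := ⟨hs_j3 L, grs_j3_mem_E h3 F⟩

theorem gew_hes_algebraMap_j :
    algebraMap (grs_F3 F) (grs_E h3 F) (gr_ram_jF3 F) = gew_hes_j3E h3 F := rfl

/-- `E = φ₃(F)(μ)`. -/
theorem gew_hes_hgen :
    IntermediateField.adjoin (grs_F3 F) {(grs_muE h3 F : grs_E h3 F)} = ⊤ := by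
  rw [eq_top_iff]
  rintro z -
  set M : IntermediateField (grs_F3 F) (grs_E h3 F) :=
    IntermediateField.adjoin (grs_F3 F) {(grs_muE h3 F : grs_E h3 F)} with hM
  let M' : IntermediateField L (LaurentSeries L) := (M.restrictScalars L).map (grs_E h3 F).val
  have h1 : grs_F3 F ≤ M' := by
    intro x hx
    refine ⟨⟨x, grs_F3_le_E h3 F hx⟩, ?_, rfl⟩
    show (⟨x, grs_F3_le_E h3 F hx⟩ : grs_E h3 F) ∈ M
    exact M.algebraMap_mem ⟨x, hx⟩
  have h2 : hs_K L h3 ≤ M' := by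
    rw [hs_K, IntermediateField.adjoin_le_iff]
    rintro _ rfl
    refine ⟨grs_muE h3 F, ?_, rfl⟩
    show (grs_muE h3 F : grs_E h3 F) ∈ M
    exact IntermediateField.mem_adjoin_simple_self _ _
  have h3' : grs_E h3 F ≤ M' := sup_le h1 h2
  obtain ⟨w, hw, hwz⟩ := h3' z.2
  have : w = z := Subtype.ext hwz
  rw [← this]
  exact hw

theorem gew_hes_hesseE [CharZero L] :
    27 * (grs_muE h3 F : grs_E h3 F) ^ 3 * ((grs_muE h3 F : grs_E h3 F) ^ 3 + 8) ^ 3
      = gew_hes_j3E h3 F * ((grs_muE h3 F : grs_E h3 F) ^ 3 - 1) ^ 3 :=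
  Subtype.ext (hs_hesse' L h3)

/-- the Hesse relation in `E` over `φ₃(F)`. -/
theorem gew_hes_hhes [CharZero L] :
    cv_hesN (grs_muE h3 F : grs_E h3 F)
      = algebraMap (grs_F3 F) (grs_E h3 F) (gr_ram_jF3 F) * cv_hesD (grs_muE h3 F) := by
  unfold cv_hesN cv_hesD
  exact gew_hes_hesseE h3 F

variable [CharZero L]

/-- `j₃ = j(q³)` is transcendental over `L`. -/
theorem gew_hes_j3_transcendental : Transcendental L (hs_j3 L) := by
  refine lgf_transcendental_of_coeff (n := -3) (by norm_num) ?_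
  have h := qExpand_coeff_mul (R := L) (N := 3) (jqModC L) (-1)
  have h2 : ((3 : ℕ) : ℤ) * (-1) = -3 := by norm_num
  rw [h2] at h
  rw [hs_j3, h, coeff_jqModC_neg_one]
  exact one_ne_zero

theorem gew_hes_j_transcendental : Transcendental L (gr_ram_jF3 F) := fun h =>
  gew_hes_j3_transcendental (IntermediateField.isAlgebraic_iff.1 h)

theorem gew_hes_mem_adjoin_j :
    ∀ z : grs_F3 F, (z : LaurentSeries L) ∈ IntermediateField.adjoin L {hs_j3 L} →
      z ∈ L⟮(gr_ram_jF3 F : grs_F3 F)⟯ := by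
  intro z hz
  have h1 : (L⟮(gr_ram_jF3 F : grs_F3 F)⟯).map (grs_F3 F).val =
      IntermediateField.adjoin L {hs_j3 L} := by
    rw [IntermediateField.adjoin_map, Set.image_singleton]
    rfl
  rw [← h1] at hz
  obtain ⟨w, hw, hwz⟩ := hz
  have : w = z := Subtype.ext hwz
  rwa [← this]

/-- `φ₃(F)` is finite over `L(j₃)`. -/
theorem gew_hes_finite_F3 (hA : gr_A1 F) :
    FiniteDimensional L⟮gr_ram_jF3 F⟯ (grs_F3 F) := by
  obtain ⟨S, hS, hF, hint⟩ := hA
  refine lgf_finite_of_gens (grs_F3 F) _ (hS.image _) (grsf_F3_eq_adjoin hF) (gr_ram_jF3 F) ?_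
  rintro y ⟨s, hs, hy⟩
  have hle : IntermediateField.adjoin L {hs_j3 L} ≤ grs_F3 F := by
    rw [IntermediateField.adjoin_simple_le_iff]
    exact grs_j3_mem_F3 F
  have h1 : IsIntegral (IntermediateField.adjoin L {hs_j3 L})
      ((y : grs_F3 F) : LaurentSeries L) := by
    rw [← hy]
    exact grsf_tower_isIntegral_gen (IntermediateField.adjoin L {hs_j3 L})
      (mem_adjoin_simple_self L _) (hint s hs)
  exact grf_isAlgebraic_of_val (grs_F3 F) (IntermediateField.adjoin L {hs_j3 L}) hle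
    (gr_ram_jF3 F) (fun a ha => gew_hes_mem_adjoin_j F ⟨a, hle ha⟩ ha) y h1

theorem gew_hes_finite_F3_inv (hA : gr_A1 F) :
    FiniteDimensional L⟮(gr_ram_jF3 F)⁻¹⟯ (grs_F3 F) :=
  haveI := gew_hes_finite_F3 F hA
  Fermat.Agent.S24.hw_finiteDimensional_adjoin (gr_ram_jF3 F)
    (fun h => gew_hes_j_transcendental F (IsAlgebraic.inv_iff.1 h))

end Instances

section Transport

variable {L : Type*} [Field L] (O : ValuationSubring L)
  (F : IntermediateField L (LaurentSeries L)) [gr_HasJ F]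

/-- `φ₃ = (q ↦ q³)` as an `O`-algebra isomorphism `F ≃ grs_F3 F`. -/
def gew_phi3O : ↥F ≃ₐ[O] ↥(grs_F3 F) :=
  (gr_ram_phiEquiv3 F).restrictScalars O

theorem gew_phi3O_jF : gew_phi3O O F (gr_ram_jF F) = gr_ram_jF3 F := Subtype.ext rfl

theorem gew_phi3O_jF_inv : gew_phi3O O F (gr_ram_jF F)⁻¹ = (gr_ram_jF3 F)⁻¹ := by
  rw [map_inv₀, gew_phi3O_jF]

/-- **Hesse transport, chart `j ≠ ∞`.** -/
theorem gew_hes_dedekind_j (π : O)
    (h : IsDedekindDomain (fc_chart O ({gr_ram_jF3 F} : Set ↥(grs_F3 F)) ⧸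
      Ideal.span {algebraMap O (fc_chart O ({gr_ram_jF3 F} : Set ↥(grs_F3 F))) π})) :
    IsDedekindDomain (fc_chart O ({gr_ram_jF F} : Set ↥F) ⧸
      Ideal.span {algebraMap O (fc_chart O ({gr_ram_jF F} : Set ↥F)) π}) := by
  apply rct_dedekind (gew_phi3O O F) (gr_ram_jF F) π
  rw [gew_phi3O_jF]
  exact h

/-- **Hesse transport, chart `j ≠ 0`.** -/
theorem gew_hes_dedekind_jinv (π : O)
    (h : IsDedekindDomain (fc_chart O ({(gr_ram_jF3 F)⁻¹} : Set ↥(grs_F3 F)) ⧸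
      Ideal.span {algebraMap O (fc_chart O ({(gr_ram_jF3 F)⁻¹} : Set ↥(grs_F3 F))) π})) :
    IsDedekindDomain (fc_chart O ({(gr_ram_jF F)⁻¹} : Set ↥F) ⧸
      Ideal.span {algebraMap O (fc_chart O ({(gr_ram_jF F)⁻¹} : Set ↥F)) π}) := by
  apply rct_dedekind (gew_phi3O O F) (gr_ram_jF F)⁻¹ π
  rw [gew_phi3O_jF_inv]
  exact h

end Transport

section Dedekind

variable {L : Type*} [Field L] [CharZero L] (h3 : (3 : L) ≠ 0) (O : ValuationSubring L)
  [IsDiscreteValuationRing O] (F : IntermediateField L (LaurentSeries L)) [gr_HasJ F]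
  (hA : gr_A1 F) {π : O} (hπ : Irreducible π)

attribute [local instance] grsh_algF3E

include hA hπ in
/-- **[E-GAL] (B) at the Hesse cover of `F`, chart `j₃ ≠ ∞`.** -/
theorem gew_hes_dedekind1 [IsAlgClosed (ResidueField O)] (h3O : IsUnit (3 : O)) (w : O)
    (hw : IsPrimitiveRoot w 3)
    (hD : IsDedekindDomain (fc_chart O ({gew_hes_j3E h3 F} : Set (grs_E h3 F)) ⧸
      Ideal.span {algebraMap O (fc_chart O ({gew_hes_j3E h3 F} : Set (grs_E h3 F))) π})) :
    IsDedekindDomain (fc_chart O ({gr_ram_jF3 F} : Set (grs_F3 F)) ⧸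
      Ideal.span {algebraMap O (fc_chart O ({gr_ram_jF3 F} : Set (grs_F3 F))) π}) := by
  haveI := gew_hes_finite_F3 F hA
  exact rcq_hes_dedekind hπ (grs_muE h3 F) (gr_ram_jF3 F) (gew_hes_hhes h3 F)
    (gew_hes_hgen h3 F) (grsf_mu_transcendental h3 F) w hw h3O (gr_ram_jF3 F) (Or.inl rfl) hD

include hA hπ in
/-- **[E-GAL] (B) at the Hesse cover of `F`, chart `j₃ ≠ 0`.** -/
theorem gew_hes_dedekind2 [IsAlgClosed (ResidueField O)] (h3O : IsUnit (3 : O)) (w : O)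
    (hw : IsPrimitiveRoot w 3)
    (hD : IsDedekindDomain (fc_chart O ({(gew_hes_j3E h3 F)⁻¹} : Set (grs_E h3 F)) ⧸
      Ideal.span {algebraMap O (fc_chart O ({(gew_hes_j3E h3 F)⁻¹} : Set (grs_E h3 F))) π})) :
    IsDedekindDomain (fc_chart O ({(gr_ram_jF3 F)⁻¹} : Set (grs_F3 F)) ⧸
      Ideal.span {algebraMap O (fc_chart O ({(gr_ram_jF3 F)⁻¹} : Set (grs_F3 F))) π}) := by
  haveI := gew_hes_finite_F3_inv F hA
  have hmap : algebraMap (grs_F3 F) (grs_E h3 F) (gr_ram_jF3 F)⁻¹ = (gew_hes_j3E h3 F)⁻¹ := by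
    rw [map_inv₀, gew_hes_algebraMap_j]
  refine rcq_hes_dedekind hπ (grs_muE h3 F) (gr_ram_jF3 F) (gew_hes_hhes h3 F)
    (gew_hes_hgen h3 F) (grsf_mu_transcendental h3 F) w hw h3O (gr_ram_jF3 F)⁻¹ (Or.inr rfl) ?_
  rw [hmap]
  exact hD

include hA hπ in
/-- **The Hesse chain, generic level field** (`3 ∈ Oˣ`): regularity of the two `μ`-charts of
`E = φ₃(F)(μ)` along `π = 0` ⟹ the two `j`-charts of `F` are Dedekind domains modulo `π`. -/
theorem gew_hes_dedekind [IsAlgClosed (ResidueField O)] (h3O : IsUnit (3 : O)) (w : O)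
    (hw : IsPrimitiveRoot w 3)
    (hr3 : jt_RegAt (fc_chart O ({grs_muE h3 F} : Set (grs_E h3 F)))
      (algebraMap O (fc_chart O ({grs_muE h3 F} : Set (grs_E h3 F))) π))
    (hr4 : jt_RegAt (fc_chart O ({(grs_muE h3 F)⁻¹} : Set (grs_E h3 F)))
      (algebraMap O (fc_chart O ({(grs_muE h3 F)⁻¹} : Set (grs_E h3 F))) π)) :
    IsDedekindDomain (fc_chart O ({gr_ram_jF F} : Set ↥F) ⧸
        Ideal.span {algebraMap O (fc_chart O ({gr_ram_jF F} : Set ↥F)) π}) ∧
      IsDedekindDomain (fc_chart O ({(gr_ram_jF F)⁻¹} : Set ↥F) ⧸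
        Ideal.span {algebraMap O (fc_chart O ({(gr_ram_jF F)⁻¹} : Set ↥F)) π}) := by
  have hx : Transcendental L (grs_muE h3 F : grs_E h3 F) := grsf_mu_transcendental h3 F
  haveI := grsf_finite h3 hA
  have hconst : ∀ z : grs_E h3 F, IsAlgebraic L z → z ∈ (algebraMap L (grs_E h3 F)).range :=
    fun z hz => lgf_hconst (grs_E h3 F) z hz
  obtain ⟨hd1, hd2⟩ := rrd_dedekind_of_regAt (K0 := L) hπ hx hconst hr3 hr4
  have hπp : Prime π := hπ.prime
  have htrO : Transcendental O (grs_muE h3 F : grs_E h3 F) :=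
    fc_ff_transcendental (L := L) hx
  have hhes : cv_hesN (grs_muE h3 F : grs_E h3 F)
      = gew_hes_j3E h3 F * cv_hesD (grs_muE h3 F) := gew_hes_hhes h3 F
  have hT1 := @rch_T1 _ _ _ _ _ (grs_muE h3 F) (gew_hes_j3E h3 F) hhes h3O π hπp htrO hd1
  have hT2 := @rch_T2 _ _ _ _ _ (grs_muE h3 F) (gew_hes_j3E h3 F) hhes h3O π hπp htrO hd2
  exact ⟨gew_hes_dedekind_j O F π (gew_hes_dedekind1 h3 O F hA hπ h3O w hw hT1),
    gew_hes_dedekind_jinv O F π (gew_hes_dedekind2 h3 O F hA hπ h3O w hw hT2)⟩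

end Dedekind

end Fermat.Agent.DS
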