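/-
DS-T, cell [GE-WIRE] (node-E twin, geometric input), file 4: THE BASE-LEVEL PACKAGES `rpn_Level0`
of the two `j`-charts of a VARIABLE subfield `F ⊆ L((q))` containing `j`.

Generic twin of `JT3/PlaceMap/WireLevel0.lean`.

* `gew_level0_j`, `gew_level0_jinv` : at a DVR level `(L, O)` of characteristic zero, from the
  Dedekind property of the chart modulo `π` (`rpn_level0_of_dedekind` with `hE := hq`,
  `y := jqModC O` resp. `rpm_jinv O`, transcendence of `j̃` over the residue field, finiteness
  from (A1)).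
* **`gew_level0_leg`** (`2 ∈ Oˣ`) : both packages from the regularity of the two `λ`-charts of the
  Legendre cover `gr_E F`;
* **`gew_level0_hes`** (`3 ∈ Oˣ`, `ω ∈ O`) : both packages from the regularity of the two
  `μ`-charts of the Hesse cover `grs_E h3 F`.
These are EXACTLY the hypotheses `H1`, `H2` of `ge_nodeE` / `ge_nodeE_family` (`DS/GE/NodeE.lean`).
Prefix `gew_`.
-/
import Mathlib
import Fermat.Agent.DS.GE.Wire
import Fermat.Agent.DS.GE.WireHes
import Fermat.Agent.JT3.PlaceMap.Level0
import Fermat.Agent.JT3.PlaceMap.Modular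
import Fermat.Agent.JT3.Export.S28Sep
import Fermat.Agent.JT3.Bridge.GaussVal

set_option autoImplicit false
set_option linter.unusedSectionVars false
set_option linter.style.haveILetI false

noncomputable section

open Polynomial IntermediateField ModularCurve IsLocalRing

namespace Fermat.Agent.DS

open Fermat.Agent.JT3 Fermat.Agent.S24

section L0

variable {L : Type*} [Field L] [CharZero L] (O : ValuationSubring L) [IsDiscreteValuationRing O]
  (F : IntermediateField L (LaurentSeries L)) [gr_HasJ F]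
  (hq : F ≤ gq_quotField O L) (hA : gr_A1 F) {π : O} (hπ : Irreducible π)

theorem gew_level_finite_inv (hA : gr_A1 F) :
    FiniteDimensional L⟮(gr_ram_jF F)⁻¹⟯ ↥F :=
  haveI : FiniteDimensional L⟮(gr_ram_jF F : ↥F)⟯ ↥F := grf_level_finite F hA
  Fermat.Agent.S24.hw_finiteDimensional_adjoin (gr_ram_jF F)
    (fun h => grf_level_j_transcendental F (IsAlgebraic.inv_iff.1 h))

include hq hA hπ in
/-- **the base-level package of the chart `j ≠ ∞`** from its Dedekind property modulo `π`. -/
theorem gew_level0_j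
    (hded : IsDedekindDomain (fc_chart O ({gr_ram_jF F} : Set ↥F) ⧸
      Ideal.span {algebraMap O (fc_chart O ({gr_ram_jF F} : Set ↥F)) π})) :
    rpn_Level0 F π (gr_ram_jF F) := by
  haveI : FiniteDimensional L⟮(gr_ram_jF F : ↥F)⟯ ↥F := grf_level_finite F hA
  refine rpn_level0_of_dedekind (O := ↥O) (K := L) F hπ hq
    (y := jqModC ↥O) ?_ ?_ (grf_level_j_transcendental F) hded
  · rw [coeffMap_jqModC]; rfl
  · intro p hp
    rw [coeffMap_jqModC] at hp
    exact (transcendental_iff.mp (vx_transcendental_jq (k := ResidueField ↥O))) p hp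

include hq hA hπ in
/-- **the base-level package of the chart `j ≠ 0`** from its Dedekind property modulo `π`. -/
theorem gew_level0_jinv
    (hded : IsDedekindDomain (fc_chart O ({(gr_ram_jF F)⁻¹} : Set ↥F) ⧸
      Ideal.span {algebraMap O (fc_chart O ({(gr_ram_jF F)⁻¹} : Set ↥F)) π})) :
    rpn_Level0 F π (gr_ram_jF F)⁻¹ := by
  haveI := gew_level_finite_inv F hA
  refine rpn_level0_of_dedekind (O := ↥O) (K := L) F hπ hq
    (y := rpm_jinv ↥O) ?_ ?_
    (fun h => grf_level_j_transcendental F (IsAlgebraic.inv_iff.1 h)) hded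
  · rw [rpm_coeffMap_jinv]; rfl
  · intro p hp
    rw [rpm_coeffMap_jinv] at hp
    have htr : Transcendental (ResidueField ↥O) (jqModC (ResidueField ↥O))⁻¹ := fun h =>
      vx_transcendental_jq (IsAlgebraic.inv_iff.mp h)
    exact (transcendental_iff.mp htr) p hp

include hq hA hπ in
/-- **[GE-WIRE], Legendre (`2 ∈ Oˣ`).**  The two base-level packages of `F` at the DVR level
`(L, O)` (algebraically closed residue field) from the regularity along `π = 0` of the two
`λ`-charts of the Legendre cover `gr_E F`. -/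
theorem gew_level0_leg [IsAlgClosed (ResidueField O)] (h2 : IsUnit (2 : O))
    (hR1 : jt_RegAt (fc_chart O ({gr_lamE F} : Set (gr_E F)))
      (algebraMap O (fc_chart O ({gr_lamE F} : Set (gr_E F))) π))
    (hR2 : jt_RegAt (fc_chart O ({(gr_lamE F)⁻¹} : Set (gr_E F)))
      (algebraMap O (fc_chart O ({(gr_lamE F)⁻¹} : Set (gr_E F))) π)) :
    rpn_Level0 F π (gr_ram_jF F) ∧ rpn_Level0 F π (gr_ram_jF F)⁻¹ := by
  obtain ⟨h1, h2'⟩ := gew_leg_dedekind O F hq hA hπ h2 hR1 hR2
  exact ⟨gew_level0_j O F hq hA hπ h1, gew_level0_jinv O F hq hA hπ h2'⟩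

include hq hA hπ in
/-- **[GE-WIRE], Hesse (`3 ∈ Oˣ`, a primitive cube root of unity in `O`).**  The two base-level
packages of `F` at the DVR level `(L, O)` (algebraically closed residue field) from the regularity
along `π = 0` of the two `μ`-charts of the Hesse cover `grs_E h3 F`. -/
theorem gew_level0_hes [IsAlgClosed (ResidueField O)] (h3 : (3 : L) ≠ 0) (h3O : IsUnit (3 : O))
    (w : O) (hw : IsPrimitiveRoot w 3)
    (hr3 : jt_RegAt (fc_chart O ({grs_muE h3 F} : Set (grs_E h3 F)))
      (algebraMap O (fc_chart O ({grs_muE h3 F} : Set (grs_E h3 F))) π))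
    (hr4 : jt_RegAt (fc_chart O ({(grs_muE h3 F)⁻¹} : Set (grs_E h3 F)))
      (algebraMap O (fc_chart O ({(grs_muE h3 F)⁻¹} : Set (grs_E h3 F))) π)) :
    rpn_Level0 F π (gr_ram_jF F) ∧ rpn_Level0 F π (gr_ram_jF F)⁻¹ := by
  obtain ⟨h1, h2⟩ := gew_hes_dedekind h3 O F hA hπ h3O w hw hr3 hr4
  exact ⟨gew_level0_j O F hq hA hπ h1, gew_level0_jinv O F hq hA hπ h2⟩

end L0

end Fermat.Agent.DS
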