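/-
DS-T, cell [GE-WIRE] (node-E twin, geometric input), file 5: THE BASE LEVEL
`(K₀, O₀) = (ebf_K0 ℓ, A ∩ K₀)`, uniformiser `ℓ`, for the family `gr_F G`, FROM (V) + (R).

`K₀ = ℚ(μ_m : ℓ ∤ m)` is NOT a number field (the Galois descent of the wire needs an algebraically
closed residue field), so the number-field statements `gr_regAt_of_VR` / `grs_regAt_of_VR` of
`DS/GR/S18Ram.lean` do not apply verbatim; everything below them is generic in the level, and this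
file instantiates it at `K₀`:

* `gew_ramData_descend` : (R) over `Q̄` descends to EVERY field `L1 → Q̄` (no `NumberField`);
* `gew_base_regAt_leg` (`ℓ ≠ 2`), `gew_base_regAt_hes` (`ℓ ≠ 3`) : the regularity of the `λ`- resp.
  `μ`-charts at the base level, from the intrinsic vertical hypothesis (V) AT THE BASE LEVEL and
  (R) over `Q̄` with `ℓ ∤ M`;
* **`gew_base_level0`** : the two packages `rpn_Level0 (gr_F G K₀) ℓ j^{±1}` (Legendre for `ℓ` odd,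
  Hesse for `ℓ = 2`) — the twin of `rpw_base_level0`;
* **`gew_nodeE_base`** : `dsr_ReductionInputs A (residue A) (gr_F G Q̄) (gr_F G k_A)` from
  (A1) + (V) at the base level + (R) over `Q̄` + the seams `hFb`, `hFt`, `hred` of `ge_nodeE_family`.
Prefix `gew_`.
-/
import Mathlib
import Fermat.Agent.DS.GE.WireLevel0
import Fermat.Agent.DS.GE.NodeE
import Fermat.Agent.DS.GR.S18Ram
import Fermat.Agent.JT3.PlaceMap.BaseField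
import Fermat.Agent.JT3.PlaceMap.BaseResidue

set_option autoImplicit false
set_option linter.unusedSectionVars false
set_option linter.style.haveILetI false

noncomputable section

open Polynomial IntermediateField ModularCurve IsLocalRing AlgebraicCurve

namespace Fermat.Agent.DS

open Fermat.Agent.JT3 Fermat.Agent.S24

local notation "Qb" => AlgebraicClosure ℚ

attribute [local instance] lgh_algKjK grh_algKjF2 grh_algKjE grh_algF2E grh_algKE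
  hsh_algKjK grsh_algKjF3 grsh_algKjE grsh_algF3E grsh_algKE

section Descend

variable (G : Set (LaurentSeries ℤ))

/-- (R) over `Q̄` descends to every field `L1 → Q̄` (not necessarily a number field). -/
theorem gew_ramData_descend (hG : gr_A1Q G) (hjG : jqModC ℤ ∈ G) {M : ℕ}
    (D : rml_RamData Qb (gr_jG G hjG Qb) M)
    (L1 : Type) [Field L1] [Algebra ℚ L1] [Algebra L1 Qb] [IsScalarTower ℚ L1 Qb] :
    rml_RamData L1 (gr_jG G hjG L1) M := by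
  haveI h1 := gr_cr_hasJ G hjG L1
  haveI h2 := gr_cr_hasJ G hjG Qb
  haveI : Algebra.IsAlgebraic ℚ Qb := AlgebraicClosure.isAlgebraic ℚ
  haveI : Algebra.IsAlgebraic L1 Qb := Algebra.IsAlgebraic.tower_top (K := ℚ) L1
  haveI hfd : FiniteDimensional Qb⟮(gr_jF (gr_F G Qb) : gr_F G Qb)⟯ (gr_F G Qb) :=
    grf_level_finite _ (gr_A1_family G hG Qb)
  haveI : Algebra.IsAlgebraic Qb⟮(gr_ram_jF (gr_F G Qb) : gr_F G Qb)⟯ (gr_F G Qb) :=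
    @Algebra.IsAlgebraic.of_finite _ _ _ _ _ _ hfd
  exact gr_ram_ramData_of_bc (L' := Qb) (gr_F G L1)
    (gr_F_eq_laurentBaseChange G L1) (gr_F G Qb)
    (gr_F_eq_laurentBaseChange G Qb) D

end Descend

section Base

variable (G : Set (LaurentSeries ℤ)) {ℓ : ℕ} [Fact ℓ.Prime]
  (A : ValuationSubring Qb) (hA : A.LiesOverPrime ℓ)

set_option synthInstance.maxHeartbeats 400000 in
set_option maxHeartbeats 1000000 in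
include hA in
/-- **the regularity of the two `λ`-charts at the base level from (V) + (R)** (`ℓ` odd). -/
theorem gew_base_regAt_leg (hG : gr_A1Q G) (hjG : jqModC ℤ ∈ G) (M : ℕ) [NeZero M]
    (hℓM : ¬ ℓ ∣ M) (D : rml_RamData Qb (gr_jG G hjG Qb) M)
    [IsDiscreteValuationRing ↥(A.comap (algebraMap ↥(ebf_K0 ℓ) Qb))]
    (hV : gr_VertHyp (A.comap (algebraMap ↥(ebf_K0 ℓ) Qb)) (gr_F G ↥(ebf_K0 ℓ))
      ((ℓ : ℕ) : ↥(A.comap (algebraMap ↥(ebf_K0 ℓ) Qb))) (lgh_lamK ↥(ebf_K0 ℓ))) :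
    jt_RegAt (fc_chart ↥(A.comap (algebraMap ↥(ebf_K0 ℓ) Qb))
        ({gr_lamE (gr_F G ↥(ebf_K0 ℓ))} : Set (gr_E (gr_F G ↥(ebf_K0 ℓ)))))
      (algebraMap ↥(A.comap (algebraMap ↥(ebf_K0 ℓ) Qb))
        (fc_chart ↥(A.comap (algebraMap ↥(ebf_K0 ℓ) Qb))
          ({gr_lamE (gr_F G ↥(ebf_K0 ℓ))} : Set (gr_E (gr_F G ↥(ebf_K0 ℓ)))))
        ((ℓ : ℕ) : ↥(A.comap (algebraMap ↥(ebf_K0 ℓ) Qb)))) ∧
    jt_RegAt (fc_chart ↥(A.comap (algebraMap ↥(ebf_K0 ℓ) Qb))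
        ({(gr_lamE (gr_F G ↥(ebf_K0 ℓ)))⁻¹} : Set (gr_E (gr_F G ↥(ebf_K0 ℓ)))))
      (algebraMap ↥(A.comap (algebraMap ↥(ebf_K0 ℓ) Qb))
        (fc_chart ↥(A.comap (algebraMap ↥(ebf_K0 ℓ) Qb))
          ({(gr_lamE (gr_F G ↥(ebf_K0 ℓ)))⁻¹} : Set (gr_E (gr_F G ↥(ebf_K0 ℓ)))))
        ((ℓ : ℕ) : ↥(A.comap (algebraMap ↥(ebf_K0 ℓ) Qb)))) := by
  haveI h1 := gr_cr_hasJ G hjG ↥(ebf_K0 ℓ)
  have hℓp : ℓ.Prime := Fact.out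
  have hπ := ebf_irreducible A ℓ hA
  have hℓmem := ebr_natCast_mem_maximalIdeal A ℓ hA
  have hM : IsUnit ((M : ℕ) : ↥(A.comap (algebraMap ↥(ebf_K0 ℓ) Qb))) :=
    lg_isUnit_natCast hℓmem ((Nat.Coprime.symm ((Nat.Prime.coprime_iff_not_dvd hℓp).2 hℓM)))
  have hA1 : gr_A1 (gr_F G ↥(ebf_K0 ℓ)) := gr_A1_family G hG ↥(ebf_K0 ℓ)
  have D1 : rml_RamData ↥(ebf_K0 ℓ) (gr_ram_jF (gr_F G ↥(ebf_K0 ℓ))) M :=
    gew_ramData_descend G hG hjG D ↥(ebf_K0 ℓ)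
  obtain ⟨ζ, hζ⟩ := ebr_exists_primitiveRoot ℓ M hℓM
  haveI : FiniteDimensional (lgh_Kj ↥(ebf_K0 ℓ)) (gr_E (gr_F G ↥(ebf_K0 ℓ))) :=
    grf_tower_finite_Kj_E hA1
  exact ⟨gr_ram_regAt_lam_intr _ (gr_F G ↥(ebf_K0 ℓ)) hπ M hM ζ hζ hV D1,
    gr_ram_regAt_lam_inv_intr _ (gr_F G ↥(ebf_K0 ℓ)) hπ M hM ζ hζ hV D1⟩

set_option synthInstance.maxHeartbeats 400000 in
set_option maxHeartbeats 1000000 in
include hA in
/-- **the regularity of the two `μ`-charts at the base level from (V) + (R)** (`ℓ ≠ 3`). -/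
theorem gew_base_regAt_hes (hG : gr_A1Q G) (hjG : jqModC ℤ ∈ G) (hℓ3 : ℓ ≠ 3) (M : ℕ) [NeZero M]
    (hℓM : ¬ ℓ ∣ M) (D : rml_RamData Qb (gr_jG G hjG Qb) M)
    [IsDiscreteValuationRing ↥(A.comap (algebraMap ↥(ebf_K0 ℓ) Qb))]
    (h3 : (3 : ↥(ebf_K0 ℓ)) ≠ 0)
    (hV : grs_VertHyp h3 (A.comap (algebraMap ↥(ebf_K0 ℓ) Qb)) (gr_F G ↥(ebf_K0 ℓ))
      ((ℓ : ℕ) : ↥(A.comap (algebraMap ↥(ebf_K0 ℓ) Qb))) (hsh_muK ↥(ebf_K0 ℓ) h3)) :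
    ∃ w : ↥(A.comap (algebraMap ↥(ebf_K0 ℓ) Qb)), IsPrimitiveRoot w 3 ∧
    jt_RegAt (fc_chart ↥(A.comap (algebraMap ↥(ebf_K0 ℓ) Qb))
        ({grs_muE h3 (gr_F G ↥(ebf_K0 ℓ))} : Set (grs_E h3 (gr_F G ↥(ebf_K0 ℓ)))))
      (algebraMap ↥(A.comap (algebraMap ↥(ebf_K0 ℓ) Qb))
        (fc_chart ↥(A.comap (algebraMap ↥(ebf_K0 ℓ) Qb))
          ({grs_muE h3 (gr_F G ↥(ebf_K0 ℓ))} : Set (grs_E h3 (gr_F G ↥(ebf_K0 ℓ)))))
        ((ℓ : ℕ) : ↥(A.comap (algebraMap ↥(ebf_K0 ℓ) Qb)))) ∧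
    jt_RegAt (fc_chart ↥(A.comap (algebraMap ↥(ebf_K0 ℓ) Qb))
        ({(grs_muE h3 (gr_F G ↥(ebf_K0 ℓ)))⁻¹} : Set (grs_E h3 (gr_F G ↥(ebf_K0 ℓ)))))
      (algebraMap ↥(A.comap (algebraMap ↥(ebf_K0 ℓ) Qb))
        (fc_chart ↥(A.comap (algebraMap ↥(ebf_K0 ℓ) Qb))
          ({(grs_muE h3 (gr_F G ↥(ebf_K0 ℓ)))⁻¹} : Set (grs_E h3 (gr_F G ↥(ebf_K0 ℓ)))))
        ((ℓ : ℕ) : ↥(A.comap (algebraMap ↥(ebf_K0 ℓ) Qb)))) := by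
  haveI h1 := gr_cr_hasJ G hjG ↥(ebf_K0 ℓ)
  have hℓp : ℓ.Prime := Fact.out
  have hπ := ebf_irreducible A ℓ hA
  have hℓmem := ebr_natCast_mem_maximalIdeal A ℓ hA
  have hM : IsUnit ((M : ℕ) : ↥(A.comap (algebraMap ↥(ebf_K0 ℓ) Qb))) :=
    lg_isUnit_natCast hℓmem ((Nat.Coprime.symm ((Nat.Prime.coprime_iff_not_dvd hℓp).2 hℓM)))
  have h3O : IsUnit (3 : ↥(A.comap (algebraMap ↥(ebf_K0 ℓ) Qb))) := by
    have := lg_isUnit_natCast hℓmem (m := 3)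
      ((Nat.coprime_primes Nat.prime_three hℓp).2 (Ne.symm hℓ3))
    simpa using this
  have hA1 : gr_A1 (gr_F G ↥(ebf_K0 ℓ)) := gr_A1_family G hG ↥(ebf_K0 ℓ)
  have D1 : rml_RamData ↥(ebf_K0 ℓ) (gr_ram_jF (gr_F G ↥(ebf_K0 ℓ))) M :=
    gew_ramData_descend G hG hjG D ↥(ebf_K0 ℓ)
  haveI : NeZero (3 * M) := ⟨Nat.mul_ne_zero (by norm_num) (NeZero.ne M)⟩
  have hℓ3M : ¬ ℓ ∣ 3 * M := by
    intro h
    rcases (hℓp.dvd_mul).1 h with h' | h'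
    · exact hℓ3 ((Nat.prime_dvd_prime_iff_eq hℓp Nat.prime_three).1 h')
    · exact hℓM h'
  obtain ⟨ζ, hζ⟩ := ebr_exists_primitiveRoot ℓ (3 * M) hℓ3M
  haveI : FiniteDimensional (hsh_Kj ↥(ebf_K0 ℓ)) (grs_E h3 (gr_F G ↥(ebf_K0 ℓ))) :=
    grsf_tower_finite_E h3 hA1 (hsh_Kj ↥(ebf_K0 ℓ))
      (IntermediateField.mem_adjoin_simple_self ↥(ebf_K0 ℓ) (hs_j3 ↥(ebf_K0 ℓ)))
      (grsh_Kj_le_E h3 (gr_F G ↥(ebf_K0 ℓ)))
  have hN0 : 0 < 3 * M := Nat.pos_of_ne_zero (Nat.mul_ne_zero (by norm_num) (NeZero.ne M))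
  have hζM : IsPrimitiveRoot (ζ ^ 3) M := hζ.pow hN0 rfl
  have hω : IsPrimitiveRoot (ζ ^ M) 3 := hζ.pow hN0 (mul_comm 3 M)
  have hω3 : (ζ ^ M) ^ 3 = 1 := hω.pow_eq_one
  have hωsum : (ζ ^ M) ^ 2 + ζ ^ M + 1 = 0 := by
    have := hω.geom_sum_eq_zero (by norm_num)
    simp only [Finset.sum_range_succ, Finset.sum_range_zero, pow_zero, pow_one, zero_add] at this
    linear_combination this
  let ωO : ↥(A.comap (algebraMap ↥(ebf_K0 ℓ) Qb)) := ⟨ζ ^ M, hs_root_mem _ _ hω3⟩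
  have hωO : ωO ^ 2 + ωO + 1 = 0 := Subtype.ext hωsum
  have hωOprim : IsPrimitiveRoot ωO 3 := IsPrimitiveRoot.coe_submonoidClass_iff.1 hω
  exact ⟨ωO, hωOprim,
    gr_ram_regAt_mu_intr h3 _ (gr_F G ↥(ebf_K0 ℓ)) hπ M hM (ζ ^ 3) hζM h3O ωO hωO hV D1,
    gr_ram_regAt_mu_inv_intr h3 _ (gr_F G ↥(ebf_K0 ℓ)) hπ M hM (ζ ^ 3) hζM h3O ωO hωO hV D1⟩

set_option synthInstance.maxHeartbeats 400000 in
set_option maxHeartbeats 1000000 in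
include hA in
/-- **[GE-WIRE] at the base level: the two base-level packages of node E for the family `gr_F G`**
at `(K₀, O₀) = (ebf_K0 ℓ, A ∩ K₀)` with the uniformiser `ℓ`, from (A1), (R) over `Q̄` (`ℓ ∤ M`) and
the intrinsic vertical hypothesis (V) at the base level (Legendre for `ℓ` odd, Hesse for `ℓ = 2`).
Twin of `rpw_base_level0`. -/
theorem gew_base_level0 (hG : gr_A1Q G) (hjG : jqModC ℤ ∈ G) (M : ℕ) [NeZero M]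
    (hℓM : ¬ ℓ ∣ M) (D : rml_RamData Qb (gr_jG G hjG Qb) M)
    [IsDiscreteValuationRing ↥(A.comap (algebraMap ↥(ebf_K0 ℓ) Qb))]
    (hvL : ℓ ≠ 2 → gr_VertHyp (A.comap (algebraMap ↥(ebf_K0 ℓ) Qb)) (gr_F G ↥(ebf_K0 ℓ))
      ((ℓ : ℕ) : ↥(A.comap (algebraMap ↥(ebf_K0 ℓ) Qb))) (lgh_lamK ↥(ebf_K0 ℓ)))
    (hvH : ℓ = 2 → ∀ h3 : (3 : ↥(ebf_K0 ℓ)) ≠ 0,
      grs_VertHyp h3 (A.comap (algebraMap ↥(ebf_K0 ℓ) Qb)) (gr_F G ↥(ebf_K0 ℓ))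
        ((ℓ : ℕ) : ↥(A.comap (algebraMap ↥(ebf_K0 ℓ) Qb))) (hsh_muK ↥(ebf_K0 ℓ) h3)) :
    rpn_Level0 (gr_F G ↥(ebf_K0 ℓ)) ((ℓ : ℕ) : ↥(A.comap (algebraMap ↥(ebf_K0 ℓ) Qb)))
        (gr_jG G hjG ↥(ebf_K0 ℓ)) ∧
      rpn_Level0 (gr_F G ↥(ebf_K0 ℓ)) ((ℓ : ℕ) : ↥(A.comap (algebraMap ↥(ebf_K0 ℓ) Qb)))
        (gr_jG G hjG ↥(ebf_K0 ℓ))⁻¹ := by
  haveI h1 := gr_cr_hasJ G hjG ↥(ebf_K0 ℓ)
  haveI := ebr_isAlgClosed A ℓ hA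
  have hℓp : ℓ.Prime := Fact.out
  have hπ := ebf_irreducible A ℓ hA
  have hℓmem := ebr_natCast_mem_maximalIdeal A ℓ hA
  have hA1 : gr_A1 (gr_F G ↥(ebf_K0 ℓ)) := gr_A1_family G hG ↥(ebf_K0 ℓ)
  have hq : gr_F G ↥(ebf_K0 ℓ) ≤
      gq_quotField ↥(A.comap (algebraMap ↥(ebf_K0 ℓ) Qb)) ↥(ebf_K0 ℓ) :=
    gr_F_le_quotField (A.comap (algebraMap ↥(ebf_K0 ℓ) Qb)) G
  by_cases h2 : ℓ = 2
  · have hℓ3 : ℓ ≠ 3 := by omega
    have h3 : (3 : ↥(ebf_K0 ℓ)) ≠ 0 := three_ne_zero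
    have h3O : IsUnit (3 : ↥(A.comap (algebraMap ↥(ebf_K0 ℓ) Qb))) := by
      have := lg_isUnit_natCast hℓmem (m := 3)
        ((Nat.coprime_primes Nat.prime_three hℓp).2 (Ne.symm hℓ3))
      simpa using this
    obtain ⟨w, hw, hr3, hr4⟩ := gew_base_regAt_hes G A hA hG hjG hℓ3 M hℓM D h3 (hvH h2 h3)
    exact gew_level0_hes _ (gr_F G ↥(ebf_K0 ℓ)) hq hA1 hπ h3 h3O w hw hr3 hr4
  · have h2O : IsUnit (2 : ↥(A.comap (algebraMap ↥(ebf_K0 ℓ) Qb))) := by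
      have := lg_isUnit_natCast hℓmem (m := 2)
        ((Nat.coprime_primes Nat.prime_two hℓp).2 (Ne.symm h2))
      simpa using this
    obtain ⟨hR1, hR2⟩ := gew_base_regAt_leg G A hA hG hjG M hℓM D (hvL h2)
    exact gew_level0_leg _ (gr_F G ↥(ebf_K0 ℓ)) hq hA1 hπ h2O hR1 hR2

end Base

section NodeE

attribute [local instance] Fermat.Agent.DS.ge_instAlgSubring Fermat.Agent.DS.ge_instAlgFt
  Fermat.Agent.DS.ge_instAlgF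

variable (G : Set (LaurentSeries ℤ)) {ℓ : ℕ} [Fact ℓ.Prime]
  (A : ValuationSubring Qb) (hA : A.LiesOverPrime ℓ)

set_option synthInstance.maxHeartbeats 400000 in
set_option maxHeartbeats 1000000 in
include hA in
/-- **[GE] + [GE-WIRE]: NODE E FOR THE FAMILY `gr_F G` FROM (A1) + (V) + (R)** and the seams
`hFb`, `hFt`, `hred` of `ge_nodeE_family`.  (V) is needed at the ONE base level
`(K₀, O₀) = (ebf_K0 ℓ, A ∩ K₀)`, uniformiser `ℓ`. -/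
theorem gew_nodeE_base (hG : gr_A1Q G) (hjG : jqModC ℤ ∈ G) (M : ℕ) [NeZero M]
    (hℓM : ¬ ℓ ∣ M) (D : rml_RamData Qb (gr_jG G hjG Qb) M)
    (hFb : rp_FunField Qb ↥(gr_F G Qb))
    (hFt : rp_FunField (IsLocalRing.ResidueField A) ↥(gr_F G (IsLocalRing.ResidueField A)))
    (hred : ∀ y : LaurentSeries A, coeffMap A.subtype y ∈ gr_F G Qb →
      coeffMap (IsLocalRing.residue A) y ∈ gr_F G (IsLocalRing.ResidueField A))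
    [IsDiscreteValuationRing ↥(A.comap (algebraMap ↥(ebf_K0 ℓ) Qb))]
    (hvL : ℓ ≠ 2 → gr_VertHyp (A.comap (algebraMap ↥(ebf_K0 ℓ) Qb)) (gr_F G ↥(ebf_K0 ℓ))
      ((ℓ : ℕ) : ↥(A.comap (algebraMap ↥(ebf_K0 ℓ) Qb))) (lgh_lamK ↥(ebf_K0 ℓ)))
    (hvH : ℓ = 2 → ∀ h3 : (3 : ↥(ebf_K0 ℓ)) ≠ 0,
      grs_VertHyp h3 (A.comap (algebraMap ↥(ebf_K0 ℓ) Qb)) (gr_F G ↥(ebf_K0 ℓ))
        ((ℓ : ℕ) : ↥(A.comap (algebraMap ↥(ebf_K0 ℓ) Qb))) (hsh_muK ↥(ebf_K0 ℓ) h3)) :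
    dsr_ReductionInputs A (IsLocalRing.residue A) (gr_F G Qb)
      (gr_F G (IsLocalRing.ResidueField A)) := by
  haveI h1 := gr_cr_hasJ G hjG ↥(ebf_K0 ℓ)
  have hA1 : gr_A1 (gr_F G ↥(ebf_K0 ℓ)) := gr_A1_family G hG ↥(ebf_K0 ℓ)
  obtain ⟨H1, H2⟩ := gew_base_level0 G A hA hG hjG M hℓM D hvL hvH
  refine ge_nodeE_family G ↥(ebf_K0 ℓ) hjG A hFb hFt hred (grf_level_finite _ hA1)
    (ebf_irreducible A ℓ hA) ?_ H1 H2
  intro a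
  obtain ⟨o, ho, hoK, hres⟩ := ebf_residue_repr A ℓ hA a
  refine ⟨⟨o, hoK⟩, ho, ?_⟩
  change (a : Qb) - o ∈ A.nonunits
  rw [ValuationSubring.mem_nonunits_iff_exists_mem_maximalIdeal]
  refine ⟨sub_mem a.2 ho, ?_⟩
  rw [← IsLocalRing.residue_eq_zero_iff]
  have : (⟨(a : Qb) - o, sub_mem a.2 ho⟩ : A) = a - ⟨o, ho⟩ := rfl
  rw [this, map_sub, hres, sub_self]

end NodeE

end Fermat.Agent.DS
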