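/-
DS-T, cell [GE] (node-E twin), file 8: the class form of node E at the base level
`(K₀, O₀) = (ebf_K0 ℓ, A ∩ K₀)` for the family `gr_F G`, from (A1) + (V) + (R):

**`gec_classGenerates_base`** : the divisors of the `q`-integral functions of `gr_F G Q̄` which are
integral over `A[j]` generate the principal divisors (`h𝒞` of `dsh_transferC` for the class
`gec_intClass`), under the hypotheses of `gew_nodeE_base` (`hFt` is not needed).
Prefix `gec_`.
-/
import Mathlib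
import Fermat.Agent.DS.GE.ClassGen
import Fermat.Agent.DS.GE.WireInst

set_option autoImplicit false
set_option linter.unusedSectionVars false
set_option linter.style.haveILetI false

noncomputable section

open Polynomial IntermediateField ModularCurve IsLocalRing AlgebraicCurve

namespace Fermat.Agent.DS

open Fermat.Agent.JT3 Fermat.Agent.S24

local notation "Qb" => AlgebraicClosure ℚ

attribute [local instance] lgh_algKjK grh_algKjF2 grh_algKjE grh_algF2E grh_algKE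
  hsh_algKjK grsh_algKjF3 grsh_algKjE grsh_algF3E grsh_algKE

attribute [local instance] Fermat.Agent.DS.ge_instAlgSubring Fermat.Agent.DS.ge_instAlgFt
  Fermat.Agent.DS.ge_instAlgF

variable (G : Set (LaurentSeries ℤ)) {ℓ : ℕ} [Fact ℓ.Prime]
  (A : ValuationSubring Qb) (hA : A.LiesOverPrime ℓ)

set_option synthInstance.maxHeartbeats 400000 in
set_option maxHeartbeats 1000000 in
include hA in
/-- **the class of the functions integral over `A[j]` generates the principal divisors of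
`gr_F G Q̄`**, from (A1) + (V) at the base level + (R) over `Q̄` + the seams `hFb`, `hred`. -/
theorem gec_classGenerates_base (hG : gr_A1Q G) (hjG : jqModC ℤ ∈ G) (M : ℕ) [NeZero M]
    (hℓM : ¬ ℓ ∣ M) (D : rml_RamData Qb (gr_jG G hjG Qb) M)
    (hFb : rp_FunField Qb ↥(gr_F G Qb))
    (hred : ∀ y : LaurentSeries A, coeffMap A.subtype y ∈ gr_F G Qb →
      coeffMap (IsLocalRing.residue A) y ∈ gr_F G (IsLocalRing.ResidueField A))
    [IsDiscreteValuationRing ↥(A.comap (algebraMap ↥(ebf_K0 ℓ) Qb))]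
    (hvL : ℓ ≠ 2 → gr_VertHyp (A.comap (algebraMap ↥(ebf_K0 ℓ) Qb)) (gr_F G ↥(ebf_K0 ℓ))
      ((ℓ : ℕ) : ↥(A.comap (algebraMap ↥(ebf_K0 ℓ) Qb))) (lgh_lamK ↥(ebf_K0 ℓ)))
    (hvH : ℓ = 2 → ∀ h3 : (3 : ↥(ebf_K0 ℓ)) ≠ 0,
      grs_VertHyp h3 (A.comap (algebraMap ↥(ebf_K0 ℓ) Qb)) (gr_F G ↥(ebf_K0 ℓ))
        ((ℓ : ℕ) : ↥(A.comap (algebraMap ↥(ebf_K0 ℓ) Qb))) (hsh_muK ↥(ebf_K0 ℓ) h3)) :
    dsh_ClassGenerates (gec_intClass A (gr_F G Qb) (gr_F G (IsLocalRing.ResidueField A))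
      (gr_jG G hjG Qb)) := by
  haveI h1 := gr_cr_hasJ G hjG ↥(ebf_K0 ℓ)
  have hA1 : gr_A1 (gr_F G ↥(ebf_K0 ℓ)) := gr_A1_family G hG ↥(ebf_K0 ℓ)
  obtain ⟨H1, -⟩ := gew_base_level0 G A hA hG hjG M hℓM D hvL hvH
  refine gec_classGenerates_family G ↥(ebf_K0 ℓ) hjG A hFb hred (grf_level_finite _ hA1)
    (ebf_irreducible A ℓ hA) ?_ H1
  intro a
  obtain ⟨o, ho, hoK, hres⟩ := ebf_residue_repr A ℓ hA a
  refine ⟨⟨o, hoK⟩, ho, ?_⟩
  change (a : Qb) - o ∈ A.nonunits
  rw [ValuationSubring.mem_nonunits_iff_exists_mem_maximalIdeal]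
  refine ⟨sub_mem a.2 ho, ?_⟩
  rw [← IsLocalRing.residue_eq_zero_iff]
  have : (⟨(a : Qb) - o, sub_mem a.2 ho⟩ : A) = a - ⟨o, ho⟩ := rfl
  rw [this, map_sub, hres, sub_self]

end Fermat.Agent.DS
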