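/-
DS-T, cell [GE]: LINEAR DISJOINTNESS, characteristic-free and for an arbitrary subfield
(generic twin of `JT3/Gateway/DescentLin.lean`, prefix `ger_`).

`K₀ ⊆ K` fields (any characteristic), `E₀ ⊆ K₀((q))` a subfield containing `K₀`,
`E := K(coeffMap (K₀ → K) '' E₀) ⊆ K((q))` its extension of constants.  Then

  `ger_descent` : `x₀ ∈ K₀((q))`, `coeffMap (K₀ → K) x₀ ∈ E`  ⟹  `x₀ ∈ E₀`.

Proof as in `gd_mem_of_coeffMap_mem`: every element of `E` is a quotient `a / b` of `K`-linear
combinations of series coming from `E₀`; a `K₀`-linear functional `λ : K → K₀` applied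
coefficientwise (`gd_funcMap`) is `K₀((q))`-linear and maps such combinations into `E₀`.
-/
import Mathlib
import Fermat.Agent.JT3.Gateway.DescentLin

set_option autoImplicit false
set_option linter.unusedSectionVars false

namespace Fermat.Agent.DS

open ModularCurve HahnSeries Fermat.Agent.JT3

variable {K₀ K : Type*} [Field K₀] [Field K] [Algebra K₀ K]
variable (E₀ : IntermediateField K₀ (LaurentSeries K₀))

/-- the `K`-span of the series coming from `E₀` -/
noncomputable def ger_span : Submodule K (LaurentSeries K) :=
  Submodule.span K (⇑(coeffMap (algebraMap K₀ K)) '' (E₀ : Set (LaurentSeries K₀)))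

variable {E₀}

theorem ger_coeffMap_mem_span {x₀ : LaurentSeries K₀} (h : x₀ ∈ E₀) :
    coeffMap (algebraMap K₀ K) x₀ ∈ ger_span (K := K) E₀ :=
  Submodule.subset_span ⟨x₀, h, rfl⟩

theorem ger_one_mem_span : (1 : LaurentSeries K) ∈ ger_span (K := K) E₀ := by
  have := ger_coeffMap_mem_span (K := K) (one_mem E₀)
  rwa [map_one] at this

theorem ger_span_mul {a b : LaurentSeries K} (ha : a ∈ ger_span (K := K) E₀)
    (hb : b ∈ ger_span (K := K) E₀) : a * b ∈ ger_span (K := K) E₀ := by
  unfold ger_span at ha hb ⊢
  induction ha using Submodule.span_induction with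
  | mem x hx =>
      obtain ⟨x₀, hx₀, rfl⟩ := hx
      induction hb using Submodule.span_induction with
      | mem y hy =>
          obtain ⟨y₀, hy₀, rfl⟩ := hy
          exact Submodule.subset_span ⟨x₀ * y₀, mul_mem hx₀ hy₀, map_mul _ _ _⟩
      | zero => rw [mul_zero]; exact zero_mem _
      | add y z _ _ hy hz => rw [mul_add]; exact add_mem hy hz
      | smul c y _ hy =>
          rw [← HahnSeries.C_mul_eq_smul, mul_left_comm, HahnSeries.C_mul_eq_smul]
          exact Submodule.smul_mem _ _ hy
  | zero => rw [zero_mul]; exact zero_mem _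
  | add x y _ _ hx hy => rw [add_mul]; exact add_mem hx hy
  | smul c x _ hx =>
      rw [← HahnSeries.C_mul_eq_smul, mul_assoc, HahnSeries.C_mul_eq_smul]
      exact Submodule.smul_mem _ _ hx

theorem ger_algebraMap_mem_span (c : K) :
    algebraMap K (LaurentSeries K) c ∈ ger_span (K := K) E₀ := by
  have hc : algebraMap K (LaurentSeries K) c = c • (1 : LaurentSeries K) := by
    rw [algebraMap_laurentSeries_eq_single]
    ext k
    by_cases hk : k = 0
    · subst hk
      simp
    · rw [HahnSeries.coeff_single_of_ne hk, HahnSeries.coeff_smul, HahnSeries.coeff_one,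
        if_neg hk, smul_zero]
  rw [hc]
  exact Submodule.smul_mem _ _ ger_one_mem_span

/-- functionals map the span into `E₀` -/
theorem ger_funcMap_mem {a : LaurentSeries K} (ha : a ∈ ger_span (K := K) E₀) :
    ∀ l : K →ₗ[K₀] K₀, gd_funcMap l a ∈ E₀ := by
  unfold ger_span at ha
  induction ha using Submodule.span_induction with
  | mem x hx =>
      obtain ⟨y, hy, rfl⟩ := hx
      intro l
      have h1 : gd_funcMap l (coeffMap (algebraMap K₀ K) y) =
          algebraMap K₀ (LaurentSeries K₀) (l 1) * y := by
        have h2 := gd_funcMap_mul l y (1 : LaurentSeries K)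
        rw [mul_one] at h2
        rw [h2, mul_comm]
        congr 1
        ext k
        rw [gd_funcMap_coeff, algebraMap_laurentSeries_eq_single]
        by_cases hk : k = 0
        · subst hk
          rw [HahnSeries.coeff_one, if_pos rfl, HahnSeries.coeff_single_same]
        · rw [HahnSeries.coeff_one, if_neg hk, map_zero, HahnSeries.coeff_single_of_ne hk]
      rw [h1]
      exact mul_mem (E₀.algebraMap_mem _) hy
  | zero =>
      intro l
      rw [gd_funcMap_zero]
      exact zero_mem _
  | add x y _ _ hx hy =>
      intro l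
      rw [gd_funcMap_add]
      exact add_mem (hx l) (hy l)
  | smul c x _ hx =>
      intro l
      rw [gd_funcMap_smul]
      exact hx _

/-- the `K`-algebra generated by the series coming from `E₀` lies in the span -/
theorem ger_adjoin_le_span {x : LaurentSeries K}
    (hx : x ∈ Algebra.adjoin K (⇑(coeffMap (algebraMap K₀ K)) '' (E₀ : Set (LaurentSeries K₀)))) :
    x ∈ ger_span (K := K) E₀ := by
  induction hx using Algebra.adjoin_induction with
  | mem y hy =>
    obtain ⟨y₀, hy₀, rfl⟩ := hy
    exact ger_coeffMap_mem_span hy₀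
  | algebraMap c => exact ger_algebraMap_mem_span c
  | add y z _ _ hy hz => exact add_mem hy hz
  | mul y z _ _ hy hz => exact ger_span_mul hy hz

/-- **Linear disjointness**: a Laurent series over `K₀` which lies in the extension of constants
`K · E₀` lies in `E₀`. -/
theorem ger_descent {x₀ : LaurentSeries K₀}
    (h : coeffMap (algebraMap K₀ K) x₀ ∈ IntermediateField.adjoin K
      (⇑(coeffMap (algebraMap K₀ K)) '' (E₀ : Set (LaurentSeries K₀)))) : x₀ ∈ E₀ := by
  obtain ⟨a, ha, b, hb, hab⟩ := IntermediateField.mem_adjoin_iff_div.mp h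
  by_cases hb0 : b = 0
  · -- `coeffMap x₀ = 0`
    rw [hb0, div_zero] at hab
    have hx0 : x₀ = 0 := by
      ext k
      have := congrArg (fun s : LaurentSeries K => s.coeff k) hab
      simp only [coeffMap_coeff, HahnSeries.coeff_zero] at this
      rw [HahnSeries.coeff_zero]
      exact (map_eq_zero (algebraMap K₀ K)).1 this
    rw [hx0]
    exact zero_mem _
  have ha' := ger_adjoin_le_span ha
  have hb' := ger_adjoin_le_span hb
  have hxb : coeffMap (algebraMap K₀ K) x₀ * b = a := by
    rw [hab, div_mul_cancel₀ _ hb0]
  -- a coefficient of `b` which does not vanish, and a functional not killing it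
  have hex : ∃ k : ℤ, b.coeff k ≠ 0 := by
    by_contra hall
    push Not at hall
    exact hb0 (HahnSeries.ext (funext hall))
  obtain ⟨k, hk⟩ := hex
  obtain ⟨l, hl⟩ := Module.Projective.exists_dual_ne_zero K₀ hk
  have h1 : x₀ * gd_funcMap l b = gd_funcMap l a := by
    rw [← gd_funcMap_mul, hxb]
  have hlb : gd_funcMap l b ≠ 0 := by
    intro h0
    apply hl
    have := congrArg (fun s : LaurentSeries K₀ => s.coeff k) h0
    simpa using this
  have h2 : x₀ = gd_funcMap l a / gd_funcMap l b := by
    rw [eq_div_iff hlb, h1]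
  rw [h2]
  exact div_mem (ger_funcMap_mem ha' l) (ger_funcMap_mem hb' l)

end Fermat.Agent.DS
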