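/-
DS-T, cell [GE] (node-E twin), file 2: the GENERIC base change of a base-level chart.

`Kb ⊇ K₀` fields, `A` a valuation subring of `Kb`, `O₀ = A ∩ K₀`,
`E₀ ⊆ K₀((q))`, `F ⊆ Kb((q))` function fields with `coeffMap (K₀ → Kb) E₀ ⊆ F`.
No modular object: generic twin of `Bridge/GaussBaseChangeModular.lean` and of the first part of
`JT3/PlaceMap/FinalB.lean`.

* `gef_beta E₀ F hEF : E₀ →+* F` : the extension of constants;
* `gef_O K₀ A` : the image of `A ∩ K₀` in `Kb`;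
* `gef_gens`, `gef_genRing_eq` : `O₀[β x₀, β G] = β (fc_chart O₀ {x₀})` when `G` spans the chart
  over `O₀[x₀]`;
* `gef_beta_isIntegral` : `β` of a chart function is integral over `A[β x₀]`;
* `gef_pi_nonunit`, `gef_O_str`, `gef_alg` : the structure fields of `rp_Base`.
Prefix `gef_`.
-/
import Mathlib
import Fermat.Agent.JT3.PlaceMap.Level0
import Fermat.Agent.JT3.PlaceMap.LevelUp
import Fermat.Agent.JT3.Bridge.GaussBaseChange

set_option autoImplicit false
set_option linter.unusedSectionVars false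
set_option linter.style.haveILetI false
set_option linter.style.longLine false

open AlgebraicCurve Polynomial ModularCurve IsLocalRing

namespace Fermat.Agent.DS

open Fermat.Agent.JT3

section Beta

variable {K₀ Kb : Type*} [Field K₀] [Field Kb] [Algebra K₀ Kb]
variable (E₀ : IntermediateField K₀ (LaurentSeries K₀))
variable (F : IntermediateField Kb (LaurentSeries Kb))
variable (hEF : ∀ x ∈ E₀, coeffMap (algebraMap K₀ Kb) x ∈ F)

/-- the extension of constants `E₀ → F`. -/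
noncomputable def gef_beta : ↥E₀ →+* ↥F where
  toFun x := ⟨coeffMap (algebraMap K₀ Kb) (x : LaurentSeries K₀), hEF _ x.2⟩
  map_one' := Subtype.ext (map_one _)
  map_mul' _ _ := Subtype.ext (map_mul _ _ _)
  map_zero' := Subtype.ext (map_zero _)
  map_add' _ _ := Subtype.ext (map_add _ _ _)

theorem gef_beta_coe (x : ↥E₀) :
    ((gef_beta E₀ F hEF x : ↥F) : LaurentSeries Kb) =
      coeffMap (algebraMap K₀ Kb) (x : LaurentSeries K₀) := rfl

theorem gef_beta_injective : Function.Injective (gef_beta E₀ F hEF) :=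
  (gef_beta E₀ F hEF).injective

theorem gef_beta_algebraMap (c : K₀) :
    gef_beta E₀ F hEF (algebraMap K₀ ↥E₀ c) = algebraMap Kb ↥F (algebraMap K₀ Kb c) := by
  apply Subtype.ext
  change coeffMap (algebraMap K₀ Kb) (algebraMap K₀ (LaurentSeries K₀) c) =
    algebraMap Kb (LaurentSeries Kb) (algebraMap K₀ Kb c)
  rw [algebraMap_laurentSeries_eq_single, coeffMap_single, ← algebraMap_laurentSeries_eq_single]

end Beta

section Chart

variable (K₀ : Type*) {Kb : Type*} [Field K₀] [Field Kb] [Algebra K₀ Kb]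
variable (A : ValuationSubring Kb)

/-- the image of `A ∩ K₀` in `Kb`. -/
noncomputable def gef_O : Subring Kb :=
  (A.comap (algebraMap K₀ Kb)).toSubring.map (algebraMap K₀ Kb)

variable {K₀ A}

theorem gef_mem_O {o : Kb} :
    o ∈ gef_O K₀ A ↔ ∃ o₀ : K₀, o₀ ∈ A.comap (algebraMap K₀ Kb) ∧ algebraMap K₀ Kb o₀ = o :=
  Iff.rfl

theorem gef_O_le {o : Kb} (ho : o ∈ gef_O K₀ A) : o ∈ A := by
  obtain ⟨o₀, ho₀, rfl⟩ := ho
  exact ho₀

variable {E₀ : IntermediateField K₀ (LaurentSeries K₀)}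
variable {F : IntermediateField Kb (LaurentSeries Kb)}
variable (hEF : ∀ x ∈ E₀, coeffMap (algebraMap K₀ Kb) x ∈ F)

/-- the generators of the chart ring: the images of the coordinate and of module generators. -/
noncomputable def gef_gens (x₀ : ↥E₀) (G : Finset ↥E₀) : Finset ↥F :=
  haveI := Classical.decEq ↥F
  insert (gef_beta E₀ F hEF x₀) (G.image (gef_beta E₀ F hEF))

theorem gef_mem_gens {x₀ : ↥E₀} {G : Finset ↥E₀} {g : ↥F} :
    g ∈ gef_gens hEF x₀ G ↔ g = gef_beta E₀ F hEF x₀ ∨ ∃ g₀ ∈ G, gef_beta E₀ F hEF g₀ = g := by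
  letI := Classical.decEq ↥F
  rw [gef_gens, Finset.mem_insert, Finset.mem_image]

/-- the constants of `A ∩ K₀` inside `F`, through the base change. -/
theorem gef_beta_const (o₀ : ↥(A.comap (algebraMap K₀ Kb))) :
    gef_beta E₀ F hEF (algebraMap ↥(A.comap (algebraMap K₀ Kb)) ↥E₀ o₀) =
      algebraMap Kb ↥F (algebraMap K₀ Kb (o₀ : K₀)) :=
  gef_beta_algebraMap E₀ F hEF (o₀ : K₀)

/-- **`O[gens] = β(chart)`.** -/
theorem gef_genRing_eq (x₀ : ↥E₀) (G : Finset ↥E₀)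
    (hG : ∀ g ∈ G, g ∈ fc_chart ↥(A.comap (algebraMap K₀ Kb)) ({x₀} : Set ↥E₀))
    (hspan : ∀ b ∈ fc_chart ↥(A.comap (algebraMap K₀ Kb)) ({x₀} : Set ↥E₀),
      b ∈ Submodule.span ↥(Algebra.adjoin ↥(A.comap (algebraMap K₀ Kb)) ({x₀} : Set ↥E₀))
        (G : Set ↥E₀)) :
    rp_genRing (gef_O K₀ A) ((gef_gens hEF x₀ G : Finset ↥F) : Set ↥F) =
      (fc_chart ↥(A.comap (algebraMap K₀ Kb)) ({x₀} : Set ↥E₀)).toSubring.map
        (gef_beta E₀ F hEF) := by
  apply le_antisymm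
  · apply rp_genRing_le
    · intro g hg
      rcases (gef_mem_gens hEF).1 (Finset.mem_coe.1 hg) with rfl | ⟨g₀, hg₀, rfl⟩
      · exact ⟨x₀, fc_x_mem_chart x₀, rfl⟩
      · exact ⟨g₀, hG g₀ hg₀, rfl⟩
    · rintro o ⟨o₀, ho₀, rfl⟩
      refine ⟨algebraMap ↥(A.comap (algebraMap K₀ Kb)) ↥E₀ ⟨o₀, ho₀⟩,
        Subalgebra.algebraMap_mem _ _, ?_⟩
      exact gef_beta_const hEF ⟨o₀, ho₀⟩
  · rintro _ ⟨b, hb, rfl⟩
    have hadj : ∀ r ∈ Algebra.adjoin ↥(A.comap (algebraMap K₀ Kb)) ({x₀} : Set ↥E₀),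
        gef_beta E₀ F hEF r ∈
          rp_genRing (gef_O K₀ A) ((gef_gens hEF x₀ G : Finset ↥F) : Set ↥F) := by
      intro r hr
      induction hr using Algebra.adjoin_induction with
      | mem y hy =>
        rw [Set.mem_singleton_iff] at hy
        rw [hy]
        exact rp_gen_mem_genRing _ (Finset.mem_coe.2 ((gef_mem_gens hEF).2 (Or.inl rfl)))
      | algebraMap o₀ =>
        rw [gef_beta_const]
        exact rp_const_mem_genRing _ ⟨(o₀ : K₀), o₀.2, rfl⟩
      | add y z _ _ hy hz => rw [map_add]; exact add_mem hy hz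
      | mul y z _ _ hy hz => rw [map_mul]; exact mul_mem hy hz
    have hsp := hspan b hb
    clear hb
    induction hsp using Submodule.span_induction with
    | mem g hg =>
      exact rp_gen_mem_genRing _ (Finset.mem_coe.2 ((gef_mem_gens hEF).2 (Or.inr ⟨g, hg, rfl⟩)))
    | zero => rw [map_zero]; exact zero_mem _
    | add y z _ _ hy hz => rw [map_add]; exact add_mem hy hz
    | smul r y _ hy =>
      have : r • y = (r : ↥E₀) * y := rfl
      rw [this, map_mul]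
      exact mul_mem (hadj r r.2) hy

/-- `A[x] ⊆ F` as the ring generated by the constants of `A` and `x`. -/
noncomputable def gef_ring (A : ValuationSubring Kb) (x : ↥F) : Subring ↥F :=
  Subring.closure ((Set.range fun a : A => algebraMap Kb ↥F (a : Kb)) ∪ {x})

theorem gef_const_mem_ring (x : ↥F) (a : A) : algebraMap Kb ↥F (a : Kb) ∈ gef_ring A x :=
  Subring.subset_closure (Or.inl ⟨a, rfl⟩)

theorem gef_self_mem_ring (x : ↥F) : x ∈ gef_ring A x :=
  Subring.subset_closure (Or.inr rfl)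

/-- `β` maps `O₀[x₀]` into `A[β x₀]`. -/
theorem gef_beta_mem_ring (x₀ : ↥E₀) (r : ↥E₀)
    (hr : r ∈ Algebra.adjoin ↥(A.comap (algebraMap K₀ Kb)) ({x₀} : Set ↥E₀)) :
    gef_beta E₀ F hEF r ∈ gef_ring A (gef_beta E₀ F hEF x₀) := by
  induction hr using Algebra.adjoin_induction with
  | mem y hy =>
    rw [Set.mem_singleton_iff] at hy
    rw [hy]
    exact gef_self_mem_ring _
  | algebraMap o₀ =>
    rw [gef_beta_const]
    exact gef_const_mem_ring _ ⟨algebraMap K₀ Kb (o₀ : K₀), o₀.2⟩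
  | add y z _ _ hy hz => rw [map_add]; exact add_mem hy hz
  | mul y z _ _ hy hz => rw [map_mul]; exact mul_mem hy hz

/-- the base change of a chart function is integral over `A[β x₀]`. -/
theorem gef_beta_isIntegral (x₀ : ↥E₀) {b : ↥E₀}
    (hb : b ∈ fc_chart ↥(A.comap (algebraMap K₀ Kb)) ({x₀} : Set ↥E₀)) :
    IsIntegral (gef_ring A (gef_beta E₀ F hEF x₀)) (gef_beta E₀ F hEF b) := by
  rw [fc_mem_chart] at hb
  let φ : ↥(Algebra.adjoin ↥(A.comap (algebraMap K₀ Kb)) ({x₀} : Set ↥E₀)) →+*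
      ↥(gef_ring A (gef_beta E₀ F hEF x₀)) :=
    ((gef_beta E₀ F hEF).comp
      (Algebra.adjoin ↥(A.comap (algebraMap K₀ Kb)) ({x₀} : Set ↥E₀)).val.toRingHom).codRestrict
      _ (fun r => gef_beta_mem_ring hEF x₀ r r.2)
  exact IsIntegral.map_of_comp_eq φ (gef_beta E₀ F hEF) (by ext r; rfl) hb

end Chart

section Struct

variable {K₀ Kb : Type*} [Field K₀] [Field Kb] [Algebra K₀ Kb] {A : ValuationSubring Kb}

/-- `Kb` is algebraic over the image of `A ∩ K₀`. -/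
theorem gef_alg [Algebra.IsAlgebraic K₀ Kb] (c : Kb) :
    ∃ p : Polynomial Kb, p ≠ 0 ∧ (∀ i, p.coeff i ∈ gef_O K₀ A) ∧ p.eval c = 0 := by
  have hc : IsAlgebraic ↥(A.comap (algebraMap K₀ Kb)) c :=
    (IsFractionRing.isAlgebraic_iff ↥(A.comap (algebraMap K₀ Kb)) K₀ Kb).mpr
      (Algebra.IsAlgebraic.isAlgebraic c)
  obtain ⟨p, hp0, hp⟩ := hc
  have hinj : Function.Injective (algebraMap ↥(A.comap (algebraMap K₀ Kb)) Kb) := by
    intro a b hab
    apply Subtype.ext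
    exact (algebraMap K₀ Kb).injective hab
  refine ⟨p.map (algebraMap ↥(A.comap (algebraMap K₀ Kb)) Kb), ?_, ?_, ?_⟩
  · intro h
    apply hp0
    apply Polynomial.map_injective _ hinj
    rw [h, Polynomial.map_zero]
  · intro i
    rw [Polynomial.coeff_map]
    exact ⟨((p.coeff i : ↥(A.comap (algebraMap K₀ Kb))) : K₀), (p.coeff i).2, rfl⟩
  · rw [Polynomial.eval_map, ← hp, Polynomial.aeval_def]

/-- the image of the uniformiser is a nonunit of `A`. -/
theorem gef_pi_nonunit {π₀ : ↥(A.comap (algebraMap K₀ Kb))} (hπ₀ : Irreducible π₀) :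
    algebraMap K₀ Kb (π₀ : K₀) ∈ A.nonunits := by
  rw [ValuationSubring.mem_nonunits_iff_exists_mem_maximalIdeal]
  refine ⟨π₀.2, ?_⟩
  rw [IsLocalRing.mem_maximalIdeal, mem_nonunits_iff]
  intro hu
  exact hπ₀.not_isUnit ((isUnit_map_iff (gq_bc_comapHom (L := K₀) A) π₀).1 hu)

variable [IsDiscreteValuationRing ↥(A.comap (algebraMap K₀ Kb))]

/-- the structure of the image of the discrete valuation ring `A ∩ K₀`. -/
theorem gef_O_str {π₀ : ↥(A.comap (algebraMap K₀ Kb))} (hπ₀ : Irreducible π₀) (o : Kb)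
    (ho : o ∈ gef_O K₀ A) (ho0 : o ≠ 0) :
    ∃ (n : ℕ) (u : Kb), u ∈ gef_O K₀ A ∧ u⁻¹ ∈ gef_O K₀ A ∧
      o = algebraMap K₀ Kb (π₀ : K₀) ^ n * u := by
  obtain ⟨o₀, ho₀, rfl⟩ := ho
  have h0 : (⟨o₀, ho₀⟩ : ↥(A.comap (algebraMap K₀ Kb))) ≠ 0 := by
    intro h
    apply ho0
    have : o₀ = 0 := congrArg Subtype.val h
    rw [this, map_zero]
  obtain ⟨n, u, hu⟩ := IsDiscreteValuationRing.eq_unit_mul_pow_irreducible h0 hπ₀
  refine ⟨n, algebraMap K₀ Kb ((u : ↥(A.comap (algebraMap K₀ Kb))) : K₀),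
    ⟨_, (u : ↥(A.comap (algebraMap K₀ Kb))).2, rfl⟩, ?_, ?_⟩
  · refine ⟨(((u⁻¹ : (↥(A.comap (algebraMap K₀ Kb)))ˣ) : ↥(A.comap (algebraMap K₀ Kb))) : K₀),
      ((u⁻¹ : (↥(A.comap (algebraMap K₀ Kb)))ˣ) : ↥(A.comap (algebraMap K₀ Kb))).2, ?_⟩
    rw [← map_inv₀]
    congr 1
    have h1 : ((u : ↥(A.comap (algebraMap K₀ Kb))) : K₀) *
        (((u⁻¹ : (↥(A.comap (algebraMap K₀ Kb)))ˣ) : ↥(A.comap (algebraMap K₀ Kb))) : K₀) = 1 := by
      have := congrArg (fun t : ↥(A.comap (algebraMap K₀ Kb)) => (t : K₀)) u.mul_inv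
      exact this
    exact eq_inv_of_mul_eq_one_right h1
  · have h1 : o₀ = ((u : ↥(A.comap (algebraMap K₀ Kb))) : K₀) * (π₀ : K₀) ^ n := by
      have := congrArg (fun t : ↥(A.comap (algebraMap K₀ Kb)) => (t : K₀)) hu
      exact this
    rw [h1, map_mul, map_pow, mul_comm]

end Struct

end Fermat.Agent.DS
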