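/-
DS-T, cell [GE] (node-E twin), file 1: the place map for an ARBITRARY pair of q-expansion fields.

The consumer side of node E (`Fermat/Agent/JT3/PlaceMap/{Defs, Local, Value, Points, Sections,
ChartFormula, Center, SectionDiv, BaseDefs, LevelDVR, LevelUp, RedDedekind, RedRange}` and the
generic part of `Global.lean`) is ALREADY generic in the function fields `(FF / Kb, Ft / k)`.  Only
the last step (`rpg_reductionInputsAlong`, `rpe_reductionInputsAlong`) was stated for the prelude's
pair `(laurentBaseChange L (modularFunctionFieldFull N), modularFunctionFieldFullC k N)`.  Here the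
same step for an arbitrary pair

  `F : IntermediateField L (LaurentSeries L)`,  `Ft : IntermediateField k (LaurentSeries k)`

with conclusion helper1's `dsr_ReductionInputs A π F Ft` (`DS/Hecke/RedDefs.lean`).

* `gep_intSubring A π F Ft`, `gep_intRed`, `gep_intRed_spec` : the q-integral functions with
  reduction in `Ft` and the coefficientwise reduction;
* `gep_principalGeneratedByIntegral` : (E-gen) ⟹ `dsr_PrincipalGeneratedByIntegral`;
* `gep_reductionInputs_of_glue` : two glued charts satisfying the chart statements;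
* **`gep_reductionInputs`** : two charts with enough levels and regular reduction, glued.
Prefix `gep_`.
-/
import Mathlib
import Fermat.Agent.JT3.PlaceMap.NodeE
import Fermat.Agent.DS.Hecke.RedDefs

set_option autoImplicit false

namespace Fermat.Agent.DS

open AlgebraicCurve HahnSeries ModularCurve Fermat.Agent.JT3 Fermat.Agent.S24

section Inst

variable {L : Type*} [Field L] (A : ValuationSubring L)
variable {k : Type*} [Field k] (π : A →+* k)
variable (F : IntermediateField L (LaurentSeries L)) (Ft : IntermediateField k (LaurentSeries k))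

/-- the integral functions whose reduction lies in the reduced function field. -/
def gep_intSubring : Subring ↥F where
  carrier := {f | ∃ y : LaurentSeries A, coeffMap A.subtype y = (f : LaurentSeries L) ∧
      coeffMap π y ∈ Ft}
  mul_mem' := by
    rintro f g ⟨y, hy, hyk⟩ ⟨z, hz, hzk⟩
    exact ⟨y * z, by rw [map_mul, hy, hz]; rfl, by rw [map_mul]; exact mul_mem hyk hzk⟩
  one_mem' := ⟨1, by rw [map_one]; rfl, by rw [map_one]; exact one_mem _⟩
  add_mem' := by
    rintro f g ⟨y, hy, hyk⟩ ⟨z, hz, hzk⟩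
    exact ⟨y + z, by rw [map_add, hy, hz]; rfl, by rw [map_add]; exact add_mem hyk hzk⟩
  zero_mem' := ⟨0, by rw [map_zero]; rfl, by rw [map_zero]; exact zero_mem _⟩
  neg_mem' := by
    rintro f ⟨y, hy, hyk⟩
    exact ⟨-y, by rw [map_neg, hy]; rfl, by rw [map_neg]; exact neg_mem hyk⟩

/-- the integral lift of an integral function -/
noncomputable def gep_intLift (f : gep_intSubring A π F Ft) : LaurentSeries A :=
  (f.2 : ∃ y : LaurentSeries A, coeffMap A.subtype y = ((f : ↥F) : LaurentSeries L) ∧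
      coeffMap π y ∈ Ft).choose

theorem gep_intLift_spec (f : gep_intSubring A π F Ft) :
    coeffMap A.subtype (gep_intLift A π F Ft f) = ((f : ↥F) : LaurentSeries L) ∧
      coeffMap π (gep_intLift A π F Ft f) ∈ Ft :=
  (f.2 : ∃ y : LaurentSeries A, coeffMap A.subtype y = ((f : ↥F) : LaurentSeries L) ∧
      coeffMap π y ∈ Ft).choose_spec

theorem gep_intLift_eq (f : gep_intSubring A π F Ft) (y : LaurentSeries A)
    (hy : coeffMap A.subtype y = ((f : ↥F) : LaurentSeries L)) :
    gep_intLift A π F Ft f = y :=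
  dsr_coeffMap_subtype_injective (by rw [(gep_intLift_spec A π F Ft f).1, hy])

/-- the reduction map on the integral functions -/
noncomputable def gep_intRed : gep_intSubring A π F Ft →+* ↥Ft where
  toFun f := ⟨coeffMap π (gep_intLift A π F Ft f), (gep_intLift_spec A π F Ft f).2⟩
  map_one' := by
    apply Subtype.ext
    change coeffMap π (gep_intLift A π F Ft 1) = 1
    rw [gep_intLift_eq A π F Ft 1 1 (by rw [map_one]; rfl), map_one]
  map_mul' f g := by
    apply Subtype.ext
    change coeffMap π (gep_intLift A π F Ft (f * g)) =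
      coeffMap π (gep_intLift A π F Ft f) * coeffMap π (gep_intLift A π F Ft g)
    rw [gep_intLift_eq A π F Ft (f * g) (gep_intLift A π F Ft f * gep_intLift A π F Ft g)
      (by rw [map_mul, (gep_intLift_spec A π F Ft f).1, (gep_intLift_spec A π F Ft g).1]; rfl),
      map_mul]
  map_zero' := by
    apply Subtype.ext
    change coeffMap π (gep_intLift A π F Ft 0) = 0
    rw [gep_intLift_eq A π F Ft 0 0 (by rw [map_zero]; rfl), map_zero]
  map_add' f g := by
    apply Subtype.ext
    change coeffMap π (gep_intLift A π F Ft (f + g)) =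
      coeffMap π (gep_intLift A π F Ft f) + coeffMap π (gep_intLift A π F Ft g)
    rw [gep_intLift_eq A π F Ft (f + g) (gep_intLift A π F Ft f + gep_intLift A π F Ft g)
      (by rw [map_add, (gep_intLift_spec A π F Ft f).1, (gep_intLift_spec A π F Ft g).1]; rfl),
      map_add]

/-- the canonical pair `(gep_intSubring, gep_intRed)` satisfies the compatibility hypothesis of
`gep_reductionInputs`. -/
theorem gep_intRed_spec (y : LaurentSeries A) (hy : coeffMap A.subtype y ∈ F)
    (hyk : coeffMap π y ∈ Ft) :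
    ∃ h : (⟨coeffMap A.subtype y, hy⟩ : ↥F) ∈ gep_intSubring A π F Ft,
      gep_intRed A π F Ft ⟨_, h⟩ = ⟨coeffMap π y, hyk⟩ := by
  refine ⟨⟨y, rfl, hyk⟩, ?_⟩
  apply Subtype.ext
  change coeffMap π (gep_intLift A π F Ft _) = coeffMap π y
  rw [gep_intLift_eq A π F Ft _ y rfl]

variable {A π F Ft}

theorem gep_coeffMap_subtype_ne_zero {y : LaurentSeries A} (hy : coeffMap π y ≠ 0) :
    coeffMap A.subtype y ≠ 0 := by
  intro h
  apply hy
  have : y = 0 := dsr_coeffMap_subtype_injective (by rw [h, map_zero])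
  rw [this, map_zero]

/-- **(E-gen)**: Gauss quotients give `dsr_PrincipalGeneratedByIntegral`. -/
theorem gep_principalGeneratedByIntegral (hF : rp_FunField L ↥F)
    (hgen : ∀ f : ↥F, f ≠ 0 →
      ∃ (c : L) (y z : LaurentSeries A) (hy : coeffMap A.subtype y ∈ F)
        (hz : coeffMap A.subtype z ∈ F),
        c ≠ 0 ∧ coeffMap π y ∈ Ft ∧ coeffMap π y ≠ 0 ∧ coeffMap π z ∈ Ft ∧ coeffMap π z ≠ 0 ∧
          f * (⟨coeffMap A.subtype z, hz⟩ : ↥F) = algebraMap L ↥F c * ⟨coeffMap A.subtype y, hy⟩) :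
    dsr_PrincipalGeneratedByIntegral A π F Ft := by
  intro D hD
  obtain ⟨f, hf, hDf⟩ := hD
  obtain ⟨c, y, z, hy, hz, hc, hyk, hyne, hzk, hzne, hfz⟩ := hgen f hf
  set a : ↥F := ⟨coeffMap A.subtype y, hy⟩ with ha
  set b : ↥F := ⟨coeffMap A.subtype z, hz⟩ with hb
  have ha0 : a ≠ 0 := fun h => gep_coeffMap_subtype_ne_zero (π := π) hyne (congrArg Subtype.val h)
  have hb0 : b ≠ 0 := fun h => gep_coeffMap_subtype_ne_zero (π := π) hzne (congrArg Subtype.val h)
  obtain ⟨Da, hDa⟩ := rpg_exists_divisor hF a ha0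
  obtain ⟨Db, hDb⟩ := rpg_exists_divisor hF b hb0
  have hDa' : Da ∈ dsr_integralPrincipalDivisors A π F Ft := ⟨y, hy, hyk, hyne, hDa⟩
  have hDb' : Db ∈ dsr_integralPrincipalDivisors A π F Ft := ⟨z, hz, hzk, hzne, hDb⟩
  have hc0 : algebraMap L ↥F c ≠ 0 := by
    simpa using hc
  have e : D = Da - Db := by
    ext P
    rw [Finsupp.sub_apply, hDf, hDa, hDb]
    have h1 := congrArg P.ord hfz
    rw [P.ord_mul hf hb0, P.ord_mul hc0 ha0, hw_ord_algebraMap, zero_add] at h1
    omega
  rw [e]
  exact AddSubgroup.sub_mem _ (AddSubgroup.subset_closure hDa') (AddSubgroup.subset_closure hDb')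

/-- **(E-glob)**: two glued charts satisfying the chart statements give `dsr_ReductionInputs`. -/
theorem gep_reductionInputs_of_glue {C1 C2 : rp_Chart A ↥F k ↥Ft} (G : rpg_Glue C1 C2)
    (hF : rp_FunField L ↥F) (ok1 : rpg_ChartOK C1) (ok2 : rpg_ChartOK C2)
    (hdegQ : ∀ Q : Place k ↥Ft, Q.deg = 1)
    (hInt : ∀ (y : LaurentSeries A) (hy : coeffMap A.subtype y ∈ F) (hyk : coeffMap π y ∈ Ft),
      ∃ h : (⟨coeffMap A.subtype y, hy⟩ : ↥F) ∈ G.Int, G.red ⟨_, h⟩ = ⟨coeffMap π y, hyk⟩)
    (hgen : ∀ f : ↥F, f ≠ 0 →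
      ∃ (c : L) (y z : LaurentSeries A) (hy : coeffMap A.subtype y ∈ F)
        (hz : coeffMap A.subtype z ∈ F),
        c ≠ 0 ∧ coeffMap π y ∈ Ft ∧ coeffMap π y ≠ 0 ∧ coeffMap π z ∈ Ft ∧ coeffMap π z ≠ 0 ∧
          f * (⟨coeffMap A.subtype z, hz⟩ : ↥F) = algebraMap L ↥F c * ⟨coeffMap A.subtype y, hy⟩) :
    dsr_ReductionInputs A π F Ft := by
  obtain ⟨r, hdeg, hr⟩ := rpg_exists_placeMap G hF ok1 ok2 (rpg_deg_eq_one_of_funField hF) hdegQ
  refine ⟨r, ⟨hdeg, ?_⟩, gep_principalGeneratedByIntegral hF hgen⟩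
  intro y hy hyk hne D hD Q
  obtain ⟨h, hred⟩ := hInt y hy hyk
  have h1 := hr ⟨_, h⟩ (by rw [hred]; exact fun h0 => hne (congrArg Subtype.val h0)) D hD Q
  rw [h1, hred]

/-- **Node E, generic form, for an arbitrary pair of q-expansion fields**: two charts with enough
levels and regular reductions, glued by one reduction map on a ring of integral functions
containing all integral `q`-expansions, give `dsr_ReductionInputs`. -/
theorem gep_reductionInputs {C1 C2 : rp_Chart A ↥F k ↥Ft} (hF : rp_FunField L ↥F)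
    (hL1 : C1.HasLevels) (hR1 : C1.RedRegular) (hL2 : C2.HasLevels) (hR2 : C2.RedRegular)
    (G : rpg_Glue C1 C2) (hdegQ : ∀ Q : Place k ↥Ft, Q.deg = 1)
    (hInt : ∀ (y : LaurentSeries A) (hy : coeffMap A.subtype y ∈ F) (hyk : coeffMap π y ∈ Ft),
      ∃ h : (⟨coeffMap A.subtype y, hy⟩ : ↥F) ∈ G.Int, G.red ⟨_, h⟩ = ⟨coeffMap π y, hyk⟩)
    (hgen : ∀ f : ↥F, f ≠ 0 →
      ∃ (c : L) (y z : LaurentSeries A) (hy : coeffMap A.subtype y ∈ F)
        (hz : coeffMap A.subtype z ∈ F),
        c ≠ 0 ∧ coeffMap π y ∈ Ft ∧ coeffMap π y ≠ 0 ∧ coeffMap π z ∈ Ft ∧ coeffMap π z ≠ 0 ∧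
          f * (⟨coeffMap A.subtype z, hz⟩ : ↥F) = algebraMap L ↥F c * ⟨coeffMap A.subtype y, hy⟩) :
    dsr_ReductionInputs A π F Ft :=
  gep_reductionInputs_of_glue G hF (rpe_chartOK hF hL1 hR1) (rpe_chartOK hF hL2 hR2) hdegQ hInt hgen

end Inst

end Fermat.Agent.DS
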