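/-
DS-T, cell [GE] (node-E twin), file 3: GENERIC [E-FIN].

`Kb ⊇ K₀` fields of characteristic zero, `A ⊂ Kb` a valuation ring with residue map `π : A ->> k`,
`O₀ = A ∩ K₀` a discrete valuation ring with uniformiser `π₀` and the same residue field,
`E₀ ⊆ K₀((q))`, `F ⊆ Kb((q))` (generated by the base change of `E₀`), `Ft ⊆ k((q))`.

`gef_Input π F Ft E₀ π₀ x₀` : what ONE chart needs: the base-level package `rpn_Level0 E₀ π₀ x₀`,
the coordinate has an integral `q`-expansion with transcendental reduction, the reductions of the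
chart functions lie in `Ft` (RG).

* `gef_chart I` : the chart `A[β(fc_chart O₀ {x₀})]` with the reduction of `q`-expansions;
* `gef_base I` : its base level (`rp_Base`), hence `HasLevels` (`gef_hasLevels`);
* `gef_redRegular I` : `RedRegular`;
* **`gef_reductionInputs`** : two inputs (coordinates `x₀`, `x₀⁻¹`) ⟹ `dsr_ReductionInputs A π F Ft`.
No modular object.  Prefix `gef_`.
-/
import Mathlib
import Fermat.Agent.DS.GE.Global
import Fermat.Agent.DS.GE.FinBase
import Fermat.Agent.JT3.PlaceMap.RedRange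
import Fermat.Agent.JT3.PlaceMap.ModularGauss

set_option autoImplicit false
set_option linter.unusedSectionVars false
set_option linter.style.haveILetI false
set_option linter.style.longLine false

open AlgebraicCurve Polynomial ModularCurve IsLocalRing

namespace Fermat.Agent.DS

open Fermat.Agent.JT3 Fermat.Agent.S24

/-! ### charts inside the integral functions -/

section IntChart

variable {Kb : Type*} [Field Kb] {A : ValuationSubring Kb} {k : Type*} [Field k] {π : A →+* k}
variable {F : IntermediateField Kb (LaurentSeries Kb)} {Ft : IntermediateField k (LaurentSeries k)}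

theorem gef_const_mem_int (a : A) : algebraMap Kb ↥F (a : Kb) ∈ gep_intSubring A π F Ft := by
  refine ⟨HahnSeries.single 0 a, ?_, ?_⟩
  · rw [coeffMap_single]
    change _ = algebraMap Kb (LaurentSeries Kb) (a : Kb)
    rw [algebraMap_laurentSeries_eq_single]
    rfl
  · rw [coeffMap_single, ← algebraMap_laurentSeries_eq_single]
    exact IntermediateField.algebraMap_mem _ _

/-- the reduction of an integral function, from any integral lift of its `q`-expansion. -/
theorem gef_intRed_coe (f : gep_intSubring A π F Ft) (y : LaurentSeries A)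
    (hy : coeffMap A.subtype y = ((f : ↥F) : LaurentSeries Kb)) :
    ((gep_intRed A π F Ft f : ↥Ft) : LaurentSeries k) = coeffMap π y := by
  change coeffMap π (gep_intLift A π F Ft f) = _
  rw [gep_intLift_eq A π F Ft f y hy]

theorem gef_intRed_const (a : A) (h : algebraMap Kb ↥F (a : Kb) ∈ gep_intSubring A π F Ft) :
    gep_intRed A π F Ft ⟨_, h⟩ = algebraMap k ↥Ft (π a) := by
  apply Subtype.ext
  rw [gef_intRed_coe ⟨_, h⟩ (HahnSeries.single 0 a)]
  · rw [coeffMap_single]
    change _ = algebraMap k (LaurentSeries k) (π a)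
    rw [algebraMap_laurentSeries_eq_single]
  · rw [coeffMap_single]
    change _ = algebraMap Kb (LaurentSeries Kb) (a : Kb)
    rw [algebraMap_laurentSeries_eq_single]
    rfl

/-- **the chart of a ring of integral functions**: reduction map = reduction of `q`-expansions. -/
noncomputable def gef_intChart (hπ : Function.Surjective π) (B : Subring ↥F)
    (hB : B ≤ gep_intSubring A π F Ft) (hconst : ∀ a : A, algebraMap Kb ↥F (a : Kb) ∈ B)
    (hfrac : ∀ f : ↥F, ∃ b c : ↥F, b ∈ B ∧ c ∈ B ∧ c ≠ 0 ∧ f = b / c) :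
    rp_Chart A ↥F k ↥Ft where
  res := π
  res_surj := hπ
  B := B
  const_mem := hconst
  frac := hfrac
  red := (gep_intRed A π F Ft).comp (Subring.inclusion hB)
  red_const a := gef_intRed_const a _

theorem gef_intChart_B (hπ : Function.Surjective π) (B : Subring ↥F)
    (hB : B ≤ gep_intSubring A π F Ft) (hconst) (hfrac) :
    (gef_intChart hπ B hB hconst hfrac).B = B := rfl

theorem gef_intChart_red (hπ : Function.Surjective π) (B : Subring ↥F)
    (hB : B ≤ gep_intSubring A π F Ft) (hconst) (hfrac)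
    (b : (gef_intChart hπ B hB hconst hfrac).B) :
    (gef_intChart hπ B hB hconst hfrac).red b = gep_intRed A π F Ft ⟨b, hB b.2⟩ := rfl

/-- the reduction of a chart function from an integral lift of its `q`-expansion. -/
theorem gef_intChart_red_coe (hπ : Function.Surjective π) (B : Subring ↥F)
    (hB : B ≤ gep_intSubring A π F Ft) (hconst) (hfrac)
    (b : (gef_intChart hπ B hB hconst hfrac).B) (y : LaurentSeries A)
    (hy : coeffMap A.subtype y = ((b : ↥F) : LaurentSeries Kb)) :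
    (((gef_intChart hπ B hB hconst hfrac).red b : ↥Ft) : LaurentSeries k) = coeffMap π y :=
  gef_intRed_coe (⟨(b : ↥F), hB b.2⟩ : gep_intSubring A π F Ft) y hy

/-- a subring whose field of fractions is everything: every element is a quotient. -/
theorem gef_frac_of_closure {E : Type*} [Field E] (B : Subring E)
    (h : ∀ f : E, f ∈ Subfield.closure (B : Set E)) :
    ∀ f : E, ∃ b c : E, b ∈ B ∧ c ∈ B ∧ c ≠ 0 ∧ f = b / c := by
  intro f
  obtain ⟨y, hy, z, hz, hyz⟩ := Subfield.mem_closure_iff.1 (h f)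
  rw [Subring.closure_eq] at hy hz
  by_cases hz0 : z = 0
  · refine ⟨0, 1, B.zero_mem, B.one_mem, one_ne_zero, ?_⟩
    rw [← hyz, hz0, div_zero, zero_div]
  · exact ⟨y, z, hy, hz, hz0, hyz.symm⟩

end IntChart

/-! ### one chart from a base-level package -/

section OneChart

variable {Kb : Type*} [Field Kb] {A : ValuationSubring Kb} {k : Type*} [Field k]
variable {K₀ : Type*} [Field K₀] [Algebra K₀ Kb]
variable [IsDiscreteValuationRing ↥(A.comap (algebraMap K₀ Kb))]

/-- the residue map of `A ∩ K₀`. -/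
noncomputable def gef_rho (π : A →+* k) : ↥(A.comap (algebraMap K₀ Kb)) →+* k :=
  π.comp (gq_bc_comapHom (L := K₀) A)

/-- **the input of one chart.** -/
structure gef_Input (π : A →+* k) (F : IntermediateField Kb (LaurentSeries Kb))
    (Ft : IntermediateField k (LaurentSeries k)) (E₀ : IntermediateField K₀ (LaurentSeries K₀))
    (π₀ : ↥(A.comap (algebraMap K₀ Kb))) (x₀ : ↥E₀) : Prop where
  surj : Function.Surjective π
  hEF : ∀ x ∈ E₀, coeffMap (algebraMap K₀ Kb) x ∈ F
  hFE : ∀ f : ↥F, (f : LaurentSeries Kb) ∈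
    IntermediateField.adjoin Kb (coeffMap (algebraMap K₀ Kb) '' (E₀ : Set (LaurentSeries K₀)))
  irr : Irreducible π₀
  res : ∀ a : A, ∃ o ∈ gef_O K₀ A, (a : Kb) - o ∈ A.nonunits
  x_ne : x₀ ≠ 0
  lvl : rpn_Level0 E₀ π₀ x₀
  frac₀ : ∀ e : ↥E₀, ∃ b c : ↥E₀, b ∈ fc_chart ↥(A.comap (algebraMap K₀ Kb)) ({x₀} : Set ↥E₀) ∧
    c ∈ fc_chart ↥(A.comap (algebraMap K₀ Kb)) ({x₀} : Set ↥E₀) ∧ c ≠ 0 ∧ e = b / c
  /-- (RG): the reductions of the chart functions lie in `Ft` -/
  rg : ∀ b ∈ fc_chart ↥(A.comap (algebraMap K₀ Kb)) ({x₀} : Set ↥E₀),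
    ∀ w : LaurentSeries ↥(A.comap (algebraMap K₀ Kb)),
      coeffMap (algebraMap ↥(A.comap (algebraMap K₀ Kb)) K₀) w = (b : LaurentSeries K₀) →
        coeffMap (gef_rho π) w ∈ Ft
  /-- the coordinate has an integral `q`-expansion with transcendental reduction -/
  x_lift : ∃ y : LaurentSeries ↥(A.comap (algebraMap K₀ Kb)),
    coeffMap (algebraMap ↥(A.comap (algebraMap K₀ Kb)) K₀) y = (x₀ : LaurentSeries K₀) ∧
      Transcendental k (coeffMap (gef_rho π) y)

variable {π : A →+* k} {F : IntermediateField Kb (LaurentSeries Kb)}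
  {Ft : IntermediateField k (LaurentSeries k)} {E₀ : IntermediateField K₀ (LaurentSeries K₀)}
  {π₀ : ↥(A.comap (algebraMap K₀ Kb))} {x₀ : ↥E₀}

namespace gef_Input

variable (I : gef_Input π F Ft E₀ π₀ x₀)

/-- module generators of the base-level chart. -/
noncomputable def G : Finset ↥E₀ := I.lvl.fin.choose

theorem G_mem : ∀ g ∈ I.G, g ∈ fc_chart ↥(A.comap (algebraMap K₀ Kb)) ({x₀} : Set ↥E₀) :=
  I.lvl.fin.choose_spec.1

theorem G_span : ∀ b ∈ fc_chart ↥(A.comap (algebraMap K₀ Kb)) ({x₀} : Set ↥E₀),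
    b ∈ Submodule.span ↥(Algebra.adjoin ↥(A.comap (algebraMap K₀ Kb)) ({x₀} : Set ↥E₀))
      (I.G : Set ↥E₀) :=
  I.lvl.fin.choose_spec.2

/-- the generators of the chart ring. -/
noncomputable def gens : Finset ↥F := gef_gens I.hEF x₀ I.G

/-- the chart ring `A[β(chart₀)]`. -/
noncomputable def B : Subring ↥F := rp_genRing A.toSubring (I.gens : Set ↥F)

theorem genRing_eq : rp_genRing (gef_O K₀ A) (I.gens : Set ↥F) =
    (fc_chart ↥(A.comap (algebraMap K₀ Kb)) ({x₀} : Set ↥E₀)).toSubring.map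
      (gef_beta E₀ F I.hEF) :=
  gef_genRing_eq I.hEF x₀ I.G I.G_mem I.G_span

theorem genRing_le : rp_genRing (gef_O K₀ A) (I.gens : Set ↥F) ≤ I.B :=
  rp_genRing_mono (fun _ ho => gef_O_le ho) _

theorem beta_mem_B {b : ↥E₀} (hb : b ∈ fc_chart ↥(A.comap (algebraMap K₀ Kb)) ({x₀} : Set ↥E₀)) :
    gef_beta E₀ F I.hEF b ∈ I.B := by
  apply I.genRing_le
  rw [I.genRing_eq]
  exact ⟨b, hb, rfl⟩

/-- the integral lift over `A` of the base change of an `O₀`-integral `q`-expansion. -/
theorem beta_lift (b : ↥E₀) (w : LaurentSeries ↥(A.comap (algebraMap K₀ Kb)))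
    (hw : coeffMap (algebraMap ↥(A.comap (algebraMap K₀ Kb)) K₀) w = (b : LaurentSeries K₀)) :
    coeffMap A.subtype (coeffMap (gq_bc_comapHom (L := K₀) A) w) =
      ((gef_beta E₀ F I.hEF b : ↥F) : LaurentSeries Kb) := by
  rw [gef_beta_coe, ← hw]
  exact (gq_bc_iota (gq_bc_comapHom (L := K₀) A) (algebraMap K₀ Kb) (gq_bc_comap_compat A) w).symm

theorem red_lift (w : LaurentSeries ↥(A.comap (algebraMap K₀ Kb))) :
    coeffMap π (coeffMap (gq_bc_comapHom (L := K₀) A) w) = coeffMap (gef_rho π) w := by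
  rw [coeffMap_coeffMap]
  rfl

theorem beta_mem_int {b : ↥E₀}
    (hb : b ∈ fc_chart ↥(A.comap (algebraMap K₀ Kb)) ({x₀} : Set ↥E₀)) :
    gef_beta E₀ F I.hEF b ∈ gep_intSubring A π F Ft := by
  obtain ⟨w, hw⟩ := I.lvl.qint b hb
  refine ⟨coeffMap (gq_bc_comapHom (L := K₀) A) w, I.beta_lift b w hw, ?_⟩
  rw [red_lift]
  exact I.rg b hb w hw

theorem B_le_int : I.B ≤ gep_intSubring A π F Ft := by
  apply rp_genRing_le
  · intro g hg
    rcases (gef_mem_gens I.hEF).1 (Finset.mem_coe.1 hg) with rfl | ⟨g₀, hg₀, rfl⟩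
    · exact I.beta_mem_int (fc_x_mem_chart x₀)
    · exact I.beta_mem_int (I.G_mem g₀ hg₀)
  · intro a ha
    exact gef_const_mem_int ⟨a, ha⟩

theorem const_mem_B (a : A) : algebraMap Kb ↥F (a : Kb) ∈ I.B :=
  rp_const_mem_genRing _ a.2

/-- every function of `F` is a quotient of chart functions. -/
theorem frac : ∀ f : ↥F, ∃ b c : ↥F, b ∈ I.B ∧ c ∈ I.B ∧ c ≠ 0 ∧ f = b / c := by
  apply gef_frac_of_closure
  intro f
  have key : ∀ x : LaurentSeries Kb,
      x ∈ IntermediateField.adjoin Kb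
        (coeffMap (algebraMap K₀ Kb) '' (E₀ : Set (LaurentSeries K₀))) →
      ∃ h : x ∈ F, (⟨x, h⟩ : ↥F) ∈ Subfield.closure (I.B : Set ↥F) := by
    intro x hx
    induction hx using IntermediateField.adjoin_induction with
    | mem x hx =>
      obtain ⟨e, he, rfl⟩ := hx
      refine ⟨I.hEF e he, ?_⟩
      obtain ⟨b, c, hb, hc, hc0, hbc⟩ := I.frac₀ ⟨e, he⟩
      have e1 : (⟨coeffMap (algebraMap K₀ Kb) e, I.hEF e he⟩ : ↥F) =
          gef_beta E₀ F I.hEF b / gef_beta E₀ F I.hEF c := by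
        rw [← map_div₀, ← hbc]
        rfl
      rw [e1]
      exact div_mem (Subfield.subset_closure (I.beta_mem_B hb))
        (Subfield.subset_closure (I.beta_mem_B hc))
    | algebraMap c =>
      refine ⟨F.algebraMap_mem c, ?_⟩
      obtain ⟨a, ha, hac⟩ := rpm_exists_scalar A c
      have ha' : algebraMap Kb ↥F (a : Kb) ≠ 0 := by
        rw [Ne, map_eq_zero]; exact ha
      have e0 : (⟨algebraMap Kb (LaurentSeries Kb) c, F.algebraMap_mem c⟩ : ↥F) =
          algebraMap Kb ↥F c := rfl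
      have e1 : algebraMap Kb ↥F c =
          algebraMap Kb ↥F ((a : Kb) * c) / algebraMap Kb ↥F (a : Kb) := by
        rw [eq_div_iff ha', map_mul, mul_comm]
      rw [e0, e1]
      exact div_mem (Subfield.subset_closure (I.const_mem_B ⟨_, hac⟩))
        (Subfield.subset_closure (I.const_mem_B a))
    | add x y _ _ hx hy =>
      obtain ⟨hx1, hx2⟩ := hx
      obtain ⟨hy1, hy2⟩ := hy
      refine ⟨add_mem hx1 hy1, ?_⟩
      have e : (⟨x + y, add_mem hx1 hy1⟩ : ↥F) = (⟨x, hx1⟩ : ↥F) + (⟨y, hy1⟩ : ↥F) :=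
        Subtype.ext (IntermediateField.coe_add F ⟨x, hx1⟩ ⟨y, hy1⟩).symm
      rw [e]
      exact add_mem hx2 hy2
    | inv x _ hx =>
      obtain ⟨hx1, hx2⟩ := hx
      refine ⟨inv_mem hx1, ?_⟩
      have e : (⟨x⁻¹, inv_mem hx1⟩ : ↥F) = (⟨x, hx1⟩ : ↥F)⁻¹ :=
        Subtype.ext (IntermediateField.coe_inv F ⟨x, hx1⟩).symm
      rw [e]
      exact inv_mem hx2
    | mul x y _ _ hx hy =>
      obtain ⟨hx1, hx2⟩ := hx
      obtain ⟨hy1, hy2⟩ := hy
      refine ⟨mul_mem hx1 hy1, ?_⟩
      have e : (⟨x * y, mul_mem hx1 hy1⟩ : ↥F) = (⟨x, hx1⟩ : ↥F) * (⟨y, hy1⟩ : ↥F) :=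
        Subtype.ext (IntermediateField.coe_mul F ⟨x, hx1⟩ ⟨y, hy1⟩).symm
      rw [e]
      exact mul_mem hx2 hy2
  obtain ⟨h, hf⟩ := key _ (I.hFE f)
  exact hf

/-- **the chart.** -/
noncomputable def chart : rp_Chart A ↥F k ↥Ft :=
  gef_intChart I.surj I.B I.B_le_int I.const_mem_B I.frac

theorem chart_B : I.chart.B = I.B := rfl

/-- the reduction of the base change of a chart function. -/
theorem red_beta (b : ↥E₀) (hb : gef_beta E₀ F I.hEF b ∈ I.chart.B)
    (w : LaurentSeries ↥(A.comap (algebraMap K₀ Kb)))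
    (hw : coeffMap (algebraMap ↥(A.comap (algebraMap K₀ Kb)) K₀) w = (b : LaurentSeries K₀)) :
    ((I.chart.red ⟨gef_beta E₀ F I.hEF b, hb⟩ : ↥Ft) : LaurentSeries k) =
      coeffMap (gef_rho π) w := by
  rw [← red_lift]
  exact gef_intChart_red_coe I.surj I.B I.B_le_int I.const_mem_B I.frac ⟨_, hb⟩ _ (I.beta_lift b w hw)

omit [IsDiscreteValuationRing ↥(A.comap (algebraMap K₀ Kb))] in
/-- `ρ o = 0` iff `o` is a nonunit. -/
theorem _root_.Fermat.Agent.DS.gef_rho_eq_zero_iff (hπ : Function.Surjective π)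
    (o : ↥(A.comap (algebraMap K₀ Kb))) :
    gef_rho π o = 0 ↔ residue ↥(A.comap (algebraMap K₀ Kb)) o = 0 := by
  have hmax : (RingHom.ker π).IsMaximal := RingHom.ker_isMaximal_of_surjective π hπ
  have hker : RingHom.ker π = maximalIdeal A := eq_maximalIdeal hmax
  have h1 : gef_rho π o = 0 ↔ gq_bc_comapHom (L := K₀) A o ∈ maximalIdeal A := by
    rw [← hker, RingHom.mem_ker]
    rfl
  rw [h1, residue_eq_zero_iff, mem_maximalIdeal, mem_nonunits_iff, mem_maximalIdeal,
    mem_nonunits_iff]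
  exact not_congr (isUnit_map_iff (gq_bc_comapHom (L := K₀) A) o)

omit [IsDiscreteValuationRing ↥(A.comap (algebraMap K₀ Kb))] in
theorem _root_.Fermat.Agent.DS.gef_coeffMap_rho_eq_zero_iff (hπ : Function.Surjective π)
    (w : LaurentSeries ↥(A.comap (algebraMap K₀ Kb))) :
    coeffMap (gef_rho π) w = 0 ↔ coeffMap (residue ↥(A.comap (algebraMap K₀ Kb))) w = 0 := by
  constructor
  · intro h
    ext n
    have := congrArg (fun s : LaurentSeries k => s.coeff n) h
    simp only [coeffMap_coeff, HahnSeries.coeff_zero] at this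
    rw [coeffMap_coeff, HahnSeries.coeff_zero]
    exact (gef_rho_eq_zero_iff hπ _).1 this
  · intro h
    ext n
    have := congrArg (fun s : LaurentSeries _ => s.coeff n) h
    simp only [coeffMap_coeff, HahnSeries.coeff_zero] at this
    rw [coeffMap_coeff, HahnSeries.coeff_zero]
    exact (gef_rho_eq_zero_iff hπ _).2 this

/-- **the kernel of the reduction on `β(chart₀)` is generated by `π₀`.** -/
theorem ker (b : ↥E₀) (hb₀ : b ∈ fc_chart ↥(A.comap (algebraMap K₀ Kb)) ({x₀} : Set ↥E₀))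
    (hb : gef_beta E₀ F I.hEF b ∈ I.chart.B)
    (hred : I.chart.red ⟨gef_beta E₀ F I.hEF b, hb⟩ = 0) :
    ∃ b' ∈ fc_chart ↥(A.comap (algebraMap K₀ Kb)) ({x₀} : Set ↥E₀),
      b = algebraMap ↥(A.comap (algebraMap K₀ Kb)) ↥E₀ π₀ * b' := by
  obtain ⟨w, hw⟩ := I.lvl.qint b hb₀
  refine I.lvl.ker b hb₀ w hw ?_
  have h1 := I.red_beta b hb w hw
  rw [hred] at h1
  exact (gef_coeffMap_rho_eq_zero_iff I.surj w).1 h1.symm

end gef_Input

end OneChart

end Fermat.Agent.DS
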