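/-
DS-T, cell [GE] (node-E twin), file 4: GENERIC [E-FIN], the assembly.

From `gef_Input π F Ft E₀ π₀ x₀` (`Fin.lean`):
* `gef_Input.base` : the base level (`rp_Base`) of the chart, `gef_Input.hasLevels`;
* `gef_Input.integral` : the chart is integral over `A[β x₀]`;
* `gef_Input.redRegular` : `RedRegular`;
* **`gef_reductionInputs`** : two inputs with coordinates `x₀`, `x₀⁻¹` and the two function-field
  packages `rp_FunField Kb F`, `rp_FunField k Ft` ⟹ `dsr_ReductionInputs A π F Ft`.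
No modular object.  Prefix `gef_`.
-/
import Mathlib
import Fermat.Agent.DS.GE.Fin

set_option autoImplicit false
set_option linter.unusedSectionVars false
set_option linter.style.haveILetI false
set_option linter.style.longLine false

open AlgebraicCurve Polynomial ModularCurve IsLocalRing

namespace Fermat.Agent.DS

open Fermat.Agent.JT3 Fermat.Agent.S24

section Main

variable {Kb : Type*} [Field Kb] {A : ValuationSubring Kb} {k : Type*} [Field k]
variable {K₀ : Type*} [Field K₀] [Algebra K₀ Kb]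
variable [IsDiscreteValuationRing ↥(A.comap (algebraMap K₀ Kb))]
variable {π : A →+* k} {F : IntermediateField Kb (LaurentSeries Kb)}
  {Ft : IntermediateField k (LaurentSeries k)} {E₀ : IntermediateField K₀ (LaurentSeries K₀)}
  {π₀ : ↥(A.comap (algebraMap K₀ Kb))} {x₀ : ↥E₀}

namespace gef_Input

variable (I : gef_Input π F Ft E₀ π₀ x₀)

/-- **the base level** of the chart. -/
noncomputable def base [Algebra.IsAlgebraic K₀ Kb] : rp_Base I.chart where
  O := gef_O K₀ A
  O_le := fun _ ho => gef_O_le ho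
  ϖ := algebraMap K₀ Kb (π₀ : K₀)
  ϖ_mem := ⟨(π₀ : K₀), π₀.2, rfl⟩
  ϖ_ne := by
    intro h0
    apply I.irr.ne_zero
    apply Subtype.ext
    exact (map_eq_zero (algebraMap K₀ Kb)).1 h0
  ϖ_nonunit := gef_pi_nonunit I.irr
  O_str := fun o ho ho0 => gef_O_str I.irr o ho ho0
  alg := gef_alg
  res_eq := I.res
  gens := I.gens
  chart_eq := rfl
  red_ker := by
    intro b hb hbO hred
    rw [I.genRing_eq] at hbO
    obtain ⟨b₀, hb₀, rfl⟩ := hbO
    obtain ⟨b', hb', hbb⟩ := I.ker b₀ hb₀ hb hred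
    refine ⟨gef_beta E₀ F I.hEF b', ?_, ?_⟩
    · rw [I.genRing_eq]
      exact ⟨b', hb', rfl⟩
    · change gef_beta E₀ F I.hEF b₀ = _
      rw [hbb, map_mul, gef_beta_const]

/-- the chart has enough levels. -/
theorem hasLevels [CharZero Kb] [Algebra.IsAlgebraic K₀ Kb] (hF : rp_FunField Kb ↥F) :
    I.chart.HasLevels :=
  rpu_hasLevels hF I.base

theorem x_mem : gef_beta E₀ F I.hEF x₀ ∈ I.chart.B := I.beta_mem_B (fc_x_mem_chart x₀)

/-- the chart is integral over `A[β x₀]`. -/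
theorem integral : ∀ b ∈ I.chart.B, IsIntegral (gef_ring A (gef_beta E₀ F I.hEF x₀)) b := by
  have hle : I.B ≤ (integralClosure (gef_ring A (gef_beta E₀ F I.hEF x₀)) ↥F).toSubring := by
    apply rp_genRing_le
    · intro g hg
      rcases (gef_mem_gens I.hEF).1 (Finset.mem_coe.1 hg) with rfl | ⟨g₀, hg₀, rfl⟩
      · exact gef_beta_isIntegral I.hEF x₀ (fc_x_mem_chart x₀)
      · exact gef_beta_isIntegral I.hEF x₀ (I.G_mem g₀ hg₀)
    · intro a ha
      exact isIntegral_algebraMap (R := gef_ring A (gef_beta E₀ F I.hEF x₀))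
        (x := ⟨_, gef_const_mem_ring (gef_beta E₀ F I.hEF x₀) ⟨a, ha⟩⟩)
  exact fun b hb => hle hb

/-- the reduction of the coordinate. -/
theorem red_x (y : LaurentSeries ↥(A.comap (algebraMap K₀ Kb)))
    (hy : coeffMap (algebraMap ↥(A.comap (algebraMap K₀ Kb)) K₀) y = (x₀ : LaurentSeries K₀)) :
    ((I.chart.red ⟨gef_beta E₀ F I.hEF x₀, I.x_mem⟩ : ↥Ft) : LaurentSeries k) =
      coeffMap (gef_rho π) y :=
  I.red_beta x₀ I.x_mem y hy

/-- **`RedRegular`**, when every element of `Ft` is a quotient of reductions of chart functions. -/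
theorem redRegular
    (hfrac : ∀ f : ↥Ft, ∃ b c : I.chart.B, I.chart.red c ≠ 0 ∧ f * I.chart.red c = I.chart.red b) :
    I.chart.RedRegular := by
  let βB : ↥(fc_chart ↥(A.comap (algebraMap K₀ Kb)) ({x₀} : Set ↥E₀)) →+* I.chart.B :=
    ((gef_beta E₀ F I.hEF).comp
      (fc_chart ↥(A.comap (algebraMap K₀ Kb)) ({x₀} : Set ↥E₀)).val.toRingHom).codRestrict
      _ (fun r => I.beta_mem_B r.2)
  obtain ⟨y, hy, htr⟩ := I.x_lift
  refine rpr_redRegular_of_base I.chart
    (algebraMap ↥(A.comap (algebraMap K₀ Kb))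
      ↥(fc_chart ↥(A.comap (algebraMap K₀ Kb)) ({x₀} : Set ↥E₀)) π₀)
    I.lvl.ded βB ?_ ?_ ?_ ⟨_, I.x_mem⟩ ?_ ?_ ?_
  · -- the reduction of the uniformiser vanishes
    have hϖ : algebraMap K₀ Kb (π₀ : K₀) ∈ A := π₀.2
    have e : βB (algebraMap ↥(A.comap (algebraMap K₀ Kb))
        ↥(fc_chart ↥(A.comap (algebraMap K₀ Kb)) ({x₀} : Set ↥E₀)) π₀) =
        ⟨algebraMap Kb ↥F ((⟨algebraMap K₀ Kb (π₀ : K₀), hϖ⟩ : A) : Kb),
          I.chart.const_mem ⟨algebraMap K₀ Kb (π₀ : K₀), hϖ⟩⟩ :=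
      Subtype.ext (gef_beta_const I.hEF π₀)
    rw [e, I.chart.red_const,
      (rpc_res_eq_zero_iff I.chart ⟨algebraMap K₀ Kb (π₀ : K₀), hϖ⟩).2 (gef_pi_nonunit I.irr),
      map_zero]
  · -- kernel
    intro r hr
    obtain ⟨b', hb', hbb⟩ := I.ker (r : ↥E₀) r.2 (I.beta_mem_B r.2) hr
    exact ⟨⟨b', hb'⟩, Subtype.ext hbb⟩
  · -- surjectivity
    intro b
    obtain ⟨b', hb'O, hb'B, hred⟩ := rpr_red_surj_genRing I.chart (gef_O K₀ A)
      (fun o ho => gef_O_le ho) I.res _ rfl b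
    rw [I.genRing_eq] at hb'O
    obtain ⟨r, hr, rfl⟩ := hb'O
    exact ⟨⟨r, hr⟩, hred⟩
  · -- the reduction of the coordinate is transcendental
    have h := transcendental_algebraMap_iff (R := k) (S := ↥Ft) (A := LaurentSeries k)
      (a := I.chart.red ⟨gef_beta E₀ F I.hEF x₀, I.x_mem⟩) Subtype.val_injective
    refine h.1 ?_
    change Transcendental k ((I.chart.red ⟨gef_beta E₀ F I.hEF x₀, I.x_mem⟩ : ↥Ft) : LaurentSeries k)
    rw [I.red_x y hy]
    exact htr
  · -- integrality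
    intro b
    exact rpr_red_isIntegral I.chart I.x_mem b (I.integral b b.2)
  · exact hfrac

end gef_Input

/-- the reduction of a chart function from an integral lift of its `q`-expansion. -/
theorem gef_Input.red_coe (I : gef_Input π F Ft E₀ π₀ x₀) (b : I.chart.B) (y : LaurentSeries A)
    (hy : coeffMap A.subtype y = ((b : ↥F) : LaurentSeries Kb)) :
    ((I.chart.red b : ↥Ft) : LaurentSeries k) = coeffMap π y :=
  gef_intChart_red_coe I.surj I.B I.B_le_int I.const_mem_B I.frac b y hy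

/-- **(E-gen)** from a chart inside the integral functions with enough levels. -/
theorem gef_hgen (I : gef_Input π F Ft E₀ π₀ x₀) (hL : I.chart.HasLevels) (f : ↥F) (hf : f ≠ 0) :
    ∃ (c : Kb) (y z : LaurentSeries A) (hy : coeffMap A.subtype y ∈ F)
      (hz : coeffMap A.subtype z ∈ F),
      c ≠ 0 ∧ coeffMap π y ∈ Ft ∧ coeffMap π y ≠ 0 ∧ coeffMap π z ∈ Ft ∧ coeffMap π z ≠ 0 ∧
        f * (⟨coeffMap A.subtype z, hz⟩ : ↥F) = algebraMap Kb ↥F c * ⟨coeffMap A.subtype y, hy⟩ := by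
  obtain ⟨c, a, b, hc, ha, hb, hfab⟩ := rpm_exists_gauss_factor I.chart hL f hf
  obtain ⟨y, hy, hyk⟩ := I.B_le_int a.2
  obtain ⟨z, hz, hzk⟩ := I.B_le_int b.2
  have hyF : coeffMap A.subtype y ∈ F := by rw [hy]; exact (a : ↥F).2
  have hzF : coeffMap A.subtype z ∈ F := by rw [hz]; exact (b : ↥F).2
  have ea : (⟨coeffMap A.subtype y, hyF⟩ : ↥F) = (a : ↥F) := Subtype.ext hy
  have eb : (⟨coeffMap A.subtype z, hzF⟩ : ↥F) = (b : ↥F) := Subtype.ext hz
  refine ⟨c, y, z, hyF, hzF, hc, hyk, ?_, hzk, ?_, ?_⟩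
  · intro h0
    apply ha
    apply Subtype.ext
    rw [I.red_coe a y hy, h0]
    rfl
  · intro h0
    apply hb
    apply Subtype.ext
    rw [I.red_coe b z hz, h0]
    rfl
  · rw [ea, eb]
    exact hfab

/-- every element of `Ft` is a quotient of reductions of chart functions, from the lifting seam
(`gr_Lifts A π F Ft` of `DS/GR/Key.lean`, unfolded) and the levels. -/
theorem gef_Input.frac_red (I : gef_Input π F Ft E₀ π₀ x₀) (hL : I.chart.HasLevels)
    (hlift : ∀ g : ↥Ft, g ≠ 0 → ∃ ya yb : dsr_IntFun A π F Ft, dsr_red ya = g * dsr_red yb)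
    (f : ↥Ft) :
    ∃ b c : I.chart.B, I.chart.red c ≠ 0 ∧ f * I.chart.red c = I.chart.red b := by
  by_cases hf : f = 0
  · refine ⟨0, 1, ?_, ?_⟩
    · rw [map_one]; exact one_ne_zero
    · rw [hf, zero_mul, map_zero]
  obtain ⟨ya, yb, hyab⟩ := hlift f hf
  -- an integral function with nonzero reduction is a quotient of chart functions
  have key : ∀ y : dsr_IntFun A π F Ft, ∃ a b : I.chart.B, I.chart.red a ≠ 0 ∧ I.chart.red b ≠ 0 ∧
      dsr_red y * I.chart.red b = I.chart.red a := by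
    intro y
    obtain ⟨h, hred⟩ := gep_intRed_spec A π F Ft y.1 y.2.1 y.2.2.1
    have hne : gep_intRed A π F Ft ⟨_, h⟩ ≠ 0 := by
      rw [hred]
      exact dsr_red_ne_zero y
    obtain ⟨a, b, ha, hb, hab⟩ := rpc_exists_gauss_quot I.chart hL (gep_intSubring A π F Ft)
      (gep_intRed A π F Ft) I.B_le_int (fun _ => rfl) ⟨_, h⟩ hne
    refine ⟨a, b, ha, hb, ?_⟩
    have e : (⟨_, h⟩ : gep_intSubring A π F Ft) * ⟨(b : ↥F), I.B_le_int b.2⟩ =
        ⟨(a : ↥F), I.B_le_int a.2⟩ := Subtype.ext hab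
    have e2 := congrArg (gep_intRed A π F Ft) e
    rw [map_mul, hred] at e2
    exact e2
  obtain ⟨a, b, ha, hb, hab⟩ := key ya
  obtain ⟨a', b', ha', hb', hab'⟩ := key yb
  refine ⟨a * b', b * a', ?_, ?_⟩
  · rw [map_mul]; exact mul_ne_zero hb ha'
  · have hyb : dsr_red yb ≠ 0 := dsr_red_ne_zero yb
    rw [map_mul, map_mul, ← hab, ← hab', hyab]
    ring

/-- **GENERIC [E-FIN]**: node E for an arbitrary pair of `q`-expansion fields, from the base-level
packages of the two charts with coordinates `x₀`, `x₀⁻¹`; `hlift` is `gr_Lifts A π F Ft`. -/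
theorem gef_reductionInputs [CharZero Kb] [Algebra.IsAlgebraic K₀ Kb]
    (hF : rp_FunField Kb ↥F) (hFt : rp_FunField k ↥Ft)
    (hlift : ∀ g : ↥Ft, g ≠ 0 → ∃ ya yb : dsr_IntFun A π F Ft, dsr_red ya = g * dsr_red yb)
    (I1 : gef_Input π F Ft E₀ π₀ x₀) (I2 : gef_Input π F Ft E₀ π₀ x₀⁻¹) :
    dsr_ReductionInputs A π F Ft := by
  have hL1 := I1.hasLevels hF
  have hL2 := I2.hasLevels hF
  have hx2 : (gef_beta E₀ F I1.hEF x₀)⁻¹ ∈ I2.chart.B := by
    rw [← map_inv₀]
    exact I2.x_mem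
  have hx0 : gef_beta E₀ F I1.hEF x₀ ≠ 0 := by
    intro h
    exact I1.x_ne (gef_beta_injective E₀ F I1.hEF (by rw [h, map_zero]))
  have hint2 : ∀ b ∈ I2.chart.B, IsIntegral (gef_ring A (gef_beta E₀ F I1.hEF x₀)⁻¹) b := by
    intro b hb
    have := I2.integral b hb
    rw [map_inv₀] at this
    exact this
  refine gep_reductionInputs hF hL1 (I1.redRegular (I1.frac_red hL1 hlift)) hL2
    (I2.redRegular (I2.frac_red hL2 hlift))
    (rpe_glue hL1 hL2 (gep_intSubring A π F Ft) (gep_intRed A π F Ft) (gef_beta E₀ F I1.hEF x₀)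
      I1.B_le_int I2.B_le_int (fun _ => rfl) (fun _ => rfl) I1.x_mem hx2 hx0
      (fun P h => rpm_inChart_of_isIntegral I1.chart _ I1.integral hF P h)
      (fun P h => rpm_inChart_of_isIntegral I2.chart _ hint2 hF P h)
      (fun Q h => rpm_finRed_of_isIntegral I1.chart I1.x_mem I1.integral Q h)
      (fun Q h => rpm_finRed_of_isIntegral I2.chart hx2 hint2 Q h))
    (rpg_deg_eq_one_of_funField hFt) (gep_intRed_spec A π F Ft) (gef_hgen I1 hL1)

end Main

end Fermat.Agent.DS
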