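/-
DS-T, cell [GE] (node-E twin), file 5: the INSTANCE for the family `gr_F G` at the cyclotomic base
level `(K₀, O₀) = (ebf_K0 ℓ, A ∩ K₀)`, uniformiser `ℓ`.

`G ⊆ ℤ((q))` a finite set of integral `q`-series containing `j`, integral over `ℚ[j]`-fractions
(`gr_A1Q G`); `A` a valuation subring of `Q̄` over `ℓ`.

* `gei_funField_bar`, `gei_funField_red` : `rp_FunField` for `gr_F G Q̄` and `gr_F G k_A`, from (A1)
  alone (MacLane in characteristic `ℓ`: helper7's `gr_cr_isSepGen_int`);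
* `gei_input`, `gei_input_inv` : the inputs `gef_Input` of the two charts `x₀ = j, j⁻¹`;
* **`gei_nodeE`** : (RG) at the base level + the two base-level packages `rpn_Level0` ⟹
  `dsr_ReductionInputs A (residue A) (gr_F G Q̄) (gr_F G k_A)`.
Prefix `gei_`.
-/
import Mathlib
import Fermat.Agent.DS.GE.FinMain
import Fermat.Agent.DS.GR.Finite
import Fermat.Agent.DS.GR.ConstRed
import Fermat.Agent.DS.GR.FamilyLift
import Fermat.Agent.JT3.PlaceMap.BaseField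
import Fermat.Agent.JT3.PlaceMap.FunField

set_option autoImplicit false
set_option linter.unusedSectionVars false
set_option linter.style.haveILetI false
set_option linter.style.longLine false

open AlgebraicCurve Polynomial ModularCurve IsLocalRing IntermediateField

namespace Fermat.Agent.DS

open Fermat.Agent.JT3 Fermat.Agent.S24

section Inst

variable (G : Set (LaurentSeries ℤ))

/-- `j` as an element of the member `gr_F G L` of the family (defeq to `gr_jG`, `ge_jF`,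
`gr_jF`). -/
noncomputable def gei_j (hjG : jqModC ℤ ∈ G) (L : Type*) [Field L] : ↥(gr_F G L) :=
  ⟨jqModC L, (gr_cr_hasJ G hjG L).mem⟩

theorem gei_coe_j (hjG : jqModC ℤ ∈ G) (L : Type*) [Field L] :
    ((gei_j G hjG L : ↥(gr_F G L)) : LaurentSeries L) = jqModC L := rfl

theorem gei_j_ne_zero (hjG : jqModC ℤ ∈ G) (L : Type*) [Field L] : gei_j G hjG L ≠ 0 := by
  intro h
  exact jqModC_ne_zero_of_nontrivial L (congrArg Subtype.val h)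

variable {G}

theorem gei_isAlgebraic (hG : gr_A1Q G) :
    ∀ g ∈ G, IsAlgebraic ℚ⟮jqModC ℚ⟯ (coeffMap (Int.castRingHom ℚ) g) :=
  fun g hg => (hG.2 g hg).isAlgebraic

/-- the function-field package of `gr_F G Q̄`. -/
theorem gei_funField_bar (hG : gr_A1Q G) (hjG : jqModC ℤ ∈ G) :
    rp_FunField Kbar ↥(gr_F G Kbar) :=
  rpf_funField (gr_cr_isSepGen_int_charZero G hG.1 hjG (gei_isAlgebraic hG))

/-- the function-field package of the reduced field `gr_F G k_A`. -/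
theorem gei_funField_red (hG : gr_A1Q G) (hjG : jqModC ℤ ∈ G) {ℓ : ℕ} [Fact ℓ.Prime]
    (A : ValuationSubring Kbar) (hA : A.LiesOverPrime ℓ) :
    rp_FunField (ResidueField A) ↥(gr_F G (ResidueField A)) := by
  haveI := jcr_charP A hA
  haveI := jcr_isAlgClosed A
  exact rpf_funField (gr_cr_isSepGen_int (ℓ := ℓ) G hG.1 hjG (gei_isAlgebraic hG))

end Inst

/-! ### the inputs of the two charts at the cyclotomic base level -/

section Input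

variable {G}
variable {ℓ : ℕ} [Fact ℓ.Prime] (A : ValuationSubring Kbar)
variable [IsDiscreteValuationRing ↥(A.comap (algebraMap ↥(ebf_K0 ℓ) Kbar))]

/-- the residue fields of `A ∩ K₀` and of `A` agree. -/
theorem gei_res (hA : A.LiesOverPrime ℓ) (a : A) :
    ∃ o ∈ gef_O ↥(ebf_K0 ℓ) A, (a : Kbar) - o ∈ A.nonunits := by
  obtain ⟨o, ho, hoK, hres⟩ := ebf_residue_repr A ℓ hA a
  refine ⟨o, ⟨⟨o, hoK⟩, ho, rfl⟩, ?_⟩
  rw [ValuationSubring.mem_nonunits_iff_exists_mem_maximalIdeal]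
  refine ⟨sub_mem a.2 ho, ?_⟩
  rw [← IsLocalRing.residue_eq_zero_iff]
  have : (⟨(a : Kbar) - o, sub_mem a.2 ho⟩ : A) = a - ⟨o, ho⟩ := rfl
  rw [this, map_sub, hres, sub_self]

/-- every function of the base-level field is a quotient of chart functions. -/
theorem gei_frac₀ (hG : gr_A1Q G) (hjG : jqModC ℤ ∈ G) (x : ↥(gr_F G ↥(ebf_K0 ℓ)))
    (hx : x = gei_j G hjG ↥(ebf_K0 ℓ) ∨ x = (gei_j G hjG ↥(ebf_K0 ℓ))⁻¹)
    (e : ↥(gr_F G ↥(ebf_K0 ℓ))) :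
    ∃ b c : ↥(gr_F G ↥(ebf_K0 ℓ)),
      b ∈ fc_chart ↥(A.comap (algebraMap ↥(ebf_K0 ℓ) Kbar)) ({x} : Set ↥(gr_F G ↥(ebf_K0 ℓ))) ∧
      c ∈ fc_chart ↥(A.comap (algebraMap ↥(ebf_K0 ℓ) Kbar)) ({x} : Set ↥(gr_F G ↥(ebf_K0 ℓ))) ∧
      c ≠ 0 ∧ e = b / c := by
  haveI := gr_cr_hasJ G hjG ↥(ebf_K0 ℓ)
  haveI h1 : FiniteDimensional (↥(ebf_K0 ℓ))⟮(gei_j G hjG ↥(ebf_K0 ℓ) : ↥(gr_F G ↥(ebf_K0 ℓ)))⟯
      ↥(gr_F G ↥(ebf_K0 ℓ)) :=
    grf_level_finite (gr_F G ↥(ebf_K0 ℓ)) (gr_A1_family G hG ↥(ebf_K0 ℓ))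
  haveI h2 : FiniteDimensional (↥(ebf_K0 ℓ))⟮x⟯ ↥(gr_F G ↥(ebf_K0 ℓ)) := by
    rcases hx with rfl | rfl
    · exact h1
    · rw [rt_adjoin_inv]; exact h1
  haveI : IsScalarTower ↥(A.comap (algebraMap ↥(ebf_K0 ℓ) Kbar)) ↥(ebf_K0 ℓ)
      ↥(gr_F G ↥(ebf_K0 ℓ)) := IsScalarTower.of_algebraMap_eq fun _ => rfl
  haveI halg : Algebra.IsAlgebraic
      ↥(Algebra.adjoin ↥(A.comap (algebraMap ↥(ebf_K0 ℓ) Kbar))
        ({x} : Set ↥(gr_F G ↥(ebf_K0 ℓ)))) ↥(gr_F G ↥(ebf_K0 ℓ)) :=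
    fc_ff_isAlgebraic (L := ↥(ebf_K0 ℓ)) x
  obtain ⟨b, c, hc, hbc⟩ := IsFractionRing.div_surjective
    (A := ↥(fc_chart ↥(A.comap (algebraMap ↥(ebf_K0 ℓ) Kbar))
      ({x} : Set ↥(gr_F G ↥(ebf_K0 ℓ))))) e
  refine ⟨b, c, b.2, c.2, ?_, hbc.symm⟩
  intro h0
  exact nonZeroDivisors.ne_zero hc (Subtype.ext h0)

end Input

/-! ### the two inputs and node E -/

section NodeE

variable {G}
variable {ℓ : ℕ} [Fact ℓ.Prime] (A : ValuationSubring Kbar)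
variable [IsDiscreteValuationRing ↥(A.comap (algebraMap ↥(ebf_K0 ℓ) Kbar))]

/-- `F̄ = Q̄(G)` is generated by the base change of the base-level field. -/
theorem gei_hFE (f : ↥(gr_F G Kbar)) : (f : LaurentSeries Kbar) ∈
    IntermediateField.adjoin Kbar (coeffMap (algebraMap ↥(ebf_K0 ℓ) Kbar) ''
      ((gr_F G ↥(ebf_K0 ℓ) : IntermediateField ↥(ebf_K0 ℓ) (LaurentSeries ↥(ebf_K0 ℓ))) :
        Set (LaurentSeries ↥(ebf_K0 ℓ)))) := by
  have hle : gr_F G Kbar ≤ IntermediateField.adjoin Kbar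
      (coeffMap (algebraMap ↥(ebf_K0 ℓ) Kbar) ''
        ((gr_F G ↥(ebf_K0 ℓ) : IntermediateField ↥(ebf_K0 ℓ) (LaurentSeries ↥(ebf_K0 ℓ))) :
          Set (LaurentSeries ↥(ebf_K0 ℓ)))) := by
    rw [gr_F, IntermediateField.adjoin_le_iff]
    rintro _ ⟨g, hg, rfl⟩
    apply IntermediateField.subset_adjoin
    refine ⟨coeffMap (Int.castRingHom ↥(ebf_K0 ℓ)) g, gr_gen_mem G _ hg, ?_⟩
    exact gr_coeffMap_intCast _ g
  exact hle f.2

/-- **the input of a chart of the family** at the cyclotomic base level, from its base-level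
package, (RG) and an integral `q`-expansion of the coordinate with transcendental reduction. -/
theorem gei_input (hG : gr_A1Q G) (hjG : jqModC ℤ ∈ G) (hA : A.LiesOverPrime ℓ)
    (x : ↥(gr_F G ↥(ebf_K0 ℓ)))
    (hx : x = gei_j G hjG ↥(ebf_K0 ℓ) ∨ x = (gei_j G hjG ↥(ebf_K0 ℓ))⁻¹)
    (H : rpn_Level0 (gr_F G ↥(ebf_K0 ℓ))
      ((ℓ : ℕ) : ↥(A.comap (algebraMap ↥(ebf_K0 ℓ) Kbar))) x)
    (hRG : ∀ b ∈ fc_chart ↥(A.comap (algebraMap ↥(ebf_K0 ℓ) Kbar))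
        ({x} : Set ↥(gr_F G ↥(ebf_K0 ℓ))),
      ∀ w : LaurentSeries ↥(A.comap (algebraMap ↥(ebf_K0 ℓ) Kbar)),
        coeffMap (algebraMap ↥(A.comap (algebraMap ↥(ebf_K0 ℓ) Kbar)) ↥(ebf_K0 ℓ)) w =
          (b : LaurentSeries ↥(ebf_K0 ℓ)) →
        coeffMap (gef_rho (K₀ := ↥(ebf_K0 ℓ)) (IsLocalRing.residue A)) w ∈
          gr_F G (ResidueField A))
    (hlift : ∃ y : LaurentSeries ↥(A.comap (algebraMap ↥(ebf_K0 ℓ) Kbar)),
      coeffMap (algebraMap ↥(A.comap (algebraMap ↥(ebf_K0 ℓ) Kbar)) ↥(ebf_K0 ℓ)) y =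
        (x : LaurentSeries ↥(ebf_K0 ℓ)) ∧
      Transcendental (ResidueField A)
        (coeffMap (gef_rho (K₀ := ↥(ebf_K0 ℓ)) (IsLocalRing.residue A)) y)) :
    gef_Input (IsLocalRing.residue A) (gr_F G Kbar) (gr_F G (ResidueField A))
      (gr_F G ↥(ebf_K0 ℓ)) ((ℓ : ℕ) : ↥(A.comap (algebraMap ↥(ebf_K0 ℓ) Kbar))) x where
  surj := IsLocalRing.residue_surjective
  hEF := fun _ hx => gr_coeffMap_mem G (algebraMap ↥(ebf_K0 ℓ) Kbar) hx
  hFE := gei_hFE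
  irr := ebf_irreducible A ℓ hA
  res := gei_res A hA
  x_ne := by
    rcases hx with rfl | rfl
    · exact gei_j_ne_zero G hjG _
    · exact inv_ne_zero (gei_j_ne_zero G hjG _)
  lvl := H
  frac₀ := gei_frac₀ A hG hjG x hx
  rg := hRG
  x_lift := hlift

omit [IsDiscreteValuationRing ↥(A.comap (algebraMap ↥(ebf_K0 ℓ) Kbar))] in
/-- the integral `q`-expansion of `j`, with transcendental reduction. -/
theorem gei_lift_j (hjG : jqModC ℤ ∈ G) :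
    ∃ y : LaurentSeries ↥(A.comap (algebraMap ↥(ebf_K0 ℓ) Kbar)),
      coeffMap (algebraMap ↥(A.comap (algebraMap ↥(ebf_K0 ℓ) Kbar)) ↥(ebf_K0 ℓ)) y =
        ((gei_j G hjG ↥(ebf_K0 ℓ) : ↥(gr_F G ↥(ebf_K0 ℓ))) : LaurentSeries ↥(ebf_K0 ℓ)) ∧
      Transcendental (ResidueField A)
        (coeffMap (gef_rho (K₀ := ↥(ebf_K0 ℓ)) (IsLocalRing.residue A)) y) := by
  refine ⟨jqModC _, ?_, ?_⟩
  · rw [coeffMap_jqModC]; rfl
  · rw [coeffMap_jqModC]; exact vx_transcendental_jq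

omit [IsDiscreteValuationRing ↥(A.comap (algebraMap ↥(ebf_K0 ℓ) Kbar))] in
/-- the integral `q`-expansion of `j⁻¹`, with transcendental reduction. -/
theorem gei_lift_jinv (hjG : jqModC ℤ ∈ G) :
    ∃ y : LaurentSeries ↥(A.comap (algebraMap ↥(ebf_K0 ℓ) Kbar)),
      coeffMap (algebraMap ↥(A.comap (algebraMap ↥(ebf_K0 ℓ) Kbar)) ↥(ebf_K0 ℓ)) y =
        (((gei_j G hjG ↥(ebf_K0 ℓ))⁻¹ : ↥(gr_F G ↥(ebf_K0 ℓ))) : LaurentSeries ↥(ebf_K0 ℓ)) ∧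
      Transcendental (ResidueField A)
        (coeffMap (gef_rho (K₀ := ↥(ebf_K0 ℓ)) (IsLocalRing.residue A)) y) := by
  refine ⟨rpm_jinv _, ?_, ?_⟩
  · rw [rpm_coeffMap_jinv, IntermediateField.coe_inv]; rfl
  · rw [rpm_coeffMap_jinv]
    intro halg
    exact vx_transcendental_jq (IsAlgebraic.inv_iff.mp halg)

/-- **NODE E for the family `gr_F G`**, from (A1) over `ℚ`, the two base-level packages at the
cyclotomic level and (RG) for the two charts. -/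
theorem gei_nodeE_charts (hG : gr_A1Q G) (hjG : jqModC ℤ ∈ G) (hA : A.LiesOverPrime ℓ)
    (H1 : rpn_Level0 (gr_F G ↥(ebf_K0 ℓ))
      ((ℓ : ℕ) : ↥(A.comap (algebraMap ↥(ebf_K0 ℓ) Kbar))) (gei_j G hjG ↥(ebf_K0 ℓ)))
    (H2 : rpn_Level0 (gr_F G ↥(ebf_K0 ℓ))
      ((ℓ : ℕ) : ↥(A.comap (algebraMap ↥(ebf_K0 ℓ) Kbar))) (gei_j G hjG ↥(ebf_K0 ℓ))⁻¹)
    (hRG : ∀ x : ↥(gr_F G ↥(ebf_K0 ℓ)),
      ∀ b ∈ fc_chart ↥(A.comap (algebraMap ↥(ebf_K0 ℓ) Kbar))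
        ({x} : Set ↥(gr_F G ↥(ebf_K0 ℓ))),
      ∀ w : LaurentSeries ↥(A.comap (algebraMap ↥(ebf_K0 ℓ) Kbar)),
        coeffMap (algebraMap ↥(A.comap (algebraMap ↥(ebf_K0 ℓ) Kbar)) ↥(ebf_K0 ℓ)) w =
          (b : LaurentSeries ↥(ebf_K0 ℓ)) →
        coeffMap (gef_rho (K₀ := ↥(ebf_K0 ℓ)) (IsLocalRing.residue A)) w ∈
          gr_F G (ResidueField A)) :
    dsr_ReductionInputs A (IsLocalRing.residue A) (gr_F G Kbar) (gr_F G (ResidueField A)) := by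
  haveI : Algebra.IsAlgebraic ℚ Kbar := AlgebraicClosure.isAlgebraic ℚ
  haveI : Algebra.IsAlgebraic ↥(ebf_K0 ℓ) Kbar :=
    Algebra.IsAlgebraic.tower_top (K := ℚ) ↥(ebf_K0 ℓ)
  exact gef_reductionInputs (gei_funField_bar hG hjG) (gei_funField_red hG hjG A hA)
    (gr_lifts G IsLocalRing.residue_surjective)
    (gei_input A hG hjG hA _ (Or.inl rfl) H1 (hRG _) (gei_lift_j A hjG))
    (gei_input A hG hjG hA _ (Or.inr rfl) H2 (hRG _) (gei_lift_jinv A hjG))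

/-- **NODE E for the family `gr_F G`**, (RG) in the field form: the Gauss residue of every bounded
function of the base-level field lies in `gr_F G k₀`. -/
theorem gei_nodeE (hG : gr_A1Q G) (hjG : jqModC ℤ ∈ G) (hA : A.LiesOverPrime ℓ)
    (H1 : rpn_Level0 (gr_F G ↥(ebf_K0 ℓ))
      ((ℓ : ℕ) : ↥(A.comap (algebraMap ↥(ebf_K0 ℓ) Kbar))) (gei_j G hjG ↥(ebf_K0 ℓ)))
    (H2 : rpn_Level0 (gr_F G ↥(ebf_K0 ℓ))
      ((ℓ : ℕ) : ↥(A.comap (algebraMap ↥(ebf_K0 ℓ) Kbar))) (gei_j G hjG ↥(ebf_K0 ℓ))⁻¹)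
    (hRG : ∀ z : LaurentSeries ↥(ebf_K0 ℓ), z ∈ gr_F G ↥(ebf_K0 ℓ) →
      ∀ hz : gq_IsBdd ↥(A.comap (algebraMap ↥(ebf_K0 ℓ) Kbar)) ↥(ebf_K0 ℓ) z,
        gq_res ↥(A.comap (algebraMap ↥(ebf_K0 ℓ) Kbar)) ↥(ebf_K0 ℓ) ⟨z, hz⟩ ∈
          gr_F G (ResidueField ↥(A.comap (algebraMap ↥(ebf_K0 ℓ) Kbar)))) :
    dsr_ReductionInputs A (IsLocalRing.residue A) (gr_F G Kbar) (gr_F G (ResidueField A)) := by
  refine gei_nodeE_charts A hG hjG hA H1 H2 ?_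
  intro x b hb w hw
  have h1 := hRG (b : LaurentSeries ↥(ebf_K0 ℓ)) b.2 (by rw [← hw]; exact gq_isBdd_iota w)
  rw [gq_res_of_eq_iota _ w hw.symm] at h1
  have h2 := gr_coeffMap_mem G
    (ResidueField.map (gq_bc_comapHom (L := ↥(ebf_K0 ℓ)) A)) h1
  have e : coeffMap (ResidueField.map (gq_bc_comapHom (L := ↥(ebf_K0 ℓ)) A))
      (coeffMap (residue ↥(A.comap (algebraMap ↥(ebf_K0 ℓ) Kbar))) w) =
      coeffMap (gef_rho (K₀ := ↥(ebf_K0 ℓ)) (IsLocalRing.residue A)) w := by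
    rw [coeffMap_coeffMap]
    rfl
  rw [← e]
  exact h2

end NodeE

end Fermat.Agent.DS
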