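/-
DS-T, cell [GE] (node-E twin), file 9: NODE E FROM "REDUCTIONS GENERATE" AT THE ONE BASE LEVEL.

`ge_nodeE` takes `hred` : the reduction of EVERY `A`-integral `q`-expansion of `Fb ⊆ Q̄((q))` lies in
`Ft`.  Such a `q`-expansion has infinitely many coefficients and does not come from one fixed DVR
level, whereas the natural statement of the vertical cell [GV] lives at a DVR level `(L, O)`:
"the residue of every bounded element of `F0` lies in `Ft`".  Here:

* `ge_RG A F0 Ft` : **(RG) at the base level** `(L, O₀ = A ∩ L)` : the reduction modulo `𝔪_A` of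
  every `O₀`-integral `q`-expansion of `F0` lies in `Ft`;
* `ge_goodGens_RG`, `ge_chart_RG` : the charts of the model only need (RG) (it is used for the finitely
  many generators of the base chart);
* **`ge_hred_of_RG`** : (RG) + the hypotheses of node E ⟹ the full `hred` (Gauss factorisation
  `ge_hgen` + `ge_mem_int_of_hgen`);
* **`ge_nodeE_RG`**, `ge_nodeE_RG_family` : node E with `hred` replaced by (RG);
* `ge_RG_of_resField` : (RG) from the DVR-level form `gvs_resField F0 ≤ Ft₀` of `DS/GR/VertRes.lean`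
  and `coeffMap ι '' Ft₀ ⊆ Ft` (`ι : k₀ → k_A` the map of residue fields).
Prefix `ge_`.
-/
import Mathlib
import Fermat.Agent.DS.GE.NodeE
import Fermat.Agent.DS.GR.VertRes

set_option autoImplicit false
set_option linter.unusedSectionVars false
set_option linter.style.haveILetI false

namespace Fermat.Agent.DS

open AlgebraicCurve Polynomial ModularCurve Fermat.Agent.JT3 Fermat.Agent.S24 IntermediateField

attribute [local instance] Fermat.Agent.DS.ge_instAlgSubring Fermat.Agent.DS.ge_instAlgFt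
  Fermat.Agent.DS.ge_instAlgF
set_option synthInstance.maxHeartbeats 400000

section RG

variable (A : ValuationSubring Kbar)
  {L : Type*} [Field L] [Algebra ℚ L] [Algebra L Kbar] [IsScalarTower ℚ L Kbar]
  (F0 : IntermediateField L (LaurentSeries L)) {Fb : IntermediateField Kbar (LaurentSeries Kbar)}
  (Ft : IntermediateField (IsLocalRing.ResidueField A)
    (LaurentSeries (IsLocalRing.ResidueField A)))

/-- **(RG) "reductions generate", at the base level `(L, O₀ = A ∩ L)`**: the reduction modulo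
`𝔪_A` of every `O₀`-integral `q`-expansion of `F0` lies in `Ft`. -/
def ge_RG : Prop :=
  ∀ w₀ : LaurentSeries ↥(rpz_O0 A L), coeffMap (rpz_O0 A L).subtype w₀ ∈ F0 →
    coeffMap (IsLocalRing.residue A) (coeffMap (dsc_incl Kbar A L) w₀) ∈ Ft

variable {F0}
variable (hBC : ge_BaseChange F0 Fb)

/-- **the generators of the base level are good generators of a chart over `A`**, from (RG). -/
theorem ge_goodGens_RG (hRG : ge_RG A F0 Ft)
    {π : ↥(rpz_O0 A L)} {x : ↥F0} (H : ge_Level0 (rpz_O0 A L) F0 π x)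
    {G₀ : Finset ↥F0}
    (hG₀ : Algebra.adjoin ↥(rpz_O0 A L) (G₀ : Set ↥F0) =
      fc_chart ↥(rpz_O0 A L) ({x} : Set ↥F0))
    (halg : Algebra.IsAlgebraic ↥(Algebra.adjoin ↥(rpz_O0 A L) ({x} : Set ↥F0)) ↥F0) :
    ge_GoodGens A Fb Ft (ge_S F0) (ge_beta hBC x) (ge_bgens hBC G₀ : Set ↥Fb) where
  mem_int := by
    intro g hg
    rw [ge_coe_bgens] at hg
    obtain ⟨g₀, hg₀, rfl⟩ := hg
    obtain ⟨w₀, hw₀, hw⟩ := ge_lift A hBC H (ge_subset_chart A hG₀ hg₀)
    exact ⟨_, hw, hRG w₀ (by rw [hw₀]; exact g₀.2)⟩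
  integral := by
    intro g hg
    rw [ge_coe_bgens] at hg
    obtain ⟨g₀, hg₀, rfl⟩ := hg
    exact ge_isIntegral_beta A hBC (ge_subset_chart A hG₀ hg₀)
  x_mem := ge_genRing_le A _ (ge_beta_mem_genRing A hBC hG₀ (ge_x_mem_chart A x))
  frac := by
    intro g hg
    obtain ⟨y, hy, hgy⟩ := hg
    have hg' : g = ge_beta hBC ⟨y, hy⟩ := Subtype.ext hgy.symm
    obtain ⟨b, c, hb, hc, hc0, hf⟩ := ge_exists_div A halg ⟨y, hy⟩
    rw [hg', hf, map_div₀]
    exact div_mem
      (Subfield.subset_closure (ge_genRing_le A _ (ge_beta_mem_genRing A hBC hG₀ hb)))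
      (Subfield.subset_closure (ge_genRing_le A _ (ge_beta_mem_genRing A hBC hG₀ hc)))

/-- **one chart of the model over `A`** from a chart at the DVR level `(L, A ∩ L)`, from (RG). -/
theorem ge_chart_RG (hFb : rp_FunField Kbar ↥Fb) (hRG : ge_RG A F0 Ft)
    (hlift : ge_Lifts A Fb Ft)
    [IsDiscreteValuationRing ↥(rpz_O0 A L)] {π : ↥(rpz_O0 A L)} (hπ : Irreducible π)
    (hres : ∀ a : A, ∃ c : L, algebraMap L Kbar c ∈ A ∧
      (a : Kbar) - algebraMap L Kbar c ∈ A.nonunits)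
    {x : ↥F0} (H : ge_Level0 (rpz_O0 A L) F0 π x)
    (halg : Algebra.IsAlgebraic ↥(Algebra.adjoin ↥(rpz_O0 A L) ({x} : Set ↥F0)) ↥F0)
    {X : ↥Fb} (hX : ge_beta hBC x = X)
    (hXint : X ∈ ge_intSubring A (IsLocalRing.residue A) Fb Ft)
    (htr : Transcendental (IsLocalRing.ResidueField A)
      (ge_intRed A (IsLocalRing.residue A) Fb Ft ⟨X, hXint⟩)) :
    ∃ (gens : Set ↥Fb) (hGG : ge_GoodGens A Fb Ft (ge_S F0) X gens),
      Nonempty (rp_Base (ge_dataGen A Fb Ft (ge_S F0) hBC.gen X gens hGG).chart) ∧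
        (ge_dataGen A Fb Ft (ge_S F0) hBC.gen X gens hGG).chart.RedRegular := by
  subst hX
  obtain ⟨G₀, hG₀⟩ := H.fg
  have hGG := ge_goodGens_RG A Ft hBC hRG H hG₀ halg
  refine ⟨(ge_bgens hBC G₀ : Set ↥Fb), hGG, ⟨ge_base A Ft hBC hπ hres H hG₀ hGG⟩, ?_⟩
  set D := ge_dataGen A Fb Ft (ge_S F0) hBC.gen (ge_beta hBC x) (ge_bgens hBC G₀ : Set ↥Fb) hGG
    with hD
  have hL : D.chart.HasLevels := rpu_hasLevels hFb (ge_base A Ft hBC hπ hres H hG₀ hGG)
  have hπm : π ∈ IsLocalRing.maximalIdeal ↥(rpz_O0 A L) := by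
    rw [IsLocalRing.mem_maximalIdeal]
    exact hπ.not_isUnit
  haveI : IsDedekindDomain ↥(rpz_D D.chart) := ge_isDedekindDomain A Ft hBC hπm hres H hG₀ hGG
  haveI : IsFractionRing ↥(rpz_D D.chart) ↥Ft := ge_isFractionRing A Fb Ft hlift D hL
  have hnf : ¬ IsField ↥(rpz_D D.chart) :=
    rpz_not_isField D.chart D.x_mem D.integral htr
  exact rpd_redRegular D.chart ↥(rpz_D D.chart) hnf (rpz_rho D.chart)
    (rpz_rho_surjective D.chart) (rpz_rho_spec D.chart)

end RG

section NodeE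

variable (A : ValuationSubring Kbar)
  {L : Type*} [Field L] [Algebra ℚ L] [Algebra L Kbar] [IsScalarTower ℚ L Kbar]
  (F0 : IntermediateField L (LaurentSeries L)) (Fb : IntermediateField Kbar (LaurentSeries Kbar))
  (Ft : IntermediateField (IsLocalRing.ResidueField A)
    (LaurentSeries (IsLocalRing.ResidueField A)))
  [gr_HasJ F0] [gr_HasJ Fb] [gr_HasJ Ft]

/-- `j ∈ Fb` is `q`-integral with reduction `j̃ ∈ Ft`: no `hred` needed. -/
theorem ge_j_mem_int' : ge_jF Fb ∈ ge_intSubring A (IsLocalRing.residue A) Fb Ft :=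
  ge_j_mem_int A Fb Ft

/-- **(RG) at one base level ⟹ the full `hred`**: the reduction of every `A`-integral
`q`-expansion of `Fb` lies in `Ft`. -/
theorem ge_hred_of_RG (hBC : ge_BaseChange F0 Fb) (hFb : rp_FunField Kbar ↥Fb)
    (hRG : ge_RG A F0 Ft)
    (hlift : gr_Lifts A (IsLocalRing.residue A) Fb Ft)
    [FiniteDimensional L⟮(ge_jF F0 : ↥F0)⟯ ↥F0]
    [IsDiscreteValuationRing ↥(A.comap (algebraMap L Kbar))]
    {π : ↥(A.comap (algebraMap L Kbar))} (hπ : Irreducible π)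
    (hres : ∀ a : A, ∃ c : L, algebraMap L Kbar c ∈ A ∧
      (a : Kbar) - algebraMap L Kbar c ∈ A.nonunits)
    (H1 : rpn_Level0 F0 π (ge_jF F0)) :
    ∀ y : LaurentSeries A, coeffMap A.subtype y ∈ Fb →
      coeffMap (IsLocalRing.residue A) y ∈ Ft := by
  haveI : CharZero L := algebraRat.charZero L
  haveI : IsFractionRing ↥(rpz_O0 A L) L := inferInstance
  haveI : IsScalarTower ↥(rpz_O0 A L) L ↥F0 := IsScalarTower.of_algebraMap_eq fun _ => rfl
  have halg1 : Algebra.IsAlgebraic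
      ↥(Algebra.adjoin ↥(rpz_O0 A L) ({ge_jF F0} : Set ↥F0)) ↥F0 :=
    fc_ff_isAlgebraic (L := L) (ge_jF F0)
  obtain ⟨gens₁, h₁, ⟨Bs1⟩, -⟩ := ge_chart_RG A Ft hBC hFb hRG (ge_lifts_of_gr A Fb Ft hlift)
    hπ hres (ge_level0_of_rpn (A.comap (algebraMap L Kbar)) F0 H1) halg1
    (ge_beta_jF hBC) (ge_j_mem_int A Fb Ft) (ge_red_j_transcendental A Fb Ft)
  intro y hy
  have hmem := ge_mem_int_of_hgen A Fb Ft
    (ge_hgen A Fb Ft _ (rpu_hasLevels hFb Bs1)) ⟨coeffMap A.subtype y, hy⟩ y rfl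
  obtain ⟨w, hw, hwk⟩ := hmem
  have : w = y := dsr_coeffMap_subtype_injective hw
  rwa [this] at hwk

/-- **[GE] NODE E from (RG) at the base level** (instead of `hred`). -/
theorem ge_nodeE_RG (hBC : ge_BaseChange F0 Fb) (hFb : rp_FunField Kbar ↥Fb)
    (hFt : rp_FunField (IsLocalRing.ResidueField A) ↥Ft)
    (hRG : ge_RG A F0 Ft)
    (hlift : gr_Lifts A (IsLocalRing.residue A) Fb Ft)
    [FiniteDimensional L⟮(ge_jF F0 : ↥F0)⟯ ↥F0]
    [IsDiscreteValuationRing ↥(A.comap (algebraMap L Kbar))]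
    {π : ↥(A.comap (algebraMap L Kbar))} (hπ : Irreducible π)
    (hres : ∀ a : A, ∃ c : L, algebraMap L Kbar c ∈ A ∧
      (a : Kbar) - algebraMap L Kbar c ∈ A.nonunits)
    (H1 : rpn_Level0 F0 π (ge_jF F0)) (H2 : rpn_Level0 F0 π (ge_jF F0)⁻¹) :
    dsr_ReductionInputs A (IsLocalRing.residue A) Fb Ft :=
  ge_nodeE A F0 Fb Ft hBC hFb hFt
    (ge_hred_of_RG A F0 Fb Ft hBC hFb hRG hlift hπ hres H1) hlift hπ hres H1 H2

end NodeE

section Family

variable (G : Set (LaurentSeries ℤ))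
  (L : Type*) [Field L] [Algebra ℚ L] [Algebra L Kbar] [IsScalarTower ℚ L Kbar]

/-- **the full `hred` for the family `gr_F G` from (RG) at one base level.** -/
theorem ge_hred_of_RG_family (hj : jqModC ℤ ∈ G) (A : ValuationSubring Kbar)
    (hFb : rp_FunField Kbar ↥(gr_F G Kbar))
    (hRG : ge_RG A (gr_F G L) (gr_F G (IsLocalRing.ResidueField A)))
    (hfin : haveI := ge_hasJ_family G hj L
      FiniteDimensional L⟮(ge_jF (gr_F G L) : ↥(gr_F G L))⟯ ↥(gr_F G L))
    [IsDiscreteValuationRing ↥(A.comap (algebraMap L Kbar))]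
    {π : ↥(A.comap (algebraMap L Kbar))} (hπ : Irreducible π)
    (hres : ∀ a : A, ∃ c : L, algebraMap L Kbar c ∈ A ∧
      (a : Kbar) - algebraMap L Kbar c ∈ A.nonunits)
    (H1 : haveI := ge_hasJ_family G hj L
      rpn_Level0 (gr_F G L) π (ge_jF (gr_F G L))) :
    ∀ y : LaurentSeries A, coeffMap A.subtype y ∈ gr_F G Kbar →
      coeffMap (IsLocalRing.residue A) y ∈ gr_F G (IsLocalRing.ResidueField A) := by
  haveI := ge_hasJ_family G hj L
  haveI := ge_hasJ_family G hj Kbar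
  haveI := ge_hasJ_family G hj (IsLocalRing.ResidueField A)
  haveI := hfin
  exact ge_hred_of_RG A (gr_F G L) (gr_F G Kbar) (gr_F G (IsLocalRing.ResidueField A))
    (ge_baseChange_family G L) hFb hRG (gr_lifts G IsLocalRing.residue_surjective) hπ hres H1

/-- **[GE] node E for the family `gr_F G` from (RG) at one base level.** -/
theorem ge_nodeE_RG_family (hj : jqModC ℤ ∈ G) (A : ValuationSubring Kbar)
    (hFb : rp_FunField Kbar ↥(gr_F G Kbar))
    (hFt : rp_FunField (IsLocalRing.ResidueField A) ↥(gr_F G (IsLocalRing.ResidueField A)))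
    (hRG : ge_RG A (gr_F G L) (gr_F G (IsLocalRing.ResidueField A)))
    (hfin : haveI := ge_hasJ_family G hj L
      FiniteDimensional L⟮(ge_jF (gr_F G L) : ↥(gr_F G L))⟯ ↥(gr_F G L))
    [IsDiscreteValuationRing ↥(A.comap (algebraMap L Kbar))]
    {π : ↥(A.comap (algebraMap L Kbar))} (hπ : Irreducible π)
    (hres : ∀ a : A, ∃ c : L, algebraMap L Kbar c ∈ A ∧
      (a : Kbar) - algebraMap L Kbar c ∈ A.nonunits)
    (H1 : haveI := ge_hasJ_family G hj L
      rpn_Level0 (gr_F G L) π (ge_jF (gr_F G L)))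
    (H2 : haveI := ge_hasJ_family G hj L
      rpn_Level0 (gr_F G L) π (ge_jF (gr_F G L))⁻¹) :
    dsr_ReductionInputs A (IsLocalRing.residue A) (gr_F G Kbar)
      (gr_F G (IsLocalRing.ResidueField A)) :=
  ge_nodeE_family G L hj A hFb hFt
    (ge_hred_of_RG_family G L hj A hFb hRG hfin hπ hres H1) hfin hπ hres H1 H2

end Family

end Fermat.Agent.DS

namespace Fermat.Agent.DS

open AlgebraicCurve Polynomial ModularCurve Fermat.Agent.JT3 Fermat.Agent.S24 IntermediateField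

section Bridge

variable (A : ValuationSubring Kbar)
  (L : Type*) [Field L] [Algebra ℚ L] [Algebra L Kbar] [IsScalarTower ℚ L Kbar]

instance ge_isLocalHom_incl : IsLocalHom (dsc_incl Kbar A L) :=
  ⟨fun x hx => (dsc_isUnit_incl_iff Kbar A L x).1 hx⟩

/-- the map of residue fields `k₀ = (A ∩ L)/𝔪 → k_A`. -/
noncomputable def ge_resMap :
    IsLocalRing.ResidueField ↥(rpz_O0 A L) →+* IsLocalRing.ResidueField A :=
  IsLocalRing.ResidueField.map (dsc_incl Kbar A L)

theorem ge_resMap_comp :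
    (ge_resMap A L).comp (IsLocalRing.residue ↥(rpz_O0 A L)) =
      (IsLocalRing.residue A).comp (dsc_incl Kbar A L) :=
  IsLocalRing.ResidueField.map_comp_residue _

variable {L}
variable (F0 : IntermediateField L (LaurentSeries L))
  (Ft : IntermediateField (IsLocalRing.ResidueField A)
    (LaurentSeries (IsLocalRing.ResidueField A)))

/-- **(RG) from the DVR-level form of the vertical cell** (`DS/GR/VertRes.lean`): the field of
residues of the bounded elements of `F0` lies in `Ft₀ ⊆ k₀((q))`, and `Ft₀` maps into `Ft`. -/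
theorem ge_RG_of_resField [IsDiscreteValuationRing ↥(rpz_O0 A L)]
    (ι : IsLocalRing.ResidueField ↥(rpz_O0 A L) →+* IsLocalRing.ResidueField A)
    (hι : ι.comp (IsLocalRing.residue ↥(rpz_O0 A L)) =
      (IsLocalRing.residue A).comp (dsc_incl Kbar A L))
    (Ft₀ : Subfield (LaurentSeries (IsLocalRing.ResidueField ↥(rpz_O0 A L))))
    (h0 : gvs_resField (O := ↥(rpz_O0 A L)) F0 ≤ Ft₀)
    (hmap : ∀ x ∈ Ft₀, coeffMap ι x ∈ Ft) : ge_RG A F0 Ft := by
  intro w₀ hw₀
  have hbdd : gq_IsBdd ↥(rpz_O0 A L) L (coeffMap (algebraMap ↥(rpz_O0 A L) L) w₀) :=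
    gq_isBdd_iota w₀
  have hres : gq_res ↥(rpz_O0 A L) L ⟨coeffMap (algebraMap ↥(rpz_O0 A L) L) w₀, hbdd⟩ =
      coeffMap (IsLocalRing.residue ↥(rpz_O0 A L)) w₀ :=
    gq_res_of_eq_iota _ w₀ rfl
  have hmem : coeffMap (IsLocalRing.residue ↥(rpz_O0 A L)) w₀ ∈ Ft₀ :=
    h0 ⟨⟨coeffMap (algebraMap ↥(rpz_O0 A L) L) w₀, hbdd⟩, hw₀, hres⟩
  have := hmap _ hmem
  rwa [coeffMap_coeffMap, hι, ← coeffMap_coeffMap] at this

end Bridge

section FamilyBridge

variable (G : Set (LaurentSeries ℤ)) (A : ValuationSubring Kbar)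
  (L : Type*) [Field L] [Algebra ℚ L] [Algebra L Kbar] [IsScalarTower ℚ L Kbar]

/-- **(RG) for the family `gr_F G`** from the DVR-level statement
`gvs_resField (gr_F G L) ≤ gr_F G k₀` (the output of [GV], `gvs_res_mem`). -/
theorem ge_RG_family [IsDiscreteValuationRing ↥(rpz_O0 A L)]
    (h0 : gvs_resField (O := ↥(rpz_O0 A L)) (gr_F G L) ≤
      (gr_F G (IsLocalRing.ResidueField ↥(rpz_O0 A L))).toSubfield) :
    ge_RG A (gr_F G L) (gr_F G (IsLocalRing.ResidueField A)) :=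
  ge_RG_of_resField A (gr_F G L) (gr_F G (IsLocalRing.ResidueField A)) (ge_resMap A L)
    (ge_resMap_comp A L) _ h0 (fun _ hx => gr_coeffMap_mem G (ge_resMap A L) hx)

end FamilyBridge

end Fermat.Agent.DS
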