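/-
DS-T, cell [GE] (node-E twin), file 10: NODE E AT THE BASE LEVEL `(K₀, O₀) = (ebf_K0 ℓ, A ∩ K₀)`
FOR THE FAMILY `gr_F G`, with EVERY input stated at that one DVR level or over `Q̄`:

  (A1)  `gr_A1Q G`                                   [finiteness over `ℚ(j)`]
  (R)   `rml_RamData Q̄ (j : gr_F G Q̄) M`, `ℓ ∤ M`    [ramification of `j` over `Q̄`]
  (V)   `gr_VertHyp O₀ (gr_F G K₀) ℓ λ` (`ℓ` odd) / `grs_VertHyp h3 O₀ (gr_F G K₀) ℓ μ` (`ℓ = 2`)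
  (RG)  `gvs_resField (gr_F G K₀) ≤ gr_F G k₀`       [residues of bounded functions; `gvs_res_mem`]
  `hFb`, `hFt` : the function-field packages of `gr_F G Q̄`, `gr_F G k_A`.

* `gew_hred_base` : the full `hred` of `ge_nodeE` ;
* **`gew_nodeE_base_RG`** : `dsr_ReductionInputs A (residue A) (gr_F G Q̄) (gr_F G k_A)` ;
* `gec_classGenerates_base_RG` : the class form (`h𝒞` of `dsh_transferC`);
* **`gew_E_family`**, `gec_classGenerates_E_family`, `gew_hred_E_family` : the same with `hFb`, `hFt`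
  discharged (helper10's `gei_funField_bar`, `gei_funField_red`: (A1) + MacLane): the inputs are
  (A1), (R), (V), (RG) ONLY.
Prefix `gew_` / `gec_`.
-/
import Mathlib
import Fermat.Agent.DS.GE.RG
import Fermat.Agent.DS.GE.ClassGenBase
import Fermat.Agent.DS.GE.Inst

set_option autoImplicit false
set_option linter.unusedSectionVars false
set_option linter.style.haveILetI false

noncomputable section

open Polynomial IntermediateField ModularCurve IsLocalRing AlgebraicCurve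

namespace Fermat.Agent.DS

open Fermat.Agent.JT3 Fermat.Agent.S24

local notation "Qb" => AlgebraicClosure ℚ

attribute [local instance] lgh_algKjK grh_algKjF2 grh_algKjE grh_algF2E grh_algKE
  hsh_algKjK grsh_algKjF3 grsh_algKjE grsh_algF3E grsh_algKE

attribute [local instance] Fermat.Agent.DS.ge_instAlgSubring Fermat.Agent.DS.ge_instAlgFt
  Fermat.Agent.DS.ge_instAlgF

variable (G : Set (LaurentSeries ℤ)) {ℓ : ℕ} [Fact ℓ.Prime]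
  (A : ValuationSubring Qb) (hA : A.LiesOverPrime ℓ)

include hA in
/-- the residue-field representatives at the base level. -/
theorem gew_base_hres : ∀ a : A, ∃ c : ↥(ebf_K0 ℓ), algebraMap ↥(ebf_K0 ℓ) Qb c ∈ A ∧
    (a : Qb) - algebraMap ↥(ebf_K0 ℓ) Qb c ∈ A.nonunits := by
  intro a
  obtain ⟨o, ho, hoK, hres⟩ := ebf_residue_repr A ℓ hA a
  refine ⟨⟨o, hoK⟩, ho, ?_⟩
  change (a : Qb) - o ∈ A.nonunits
  rw [ValuationSubring.mem_nonunits_iff_exists_mem_maximalIdeal]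
  refine ⟨sub_mem a.2 ho, ?_⟩
  rw [← IsLocalRing.residue_eq_zero_iff]
  have : (⟨(a : Qb) - o, sub_mem a.2 ho⟩ : A) = a - ⟨o, ho⟩ := rfl
  rw [this, map_sub, hres, sub_self]

set_option synthInstance.maxHeartbeats 400000 in
set_option maxHeartbeats 1000000 in
include hA in
/-- **the full `hred`** (the reduction of every `A`-integral `q`-expansion of `gr_F G Q̄` lies in
`gr_F G k_A`) from (A1) + (V) + (R) + (RG) at the base level. -/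
theorem gew_hred_base (hG : gr_A1Q G) (hjG : jqModC ℤ ∈ G) (M : ℕ) [NeZero M]
    (hℓM : ¬ ℓ ∣ M) (D : rml_RamData Qb (gr_jG G hjG Qb) M)
    (hFb : rp_FunField Qb ↥(gr_F G Qb))
    [IsDiscreteValuationRing ↥(A.comap (algebraMap ↥(ebf_K0 ℓ) Qb))]
    (hRG : gvs_resField (O := ↥(A.comap (algebraMap ↥(ebf_K0 ℓ) Qb))) (gr_F G ↥(ebf_K0 ℓ)) ≤
      (gr_F G (IsLocalRing.ResidueField ↥(A.comap (algebraMap ↥(ebf_K0 ℓ) Qb)))).toSubfield)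
    (hvL : ℓ ≠ 2 → gr_VertHyp (A.comap (algebraMap ↥(ebf_K0 ℓ) Qb)) (gr_F G ↥(ebf_K0 ℓ))
      ((ℓ : ℕ) : ↥(A.comap (algebraMap ↥(ebf_K0 ℓ) Qb))) (lgh_lamK ↥(ebf_K0 ℓ)))
    (hvH : ℓ = 2 → ∀ h3 : (3 : ↥(ebf_K0 ℓ)) ≠ 0,
      grs_VertHyp h3 (A.comap (algebraMap ↥(ebf_K0 ℓ) Qb)) (gr_F G ↥(ebf_K0 ℓ))
        ((ℓ : ℕ) : ↥(A.comap (algebraMap ↥(ebf_K0 ℓ) Qb))) (hsh_muK ↥(ebf_K0 ℓ) h3)) :
    ∀ y : LaurentSeries A, coeffMap A.subtype y ∈ gr_F G Qb →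
      coeffMap (IsLocalRing.residue A) y ∈ gr_F G (IsLocalRing.ResidueField A) := by
  haveI h1 := gr_cr_hasJ G hjG ↥(ebf_K0 ℓ)
  have hA1 : gr_A1 (gr_F G ↥(ebf_K0 ℓ)) := gr_A1_family G hG ↥(ebf_K0 ℓ)
  obtain ⟨H1, -⟩ := gew_base_level0 G A hA hG hjG M hℓM D hvL hvH
  exact ge_hred_of_RG_family G ↥(ebf_K0 ℓ) hjG A hFb (ge_RG_family G A ↥(ebf_K0 ℓ) hRG)
    (grf_level_finite _ hA1) (ebf_irreducible A ℓ hA) (gew_base_hres A hA) H1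

set_option synthInstance.maxHeartbeats 400000 in
set_option maxHeartbeats 1000000 in
include hA in
/-- **[GE] NODE E FOR THE FAMILY `gr_F G`** from (A1) + (V) + (R) + (RG), all at the base level
`(K₀, O₀) = (ebf_K0 ℓ, A ∩ K₀)` or over `Q̄`, and the two function-field packages. -/
theorem gew_nodeE_base_RG (hG : gr_A1Q G) (hjG : jqModC ℤ ∈ G) (M : ℕ) [NeZero M]
    (hℓM : ¬ ℓ ∣ M) (D : rml_RamData Qb (gr_jG G hjG Qb) M)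
    (hFb : rp_FunField Qb ↥(gr_F G Qb))
    (hFt : rp_FunField (IsLocalRing.ResidueField A) ↥(gr_F G (IsLocalRing.ResidueField A)))
    [IsDiscreteValuationRing ↥(A.comap (algebraMap ↥(ebf_K0 ℓ) Qb))]
    (hRG : gvs_resField (O := ↥(A.comap (algebraMap ↥(ebf_K0 ℓ) Qb))) (gr_F G ↥(ebf_K0 ℓ)) ≤
      (gr_F G (IsLocalRing.ResidueField ↥(A.comap (algebraMap ↥(ebf_K0 ℓ) Qb)))).toSubfield)
    (hvL : ℓ ≠ 2 → gr_VertHyp (A.comap (algebraMap ↥(ebf_K0 ℓ) Qb)) (gr_F G ↥(ebf_K0 ℓ))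
      ((ℓ : ℕ) : ↥(A.comap (algebraMap ↥(ebf_K0 ℓ) Qb))) (lgh_lamK ↥(ebf_K0 ℓ)))
    (hvH : ℓ = 2 → ∀ h3 : (3 : ↥(ebf_K0 ℓ)) ≠ 0,
      grs_VertHyp h3 (A.comap (algebraMap ↥(ebf_K0 ℓ) Qb)) (gr_F G ↥(ebf_K0 ℓ))
        ((ℓ : ℕ) : ↥(A.comap (algebraMap ↥(ebf_K0 ℓ) Qb))) (hsh_muK ↥(ebf_K0 ℓ) h3)) :
    dsr_ReductionInputs A (IsLocalRing.residue A) (gr_F G Qb)
      (gr_F G (IsLocalRing.ResidueField A)) :=
  gew_nodeE_base G A hA hG hjG M hℓM D hFb hFt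
    (gew_hred_base G A hA hG hjG M hℓM D hFb hRG hvL hvH) hvL hvH

set_option synthInstance.maxHeartbeats 400000 in
set_option maxHeartbeats 1000000 in
include hA in
/-- **the class form** (`h𝒞` of `dsh_transferC` for the class of the functions integral over
`A[j]`) from (A1) + (V) + (R) + (RG). -/
theorem gec_classGenerates_base_RG (hG : gr_A1Q G) (hjG : jqModC ℤ ∈ G) (M : ℕ) [NeZero M]
    (hℓM : ¬ ℓ ∣ M) (D : rml_RamData Qb (gr_jG G hjG Qb) M)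
    (hFb : rp_FunField Qb ↥(gr_F G Qb))
    [IsDiscreteValuationRing ↥(A.comap (algebraMap ↥(ebf_K0 ℓ) Qb))]
    (hRG : gvs_resField (O := ↥(A.comap (algebraMap ↥(ebf_K0 ℓ) Qb))) (gr_F G ↥(ebf_K0 ℓ)) ≤
      (gr_F G (IsLocalRing.ResidueField ↥(A.comap (algebraMap ↥(ebf_K0 ℓ) Qb)))).toSubfield)
    (hvL : ℓ ≠ 2 → gr_VertHyp (A.comap (algebraMap ↥(ebf_K0 ℓ) Qb)) (gr_F G ↥(ebf_K0 ℓ))
      ((ℓ : ℕ) : ↥(A.comap (algebraMap ↥(ebf_K0 ℓ) Qb))) (lgh_lamK ↥(ebf_K0 ℓ)))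
    (hvH : ℓ = 2 → ∀ h3 : (3 : ↥(ebf_K0 ℓ)) ≠ 0,
      grs_VertHyp h3 (A.comap (algebraMap ↥(ebf_K0 ℓ) Qb)) (gr_F G ↥(ebf_K0 ℓ))
        ((ℓ : ℕ) : ↥(A.comap (algebraMap ↥(ebf_K0 ℓ) Qb))) (hsh_muK ↥(ebf_K0 ℓ) h3)) :
    dsh_ClassGenerates (gec_intClass A (gr_F G Qb) (gr_F G (IsLocalRing.ResidueField A))
      (gr_jG G hjG Qb)) :=
  gec_classGenerates_base G A hA hG hjG M hℓM D hFb
    (gew_hred_base G A hA hG hjG M hℓM D hFb hRG hvL hvH) hvL hvH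

set_option synthInstance.maxHeartbeats 400000 in
set_option maxHeartbeats 1000000 in
include hA in
/-- **(E) FOR THE FAMILY `gr_F G` FROM (A1) + (R) + (V) + (RG) ONLY.** -/
theorem gew_E_family (hG : gr_A1Q G) (hjG : jqModC ℤ ∈ G) (M : ℕ) [NeZero M]
    (hℓM : ¬ ℓ ∣ M) (D : rml_RamData Qb (gr_jG G hjG Qb) M)
    [IsDiscreteValuationRing ↥(A.comap (algebraMap ↥(ebf_K0 ℓ) Qb))]
    (hRG : gvs_resField (O := ↥(A.comap (algebraMap ↥(ebf_K0 ℓ) Qb))) (gr_F G ↥(ebf_K0 ℓ)) ≤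
      (gr_F G (IsLocalRing.ResidueField ↥(A.comap (algebraMap ↥(ebf_K0 ℓ) Qb)))).toSubfield)
    (hvL : ℓ ≠ 2 → gr_VertHyp (A.comap (algebraMap ↥(ebf_K0 ℓ) Qb)) (gr_F G ↥(ebf_K0 ℓ))
      ((ℓ : ℕ) : ↥(A.comap (algebraMap ↥(ebf_K0 ℓ) Qb))) (lgh_lamK ↥(ebf_K0 ℓ)))
    (hvH : ℓ = 2 → ∀ h3 : (3 : ↥(ebf_K0 ℓ)) ≠ 0,
      grs_VertHyp h3 (A.comap (algebraMap ↥(ebf_K0 ℓ) Qb)) (gr_F G ↥(ebf_K0 ℓ))
        ((ℓ : ℕ) : ↥(A.comap (algebraMap ↥(ebf_K0 ℓ) Qb))) (hsh_muK ↥(ebf_K0 ℓ) h3)) :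
    dsr_ReductionInputs A (IsLocalRing.residue A) (gr_F G Qb)
      (gr_F G (IsLocalRing.ResidueField A)) :=
  gew_nodeE_base_RG G A hA hG hjG M hℓM D (gei_funField_bar hG hjG)
    (gei_funField_red hG hjG A hA) hRG hvL hvH

set_option synthInstance.maxHeartbeats 400000 in
set_option maxHeartbeats 1000000 in
include hA in
/-- the class form from (A1) + (R) + (V) + (RG) only. -/
theorem gec_classGenerates_E_family (hG : gr_A1Q G) (hjG : jqModC ℤ ∈ G) (M : ℕ) [NeZero M]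
    (hℓM : ¬ ℓ ∣ M) (D : rml_RamData Qb (gr_jG G hjG Qb) M)
    [IsDiscreteValuationRing ↥(A.comap (algebraMap ↥(ebf_K0 ℓ) Qb))]
    (hRG : gvs_resField (O := ↥(A.comap (algebraMap ↥(ebf_K0 ℓ) Qb))) (gr_F G ↥(ebf_K0 ℓ)) ≤
      (gr_F G (IsLocalRing.ResidueField ↥(A.comap (algebraMap ↥(ebf_K0 ℓ) Qb)))).toSubfield)
    (hvL : ℓ ≠ 2 → gr_VertHyp (A.comap (algebraMap ↥(ebf_K0 ℓ) Qb)) (gr_F G ↥(ebf_K0 ℓ))
      ((ℓ : ℕ) : ↥(A.comap (algebraMap ↥(ebf_K0 ℓ) Qb))) (lgh_lamK ↥(ebf_K0 ℓ)))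
    (hvH : ℓ = 2 → ∀ h3 : (3 : ↥(ebf_K0 ℓ)) ≠ 0,
      grs_VertHyp h3 (A.comap (algebraMap ↥(ebf_K0 ℓ) Qb)) (gr_F G ↥(ebf_K0 ℓ))
        ((ℓ : ℕ) : ↥(A.comap (algebraMap ↥(ebf_K0 ℓ) Qb))) (hsh_muK ↥(ebf_K0 ℓ) h3)) :
    dsh_ClassGenerates (gec_intClass A (gr_F G Qb) (gr_F G (IsLocalRing.ResidueField A))
      (gr_jG G hjG Qb)) :=
  gec_classGenerates_base_RG G A hA hG hjG M hℓM D (gei_funField_bar hG hjG) hRG hvL hvH

set_option synthInstance.maxHeartbeats 400000 in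
set_option maxHeartbeats 1000000 in
include hA in
/-- the full `hred` from (A1) + (R) + (V) + (RG) only. -/
theorem gew_hred_E_family (hG : gr_A1Q G) (hjG : jqModC ℤ ∈ G) (M : ℕ) [NeZero M]
    (hℓM : ¬ ℓ ∣ M) (D : rml_RamData Qb (gr_jG G hjG Qb) M)
    [IsDiscreteValuationRing ↥(A.comap (algebraMap ↥(ebf_K0 ℓ) Qb))]
    (hRG : gvs_resField (O := ↥(A.comap (algebraMap ↥(ebf_K0 ℓ) Qb))) (gr_F G ↥(ebf_K0 ℓ)) ≤
      (gr_F G (IsLocalRing.ResidueField ↥(A.comap (algebraMap ↥(ebf_K0 ℓ) Qb)))).toSubfield)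
    (hvL : ℓ ≠ 2 → gr_VertHyp (A.comap (algebraMap ↥(ebf_K0 ℓ) Qb)) (gr_F G ↥(ebf_K0 ℓ))
      ((ℓ : ℕ) : ↥(A.comap (algebraMap ↥(ebf_K0 ℓ) Qb))) (lgh_lamK ↥(ebf_K0 ℓ)))
    (hvH : ℓ = 2 → ∀ h3 : (3 : ↥(ebf_K0 ℓ)) ≠ 0,
      grs_VertHyp h3 (A.comap (algebraMap ↥(ebf_K0 ℓ) Qb)) (gr_F G ↥(ebf_K0 ℓ))
        ((ℓ : ℕ) : ↥(A.comap (algebraMap ↥(ebf_K0 ℓ) Qb))) (hsh_muK ↥(ebf_K0 ℓ) h3)) :
    ∀ y : LaurentSeries A, coeffMap A.subtype y ∈ gr_F G Qb →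
      coeffMap (IsLocalRing.residue A) y ∈ gr_F G (IsLocalRing.ResidueField A) :=
  gew_hred_base G A hA hG hjG M hℓM D (gei_funField_bar hG hjG) hRG hvL hvH

end Fermat.Agent.DS
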