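/-
DS-T, cell [GE]/[GV]: THE RESIDUE FIELD OF THE `X₀(N)` BASE at an arbitrary DVR level
(prefix `ger_`; the `Γ₀` input `h0` of `gvs_res_mem`, asked for in #1785 (3)).

`L` a field with `L → Q̄`, `A` a valuation subring of `Q̄` over `ℓ ∤ N`, `O := A ∩ L`
(any level: number field, `ebf_K0 ℓ`, `Q̄` itself …).  Then the Gauss residue of every
`O`-bounded element of `lg_F L N = L(j(q^d) : d ∣ N)` lies in `F̃_N(k_O) = k_O(j(q^d) : d ∣ N)`:

  `ger_resField_full_le` : `gvs_resField (O := O) (lg_F L N) ≤ F̃_N(k_O)`.

Proof: over `A` this is `rpm_gres_mem` (node E: `rpi_hgen`); the residue over `A` is the image of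
the residue over `O` under `k_O((q)) → k_A((q))` (`gq_bc_res_comap`), `F̃_N(k_A)` is generated
over `k_A` by the image of `F̃_N(k_O)`, and linear disjointness (`ger_descent`) descends the
membership from `k_A` to `k_O`.
-/
import Mathlib
import Fermat.Agent.DS.GE.Descent
import Fermat.Agent.DS.GR.VertRes
import Fermat.Agent.JT3.Bridge.GaussBaseChangeModular

set_option autoImplicit false
set_option linter.style.haveILetI false
set_option linter.unusedSectionVars false

namespace Fermat.Agent.DS

open ModularCurve HahnSeries Fermat.Agent.JT3 Fermat.Agent.S24 IsLocalRing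

section FullC

variable {k k' : Type*} [Field k] [Field k'] [Algebra k k'] (N : ℕ) [NeZero N]

/-- the level-`N` field over `k'` is generated over `k'` by the image of the level-`N` field over
a subfield `k`. -/
theorem ger_fullC_le_adjoin :
    modularFunctionFieldFullC k' N ≤ IntermediateField.adjoin k'
      (⇑(coeffMap (algebraMap k k')) ''
        ((modularFunctionFieldFullC k N : IntermediateField k (LaurentSeries k)) :
          Set (LaurentSeries k))) := by
  rw [modularFunctionFieldFullC, IntermediateField.adjoin_le_iff]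
  rintro x ⟨d, hd, hdN, rfl⟩
  haveI := hd
  apply IntermediateField.subset_adjoin
  refine ⟨qExpand k d (jqModC k), jqModCd_mem_full k N hdN, ?_⟩
  rw [coeffMap_qExpand, coeffMap_jqModC]

/-- **descent of the level-`N` field along an extension of constants** (any characteristic). -/
theorem ger_fullC_descent {x₀ : LaurentSeries k}
    (h : coeffMap (algebraMap k k') x₀ ∈ modularFunctionFieldFullC k' N) :
    x₀ ∈ modularFunctionFieldFullC k N :=
  ger_descent (ger_fullC_le_adjoin (k := k) (k' := k') N h)

end FullC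

section Res

variable (N : ℕ) [NeZero N] {ℓ : ℕ} [Fact ℓ.Prime]
variable (A : ValuationSubring Kbar)
variable (L : Type*) [Field L] [Algebra L Kbar]

/-- **The Gauss residue of a bounded element of `lg_F L N` lies in `F̃_N(k_O)`**, `O = A ∩ L`. -/
theorem ger_res_full_mem (hℓN : ¬ ℓ ∣ N) (hA : A.LiesOverPrime ℓ)
    (z : ↥(gq_bddSubring ↥(A.comap (algebraMap L Kbar)) L))
    (hz : (z : LaurentSeries L) ∈ lg_F L N) :
    gq_res ↥(A.comap (algebraMap L Kbar)) L z ∈
      modularFunctionFieldFullC (ResidueField ↥(A.comap (algebraMap L Kbar))) N := by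
  letI : Algebra (ResidueField ↥(A.comap (algebraMap L Kbar))) (ResidueField ↥A) :=
    (ResidueField.map (gq_bc_comapHom (L := L) A)).toAlgebra
  apply ger_fullC_descent (k' := ResidueField ↥A) N
  have h1 := gq_bc_res_comap A z
  have h2 := rpm_gres_mem A N hℓN hA
    ⟨coeffMap (algebraMap L Kbar) (z : LaurentSeries L), gq_bc_mem_bar L N hz⟩
    (gq_bc_isBdd_comap A z.2)
  rw [h1] at h2
  exact h2

/-- the same for an `O`-integral expansion `f = ι y`, `y ∈ O((q))`: its coefficientwise reduction
lies in `F̃_N(k_O)` (the shape (RG) of #1675 (3) for the `Γ₀` family, any level). -/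
theorem ger_red_full_mem (hℓN : ¬ ℓ ∣ N) (hA : A.LiesOverPrime ℓ)
    (y : LaurentSeries ↥(A.comap (algebraMap L Kbar)))
    (hy : coeffMap (algebraMap ↥(A.comap (algebraMap L Kbar)) L) y ∈ lg_F L N) :
    coeffMap (residue ↥(A.comap (algebraMap L Kbar))) y ∈
      modularFunctionFieldFullC (ResidueField ↥(A.comap (algebraMap L Kbar))) N := by
  have h := ger_res_full_mem N A L hℓN hA
    ⟨coeffMap (algebraMap ↥(A.comap (algebraMap L Kbar)) L) y, gq_isBdd_iota y⟩ hy
  rwa [gq_res_iota] at h

variable [WfDvdMonoid ↥(A.comap (algebraMap L Kbar))]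

/-- **the `Γ₀` input of `gvs_res_mem`** at the level `(L, O = A ∩ L)`. -/
theorem ger_resField_full_le (hℓN : ¬ ℓ ∣ N) (hA : A.LiesOverPrime ℓ) :
    gvs_resField (O := ↥(A.comap (algebraMap L Kbar))) (lg_F L N) ≤
      (modularFunctionFieldFullC (ResidueField ↥(A.comap (algebraMap L Kbar))) N).toSubfield := by
  rintro _ ⟨z, hz, rfl⟩
  exact ger_res_full_mem N A L hℓN hA z hz

end Res

end Fermat.Agent.DS
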